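import Fermat.Prelude.Def_ModularCurve_ArithmeticGalois
import Fermat.Prelude.Def_ModularCurve_ReductionModL
import Fermat.Prelude.Def_GaloisRep_ComplexConjugation
import Fermat.Agent.ModPoly.FunRing
import Fermat.Agent.ModPoly.Scale
import Mathlib.GroupTheory.QuotientGroup.Basic

/-!
# The function field of level `Γ₁(M)` as series with rational coefficients

The variable is `q = exp (2πiτ)`. We use the Tate curve with parameter `q ^ M` and its points
`q ^ d`: `xSer M d` is the series of `(2πi)⁻² ℘(dτ) - 1/12` for the lattice `ℤ M τ + ℤ`, and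
`genSer M d e f` that of `(X_d - X_e)⁵ (X_d - X_f) / Δ(M τ)`, of weight zero.
-/

set_option autoImplicit false

noncomputable section

namespace FLTAgent.DS

open ModularCurve UpperHalfPlane CongruenceSubgroup
open FLTAgent.ModPoly
open scoped MatrixGroups Manifold

local notation "Qbar" => AlgebraicClosure ℚ

/-- The Weierstrass coordinate of the point `q ^ d` on the Tate curve of parameter `q ^ M`,
without its constant `1 / 12`. -/
def xSer (M : ℕ) (d : ZMod M) : PowerSeries ℤ :=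
  PowerSeries.mk fun n => ∑ k ∈ n.divisors, (k : ℤ) *
    ((if ((n / k : ℕ) : ZMod M) = d then 1 else 0)
      + (if ((n / k : ℕ) : ZMod M) = -d then 1 else 0)
      - 2 * (if ((n / k : ℕ) : ZMod M) = 0 then 1 else 0))

variable (M : ℕ) [NeZero M]

/-- The series of `1 / Δ (M τ)`. -/
def deltaInvSer : LaurentSeries ℤ :=
  qExpand ℤ M (HahnSeries.single (-1 : ℤ) (1 : ℤ) *
    HahnSeries.ofPowerSeries ℤ ℤ dedekindEtaUnitInv)

/-- The generator attached to the points `d`, `e`, `f`. -/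
def genSer (d e f : ZMod M) : LaurentSeries ℤ :=
  HahnSeries.ofPowerSeries ℤ ℤ ((xSer M d - xSer M e) ^ 5 * (xSer M d - xSer M f))
    * deltaInvSer M

/-- The series of `j (M τ)`. -/
def jSer : LaurentSeries ℤ := qExpand ℤ M (jqModC ℤ)

/-- Integral series with values in a ring. -/
abbrev castSer (R : Type*) [CommRing R] : LaurentSeries ℤ →+* LaurentSeries R :=
  coeffMap (Int.castRingHom R)

/-- The set of generators of the field of level `Γ₁(M)`. -/
def genSet : Set (LaurentSeries ℤ) :=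
  insert (jSer M)
    {x | ∃ d e f : ZMod M, d ≠ 0 ∧ e ≠ 0 ∧ f ≠ 0 ∧ x = genSer M d e f}

/-- The field of level `Γ₁(M)` over `ℚ`. -/
def fieldOne : IntermediateField ℚ (LaurentSeries ℚ) :=
  IntermediateField.adjoin ℚ (castSer ℚ '' genSet M)

/-- The field of level `Γ₁(M)` over `ℚ̄`. -/
abbrev K1 : IntermediateField Qbar (LaurentSeries Qbar) :=
  laurentBaseChange Qbar (fieldOne M)

/-- The field of level `Γ₁(M)` over any field of constants, from the same generators. -/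
def fieldOneC (k : Type*) [Field k] : IntermediateField k (LaurentSeries k) :=
  IntermediateField.adjoin k (castSer k '' genSet M)

/-- The coefficientwise action of a Galois element on `K1`. -/
abbrev galOne (σ : Qbar ≃ₐ[ℚ] Qbar) : K1 M ≃+* K1 M := arithmeticRingAut (fieldOne M) σ

/-- `Γ₁(M)`-invariant functions, holomorphic on `ℍ` and meromorphic at the cusps. -/
def modFunRingOne : Subalgebra ℂ (ℍ → ℂ) where
  carrier := {g | MDiff g ∧ (∀ γ ∈ Gamma1 M, ∀ τ : ℍ, g (γ • τ) = g τ) ∧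
    ∀ γ : SL(2, ℤ), (fun τ : ℍ => g (γ • τ)) ∈ expRing M}
  mul_mem' := fun ⟨a1, a2, a3⟩ ⟨b1, b2, b3⟩ =>
    ⟨a1.mul b1, fun γ hγ τ => by simp only [Pi.mul_apply, a2 γ hγ τ, b2 γ hγ τ],
      fun γ => (expRing M).mul_mem (a3 γ) (b3 γ)⟩
  add_mem' := fun ⟨a1, a2, a3⟩ ⟨b1, b2, b3⟩ =>
    ⟨a1.add b1, fun γ hγ τ => by simp only [Pi.add_apply, a2 γ hγ τ, b2 γ hγ τ],
      fun γ => (expRing M).add_mem (a3 γ) (b3 γ)⟩
  algebraMap_mem' c :=
    ⟨mdifferentiable_const, fun _ _ _ => rfl, fun _ => ⟨_, Expands.const M c⟩⟩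

/-- The fixed embedding of `ℚ̄` into `ℂ`. -/
def iotaOne : Qbar →+* ℂ := complexEmbedding.toRingHom

variable {M}

/-- `g` has the Fourier expansion `x` at `∞`. -/
def IsExpOne (g : ℍ → ℂ) (x : LaurentSeries Qbar) : Prop := Expands 1 g (coeffMap iotaOne x)

/-- `x` is the expansion of the quotient `a / b` of two invariant functions. -/
def RepOne (x : K1 M) (a b : modFunRingOne M) : Prop :=
  ∃ ya yb : LaurentSeries Qbar, yb ≠ 0 ∧ IsExpOne (a : ℍ → ℂ) ya ∧ IsExpOne (b : ℍ → ℂ) yb ∧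
    (x : LaurentSeries Qbar) * yb = ya

/-- `c` is the character of an `ℓ`-th root of `x`. -/
def IsRootHomOne (ℓ : ℕ) (x : K1 M) (c : Additive (Gamma1 M) →+ ZMod ℓ) : Prop :=
  ∃ (h : ℍ → ℂ) (a b : modFunRingOne M), RepOne x a b ∧ MDiff h ∧ h ≠ 0 ∧
    (∀ τ, (b : ℍ → ℂ) τ * h τ ^ ℓ = (a : ℍ → ℂ) τ) ∧
    ∀ (γ : Gamma1 M) (τ : ℍ), h ((γ : SL(2, ℤ)) • τ) =
      Complex.exp (2 * Real.pi * Complex.I * ((c (Additive.ofMul γ)).val : ℂ) / ℓ) * h τ

/-- All orders of `x` are divisible by `ℓ`. -/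
def DvdDiv (ℓ : ℕ) (x : K1 M) : Prop :=
  ∀ v : AlgebraicCurve.Place Qbar (K1 M), (ℓ : ℤ) ∣ v.ord x

variable (M) in
/-- The group of units of `K1` modulo `ℓ`-th powers, written additively. -/
abbrev UnitsModPow (ℓ : ℕ) : Type _ :=
  Additive ((K1 M)ˣ ⧸ (powMonoidHom ℓ : (K1 M)ˣ →* (K1 M)ˣ).range)

/-- The class of a unit modulo `ℓ`-th powers. -/
def powClass (ℓ : ℕ) (x : (K1 M)ˣ) : UnitsModPow M ℓ :=
  Additive.ofMul (QuotientGroup.mk x)

end FLTAgent.DS
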