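import Fermat.Agent.DS.Geom.Defs
import Fermat.Agent.DS.Interfaces
import Fermat.Agent.FunctionField.Principal
import Fermat.Prelude.Def_GaloisRep_Residual
import Mathlib.RingTheory.RootsOfUnity.PrimitiveRoots

/-!
# The statements about the field of level `Γ₁(M)` used for the mod `ℓ` representations

`LevelFacts` is proved in `DS/Geom/Field*`, `CharClassFacts` in `DS/Geom/Phi*`, `ReductionFacts`
in `DS/Geom/Red*`.
-/

set_option autoImplicit false

noncomputable section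

namespace FLTAgent.DS

open ModularCurve AlgebraicCurve UpperHalfPlane CongruenceSubgroup
open FLTAgent.ModPoly
open scoped MatrixGroups

local notation "Qbar" => AlgebraicClosure ℚ
local notation "Γℚ" => AlgebraicClosure ℚ ≃ₐ[ℚ] AlgebraicClosure ℚ

variable (M : ℕ) [NeZero M]

/-- The diamond automorphisms: `dia u` is composition with `γ ∈ Γ₀(M)` of lower right entry `u`. -/
structure DiamondData where
  dia : (ZMod M)ˣ →* (K1 M ≃ₐ[Qbar] K1 M)
  spec : ∀ (u : (ZMod M)ˣ) (γ : SL(2, ℤ)), γ ∈ Gamma0 M → ((γ 1 1 : ℤ) : ZMod M) = u →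
    ∀ (x : K1 M) (a b : modFunRingOne M), RepOne x a b →
      ∃ a' b' : modFunRingOne M, (∀ τ : ℍ, (a' : ℍ → ℂ) τ = (a : ℍ → ℂ) (γ • τ)) ∧
        (∀ τ : ℍ, (b' : ℍ → ℂ) τ = (b : ℍ → ℂ) (γ • τ)) ∧ RepOne (dia u x) a' b'
  dia_galOne : ∀ (u : (ZMod M)ˣ) (σ : Γℚ) (x : K1 M),
    dia u (galOne M σ x) = galOne M σ (dia u x)

/-- The analytic dictionary and the ramification over `j (M τ)`. -/
structure LevelFacts : Prop where
  isFunctionField : FunctionField.IsFunctionField Qbar (K1 M)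
  exists_rep : ∀ x : K1 M, ∃ a b : modFunRingOne M, RepOne x a b
  mem_of_isExp : ∀ (g : modFunRingOne M) (y : LaurentSeries Qbar),
    IsExpOne (g : ℍ → ℂ) y → y ∈ K1 M
  ord_sub_eq_one : ∀ (J : K1 M), (J : LaurentSeries Qbar) = castSer Qbar (jSer M) →
    ∀ a : Qbar, a ≠ 0 → a ≠ 1728 → ∀ v : Place Qbar (K1 M),
      0 < v.ord (J - algebraMap Qbar (K1 M) a) → v.ord (J - algebraMap Qbar (K1 M) a) = 1

variable {M}

/-- `∏_j x (ζ^j q)`. -/
def twistProd (p : ℕ) (ζ : Qbarˣ) (x : LaurentSeries Qbar) : LaurentSeries Qbar :=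
  ∏ j ∈ Finset.range p, twist (ζ ^ j) x

/-- `y` is the image of `x` under `T p`: `y (q ^ p) = ∏_j x (ζ^j q) * (dia p x) (q ^ (p ^ 2))`. -/
def IsTImage (D : DiamondData M) (p : ℕ) [NeZero p] (hpM : p.Coprime M) (x y : K1 M) : Prop :=
  ∀ ζ : Qbarˣ, IsPrimitiveRoot ζ p →
    qExpand Qbar p (y : LaurentSeries Qbar) =
      twistProd p ζ (x : LaurentSeries Qbar) *
        qExpand Qbar (p * p) ((D.dia (ZMod.unitOfCoprime p hpM) x : K1 M) : LaurentSeries Qbar)

/-- Existence of the Hecke images. -/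
def HeckeFacts (D : DiamondData M) : Prop :=
  ∀ (p : ℕ) [NeZero p], p.Prime → ∀ (hpM : p.Coprime M) (x : K1 M),
    ∃ y : K1 M, IsTImage D p hpM x y

/-- Classes attached to parabolic homomorphisms into `ℤ / ℓ`. -/
structure CharClassFacts (D : DiamondData M) (ℓ : ℕ) : Prop where
  exists_class : ∀ c : Additive (Gamma1 M) →+ ZMod ℓ,
    ModularCurve.Period.IsParabolicHom (Gamma1 M) c →
      ∃ x : K1 M, x ≠ 0 ∧ DvdDiv ℓ x ∧ IsRootHomOne ℓ x c
  mul : ∀ (x y : K1 M) (c d : Additive (Gamma1 M) →+ ZMod ℓ),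
    IsRootHomOne ℓ x c → IsRootHomOne ℓ y d → IsRootHomOne ℓ (x * y) (c + d)
  pow_iff : ∀ (x : K1 M) (c : Additive (Gamma1 M) →+ ZMod ℓ), x ≠ 0 → IsRootHomOne ℓ x c →
    (c = 0 ↔ ∃ u : K1 M, x = u ^ ℓ)
  diamond : ∀ (u : (ZMod M)ˣ) (γ : SL(2, ℤ)), γ ∈ Gamma0 M → ((γ 1 1 : ℤ) : ZMod M) = u →
    ∀ (x : K1 M) (c c' : Additive (Gamma1 M) →+ ZMod ℓ), IsRootHomOne ℓ x c →
      (∀ a b : Gamma1 M, (b : SL(2, ℤ)) = γ * (a : SL(2, ℤ)) * γ⁻¹ →
        c' (Additive.ofMul a) = c (Additive.ofMul b)) →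
      IsRootHomOne ℓ (D.dia u x) c'
  hecke : ∀ (p : ℕ) [NeZero p], p.Prime → ∀ (hpM : p.Coprime M) (x y : K1 M)
    (c c' : Additive (Gamma1 M) →+ ZMod ℓ), IsRootHomOne ℓ x c → IsTImage D p hpM x y →
      IsHeckeImageOne p c c' → IsRootHomOne ℓ y c'

/-- `x` reduces to the series `z` over the residue field of `A`. -/
def RedOne (A : ValuationSubring Qbar) (x : K1 M)
    (z : LaurentSeries (IsLocalRing.ResidueField A)) : Prop :=
  ∃ a b : LaurentSeries A, coeffMap (IsLocalRing.residue A) b ≠ 0 ∧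
    (x : LaurentSeries Qbar) * coeffMap A.subtype b = coeffMap A.subtype a ∧
    z * coeffMap (IsLocalRing.residue A) b = coeffMap (IsLocalRing.residue A) a

/-- Good reduction of the field of level `Γ₁(M)` at `A`. -/
structure ReductionFacts (D : DiamondData M) (A : ValuationSubring Qbar) : Prop where
  exists_scale : ∀ x : K1 M, x ≠ 0 → ∃ (c : Qbar) (z : LaurentSeries (IsLocalRing.ResidueField A)),
    c ≠ 0 ∧ z ≠ 0 ∧ RedOne A (c • x) z
  dia_red : ∀ (u : (ZMod M)ˣ) (x : K1 M) (z : LaurentSeries (IsLocalRing.ResidueField A)),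
    RedOne A x z → z ≠ 0 →
      ∃ z' : LaurentSeries (IsLocalRing.ResidueField A), z' ≠ 0 ∧ RedOne A (D.dia u x) z'
  torsion : ∀ (ℓ : ℕ), (ℓ : IsLocalRing.ResidueField A) ≠ 0 → ∀ x : K1 M, x ≠ 0 → DvdDiv ℓ x →
    RedOne A x 1 → ∃ u : K1 M, x = u ^ ℓ

/-- Everything needed at level `M`. At `p = 2` the level is a multiple of `3`, at `p = 3` it is
even, so that a coordinate with reduced ramification is available. -/
structure GeomFacts : Prop where
  exists_data : ∀ (M : ℕ) [NeZero M], 7 ≤ M → LevelFacts M ∧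
    ∃ D : DiamondData M, HeckeFacts D ∧ (∀ ℓ : ℕ, ℓ.Prime → CharClassFacts D ℓ) ∧
      ∀ (p : ℕ), p.Prime → ¬ p ∣ M → (p = 2 → 3 ∣ M) → (p = 3 → 2 ∣ M) →
        ∀ A : ValuationSubring Qbar, A.LiesOverPrime p → ReductionFacts D A

/-- A finite family of integral series over a ring of series: the reduction of the conjugates of
one of its members is governed by the group permuting the family. -/
def ReducedGaloisStatement : Prop :=
  ∀ (A k : Type) [CommRing A] [Field k] [Infinite k] (π : A →+* k) (_ : Function.Surjective π)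
    (S G : Type) [Fintype S] [Group G] [Fintype G] [MulAction G S]
    (y : S → LaurentSeries A) (J : LaurentSeries A),
    (∀ P : MvPolynomial S A, (∀ g : G, MvPolynomial.rename (g • ·) P = P) →
      MvPolynomial.aeval y P ∈ Algebra.adjoin A {J}) →
    ∀ (E : IntermediateField k (LaurentSeries k)) (φ : E →ₐ[k] LaurentSeries k)
      (hy : ∀ s, coeffMap π (y s) ∈ E) (hJ : coeffMap π J ∈ E),
      φ ⟨_, hJ⟩ = coeffMap π J →
      ∃ g : G, ∀ s : S, φ ⟨_, hy s⟩ = coeffMap π (y (g • s))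

end FLTAgent.DS
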