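import Fermat.Agent.DS.Geom.FieldInterp
import Fermat.Agent.DS.Geom.Facts

/-!
# The field of level `Γ₁(M)`: expansions and diamond automorphisms

`exists_rep_one`, `mem_of_isExp_one` and `diamondData`.
-/

set_option autoImplicit false

noncomputable section

namespace FLTAgent.DS.Gen

open Filter Function CongruenceSubgroup ModularCurve
open UpperHalfPlane hiding I
open FLTAgent.ModPoly
open scoped Topology Manifold MatrixGroups

local notation "Qbar" => AlgebraicClosure ℚ

variable {M : ℕ} [NeZero M]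

/-- The series of the generator `i` over `K`. -/
def serG (K : Type*) [CommRing K] (i : GIdx M) : LaurentSeries K := castSer K (gSer i)

theorem coeffMap_inj {R S : Type*} [CommRing R] [CommRing S] {f : R →+* S}
    (hf : Function.Injective f) : Function.Injective (coeffMap f) := fun x y h =>
  HahnSeries.ext (funext fun k => hf (congrArg (fun z : LaurentSeries S => z.coeff k) h))

section Algebra

variable (K : Type*) [Field K]

/-- Evaluation at the series of the generators. -/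
def evS : MvPolynomial (GIdx M) K →ₐ[K] LaurentSeries K := MvPolynomial.aeval (serG K)

variable [Algebra ℚ K]

theorem coeffEmb_serG (i : GIdx M) : coeffEmb K (serG ℚ i) = serG K i := by
  rw [coeffEmb, serG, serG, castSer, castSer, coeffMap_coeffMap]
  exact coeffMap_congr (RingHom.ext_int _ _) _

theorem image_castSer_genSet (R : Type*) [CommRing R] :
    castSer R '' genSet M = Set.range (serG (M := M) R) := by
  rw [← range_gSer, ← Set.range_comp]
  rfl

theorem laurentBaseChange_fieldOne :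
    laurentBaseChange K (fieldOne M) = IntermediateField.adjoin K (Set.range (serG (M := M) K)) := by
  refine le_antisymm (IntermediateField.adjoin_le_iff.2 ?_) (IntermediateField.adjoin_le_iff.2 ?_)
  · rintro _ ⟨z, hz, rfl⟩
    induction hz using IntermediateField.adjoin_induction with
    | mem z hz =>
      rw [image_castSer_genSet] at hz
      obtain ⟨i, rfl⟩ := hz
      rw [coeffEmb_serG]
      exact IntermediateField.subset_adjoin _ _ ⟨i, rfl⟩
    | algebraMap q =>
      rw [coeffEmb, algebraMap_laurentSeries_eq_single, coeffMap_single,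
        ← algebraMap_laurentSeries_eq_single]
      exact IntermediateField.algebraMap_mem _ _
    | add a b _ _ ha hb => rw [map_add]; exact add_mem ha hb
    | inv a _ ha => rw [map_inv₀]; exact inv_mem ha
    | mul a b _ _ ha hb => rw [map_mul]; exact mul_mem ha hb
  · rintro _ ⟨i, rfl⟩
    rw [← coeffEmb_serG]
    exact coeffEmb_mem_laurentBaseChange K (IntermediateField.subset_adjoin ℚ _
      (by rw [image_castSer_genSet]; exact ⟨i, rfl⟩))

theorem laurentBaseChange_fieldOne_eq_fieldOneC :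
    laurentBaseChange K (fieldOne M) = fieldOneC M K := by
  rw [laurentBaseChange_fieldOne, fieldOneC, image_castSer_genSet]

theorem evS_mem (P : MvPolynomial (GIdx M) K) : evS K P ∈ laurentBaseChange K (fieldOne M) := by
  rw [laurentBaseChange_fieldOne]
  exact IntermediateField.algebra_adjoin_le_adjoin K _
    (by rw [Algebra.adjoin_range_eq_range_aeval]; exact ⟨P, rfl⟩)

theorem exists_quot {x : LaurentSeries K} (hx : x ∈ laurentBaseChange K (fieldOne M)) :
    ∃ P Q : MvPolynomial (GIdx M) K, evS K Q ≠ 0 ∧ x * evS K Q = evS K P := by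
  rw [laurentBaseChange_fieldOne, IntermediateField.mem_adjoin_range_iff] at hx
  obtain ⟨P, Q, rfl⟩ := hx
  rcases eq_or_ne (MvPolynomial.aeval (serG (M := M) K) Q) 0 with h | h
  · exact ⟨0, 1, by simp, by rw [h]; simp⟩
  · exact ⟨P, Q, h, div_mul_cancel₀ _ h⟩

end Algebra

section Analytic

variable {K : Type*} [Field K] (ι : K →+* ℂ)

/-- Evaluation at the functions of the generators. -/
def evF : MvPolynomial (GIdx M) K →+* modFunRingOne M :=
  MvPolynomial.eval₂Hom ((algebraMap ℂ (modFunRingOne M)).comp ι) gEl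

theorem gL_evF (P : MvPolynomial (GIdx M) K) : gL M (evF ι P) = coeffMap ι (evS K P) := by
  induction P using MvPolynomial.induction_on with
  | C a =>
    rw [evF, MvPolynomial.eval₂Hom_C, RingHom.comp_apply, AlgHom.commutes, evS,
      MvPolynomial.aeval_C, algebraMap_laurentSeries_eq_single, algebraMap_laurentSeries_eq_single,
      coeffMap_single]
  | add p q hp hq => rw [map_add, map_add, map_add, map_add, hp, hq]
  | mul_X p i hp =>
    rw [map_mul, map_mul, map_mul, map_mul, hp, evF, MvPolynomial.eval₂Hom_X', evS,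
      MvPolynomial.aeval_X, serG, castSer, coeffMap_coeffMap,
      coeffMap_congr (RingHom.ext_int (ι.comp (Int.castRingHom K)) (Int.castRingHom ℂ))]
    congr 1
    exact gL_eq_of_expands (expands_gFun i)

theorem expands_evF (P : MvPolynomial (GIdx M) K) :
    Expands 1 (evF ι P : ℍ → ℂ) (coeffMap ι (evS K P)) :=
  gL_evF ι P ▸ expands_gL _

theorem evF_eq_zero {P : MvPolynomial (GIdx M) K} (h : evS K P = 0) : evF ι P = 0 :=
  gL_injective (by rw [gL_evF, h, map_zero, map_zero])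

theorem evS_eq_zero {P : MvPolynomial (GIdx M) K} (h : evF ι P = 0) : evS K P = 0 :=
  coeffMap_inj ι.injective (by rw [← gL_evF, h, map_zero, map_zero])

theorem evF_rename_apply {γ : SL(2, ℤ)} (hγ : γ ∈ Gamma0 M) {u : (ZMod M)ˣ}
    (hu : ((γ 1 1 : ℤ) : ZMod M) = u) (P : MvPolynomial (GIdx M) K) (τ : ℍ) :
    (evF ι (MvPolynomial.rename (mulIdx u⁻¹) P) : ℍ → ℂ) τ = (evF ι P : ℍ → ℂ) (γ • τ) := by
  induction P using MvPolynomial.induction_on with
  | C a => simp [evF]
  | add p q hp hq => simp only [map_add, Subalgebra.coe_add, Pi.add_apply, hp, hq]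
  | mul_X p i hp =>
    simp only [map_mul, MvPolynomial.rename_X, Subalgebra.coe_mul, Pi.mul_apply, hp]
    congr 1
    simp only [evF, MvPolynomial.eval₂Hom_X', gEl]
    exact (gFun_smul hγ (u := u⁻¹) (by rw [inv_inv, hu]) i τ).symm

end Analytic

theorem exists_gamma0 (u : (ZMod M)ˣ) :
    ∃ γ : SL(2, ℤ), γ ∈ Gamma0 M ∧ ((γ 1 1 : ℤ) : ZMod M) = u := by
  obtain ⟨a, b, hab⟩ := Nat.isCoprime_iff_coprime.mpr (ZMod.val_coe_unit_coprime u)
  refine ⟨⟨!![a, -b; (M : ℤ), ((u : ZMod M).val : ℤ)], by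
    rw [Matrix.det_fin_two_of]; linarith⟩, Gamma0_mem.2 (by simp), by simp⟩

theorem comp_gamma0_mem {g : ℍ → ℂ} (hg : g ∈ modFunRingOne M) {γ : SL(2, ℤ)}
    (hγ : γ ∈ Gamma0 M) : (fun τ => g (γ • τ)) ∈ modFunRingOne M := by
  refine ⟨mdifferentiable_comp_smul hg.1 γ, fun δ hδ τ => ?_, fun δ => ?_⟩
  · obtain ⟨h1, h2, h3⟩ := (Gamma1_mem M δ).1 hδ
    have hc : γ * δ * γ⁻¹ ∈ Gamma1 M := by
      have h0 : (γ 1 0 : ZMod M) = 0 := Gamma0_mem.1 hγ
      have hdet := congrArg (Int.cast : ℤ → ZMod M)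
        ((Matrix.det_fin_two (γ : Matrix (Fin 2) (Fin 2) ℤ)).symm.trans γ.det_coe)
      push_cast at hdet
      refine (Gamma1_mem M _).2 ⟨?_, ?_, ?_⟩ <;>
        simp [Matrix.SpecialLinearGroup.coe_inv, Matrix.adjugate_fin_two, Matrix.mul_apply,
          Fin.sum_univ_two, h0, h1, h2, h3] <;>
        linear_combination hdet + (γ 0 1 : ZMod M) * h0
    show g (γ • δ • τ) = g (γ • τ)
    rw [← mul_smul, show γ * δ = γ * δ * γ⁻¹ * γ by group, mul_smul, hg.2.1 _ hc]
  · simpa only [← mul_smul] using hg.2.2 (γ * δ)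

/-! ### The diamond automorphisms -/

/-- The permuted polynomial. -/
def diaPoly (u : (ZMod M)ˣ) (P : MvPolynomial (GIdx M) Qbar) : MvPolynomial (GIdx M) Qbar :=
  MvPolynomial.rename (mulIdx u⁻¹) P

theorem diaPoly_diaPoly (u v : (ZMod M)ˣ) (P : MvPolynomial (GIdx M) Qbar) :
    diaPoly u (diaPoly v P) = diaPoly (u * v) P := by
  rw [diaPoly, diaPoly, diaPoly, MvPolynomial.rename_rename]
  rw [show (mulIdx u⁻¹ ∘ mulIdx v⁻¹ : GIdx M → GIdx M) = mulIdx (u * v)⁻¹ from
    funext fun i => by rw [Function.comp_apply, mulIdx_mul, mul_inv]]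

theorem diaPoly_one (P : MvPolynomial (GIdx M) Qbar) : diaPoly 1 P = P := by
  rw [diaPoly, inv_one, show (mulIdx (1 : (ZMod M)ˣ)) = id from funext mulIdx_one,
    MvPolynomial.rename_id_apply]

theorem evS_diaPoly_eq_zero (u : (ZMod M)ˣ) {P : MvPolynomial (GIdx M) Qbar}
    (h : evS Qbar P = 0) : evS Qbar (diaPoly u P) = 0 := by
  obtain ⟨γ, hγ, hu⟩ := exists_gamma0 u
  refine evS_eq_zero iotaOne (Subtype.ext (funext fun τ => ?_))
  rw [diaPoly, evF_rename_apply iotaOne hγ hu, evF_eq_zero iotaOne h]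
  rfl

theorem evS_diaPoly_ne_zero (u : (ZMod M)ˣ) {P : MvPolynomial (GIdx M) Qbar}
    (h : evS Qbar P ≠ 0) : evS Qbar (diaPoly u P) ≠ 0 := fun e => h <| by
  have := evS_diaPoly_eq_zero u⁻¹ e
  rwa [diaPoly_diaPoly, inv_mul_cancel, diaPoly_one] at this

/-- The image of `x`. -/
def diaVal (u : (ZMod M)ˣ) (x : K1 M) : LaurentSeries Qbar :=
  evS Qbar (diaPoly u (exists_quot Qbar x.2).choose) /
    evS Qbar (diaPoly u (exists_quot Qbar x.2).choose_spec.choose)

theorem diaVal_eq (u : (ZMod M)ˣ) {x : K1 M} {P Q : MvPolynomial (GIdx M) Qbar}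
    (hQ : evS Qbar Q ≠ 0) (h : (x : LaurentSeries Qbar) * evS Qbar Q = evS Qbar P) :
    diaVal u x = evS Qbar (diaPoly u P) / evS Qbar (diaPoly u Q) := by
  rw [diaVal]
  set P' := (exists_quot Qbar x.2).choose
  set Q' := (exists_quot Qbar x.2).choose_spec.choose
  obtain ⟨hQ', h'⟩ := (exists_quot Qbar x.2).choose_spec.choose_spec
  have hz : evS Qbar (P' * Q - P * Q') = 0 := by
    rw [map_sub, map_mul, map_mul, ← h, ← h']
    ring
  have := evS_diaPoly_eq_zero u hz
  simp only [diaPoly, map_sub, map_mul, sub_eq_zero] at this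
  rw [div_eq_div_iff (evS_diaPoly_ne_zero u hQ') (evS_diaPoly_ne_zero u hQ)]
  exact this

theorem diaVal_mem (u : (ZMod M)ˣ) (x : K1 M) : diaVal u x ∈ K1 M :=
  div_mem (evS_mem Qbar _) (evS_mem Qbar _)

theorem diaVal_quot (u : (ZMod M)ˣ) {x : K1 M} {P Q : MvPolynomial (GIdx M) Qbar}
    (hQ : evS Qbar Q ≠ 0) (h : (x : LaurentSeries Qbar) * evS Qbar Q = evS Qbar P) :
    diaVal u x * evS Qbar (diaPoly u Q) = evS Qbar (diaPoly u P) := by
  rw [diaVal_eq u hQ h, div_mul_cancel₀ _ (evS_diaPoly_ne_zero u hQ)]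

/-- The endomorphism `x ↦ diaVal u x`. -/
def diaAlg (u : (ZMod M)ˣ) : K1 M →ₐ[Qbar] K1 M where
  toFun x := ⟨diaVal u x, diaVal_mem u x⟩
  map_one' := Subtype.ext <| by
    show diaVal u 1 = 1
    rw [diaVal_eq u (P := 1) (Q := 1) (by simp) (by simp)]
    simp [diaPoly]
  map_mul' x y := Subtype.ext <| by
    obtain ⟨P, Q, hQ, h⟩ := exists_quot Qbar x.2
    obtain ⟨P', Q', hQ', h'⟩ := exists_quot Qbar y.2
    show diaVal u (x * y) = diaVal u x * diaVal u y
    rw [diaVal_eq u hQ h, diaVal_eq u hQ' h', diaVal_eq u (P := P * P') (Q := Q * Q')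
      (by simp [hQ, hQ']) (by rw [MulMemClass.coe_mul, map_mul, map_mul, ← h, ← h']; ring)]
    simp [diaPoly, div_mul_div_comm]
  map_zero' := Subtype.ext <| by
    show diaVal u 0 = 0
    rw [diaVal_eq u (P := 0) (Q := 1) (by simp) (by simp)]
    simp [diaPoly]
  map_add' x y := Subtype.ext <| by
    obtain ⟨P, Q, hQ, h⟩ := exists_quot Qbar x.2
    obtain ⟨P', Q', hQ', h'⟩ := exists_quot Qbar y.2
    show diaVal u (x + y) = diaVal u x + diaVal u y
    have hsum : ((x + y : K1 M) : LaurentSeries Qbar) * evS Qbar (Q * Q') =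
        evS Qbar (P * Q' + Q * P') := by
      rw [AddMemClass.coe_add, map_add, map_mul, map_mul, map_mul, ← h, ← h']
      ring
    rw [diaVal_eq u hQ h, diaVal_eq u hQ' h', diaVal_eq u (by simp [hQ, hQ']) hsum,
      div_add_div _ _ (evS_diaPoly_ne_zero u hQ) (evS_diaPoly_ne_zero u hQ')]
    simp [diaPoly]
  commutes' a := Subtype.ext <| by
    show diaVal u (algebraMap Qbar (K1 M) a) = algebraMap Qbar (LaurentSeries Qbar) a
    rw [diaVal_eq u (P := MvPolynomial.C a) (Q := 1) (by simp) (by simp [evS])]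
    simp [diaPoly, evS]

theorem diaAlg_quot (u : (ZMod M)ˣ) {x : K1 M} {P Q : MvPolynomial (GIdx M) Qbar}
    (hQ : evS Qbar Q ≠ 0) (h : (x : LaurentSeries Qbar) * evS Qbar Q = evS Qbar P) :
    ((diaAlg u x : K1 M) : LaurentSeries Qbar) * evS Qbar (diaPoly u Q) =
      evS Qbar (diaPoly u P) :=
  diaVal_quot u hQ h

theorem diaAlg_diaAlg (u v : (ZMod M)ˣ) (x : K1 M) : diaAlg u (diaAlg v x) = diaAlg (u * v) x := by
  obtain ⟨P, Q, hQ, h⟩ := exists_quot Qbar x.2
  refine Subtype.ext ?_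
  show diaVal u _ = diaVal (u * v) x
  rw [diaVal_eq (u * v) hQ h, diaVal_eq u (evS_diaPoly_ne_zero v hQ) (diaAlg_quot v hQ h),
    diaPoly_diaPoly, diaPoly_diaPoly]

theorem diaAlg_one (x : K1 M) : diaAlg 1 x = x := by
  obtain ⟨P, Q, hQ, h⟩ := exists_quot Qbar x.2
  refine Subtype.ext ?_
  show diaVal 1 x = _
  rw [diaVal_eq 1 hQ h, diaPoly_one, diaPoly_one, ← h, mul_div_cancel_right₀ _ hQ]

variable (M) in
/-- The diamond automorphisms. -/
def diaHom : (ZMod M)ˣ →* (K1 M ≃ₐ[Qbar] K1 M) where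
  toFun u := AlgEquiv.ofAlgHom (diaAlg u) (diaAlg u⁻¹)
    (AlgHom.ext fun x => by simp [diaAlg_diaAlg, diaAlg_one])
    (AlgHom.ext fun x => by simp [diaAlg_diaAlg, diaAlg_one])
  map_one' := AlgEquiv.ext fun x => diaAlg_one x
  map_mul' u v := AlgEquiv.ext fun x => (diaAlg_diaAlg u v x).symm

theorem diaHom_apply (u : (ZMod M)ˣ) (x : K1 M) : diaHom M u x = diaAlg u x := rfl

/-- The action on a generator. -/
theorem diaHom_serG (u : (ZMod M)ˣ) (i : GIdx M) (x : K1 M)
    (hx : (x : LaurentSeries Qbar) = serG Qbar i) :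
    ((diaHom M u x : K1 M) : LaurentSeries Qbar) = serG Qbar (mulIdx u⁻¹ i) := by
  have := diaVal_eq u (P := MvPolynomial.X i) (Q := 1) (x := x) (by simp) (by simp [hx, evS])
  rw [diaHom_apply]
  show diaVal u x = _
  rw [this]
  simp [diaPoly, evS]

theorem diaHom_galOne (u : (ZMod M)ˣ) (σ : Qbar ≃ₐ[ℚ] Qbar) (x : K1 M) :
    diaHom M u (galOne M σ x) = galOne M σ (diaHom M u x) := by
  obtain ⟨P, Q, hQ, h⟩ := exists_quot Qbar x.2
  have hev : ∀ R : MvPolynomial (GIdx M) Qbar, coeffMap (σ : Qbar →+* Qbar) (evS Qbar R) =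
      evS Qbar (MvPolynomial.map (σ : Qbar →+* Qbar) R) := by
    intro R
    induction R using MvPolynomial.induction_on with
    | C a => simp [evS, algebraMap_laurentSeries_eq_single]
    | add p q hp hq => simp only [map_add, hp, hq]
    | mul_X p i hp =>
      simp only [map_mul, hp, MvPolynomial.map_X]
      congr 1
      simp only [evS, MvPolynomial.aeval_X, serG, castSer, coeffMap_coeffMap]
      exact coeffMap_congr (RingHom.ext_int _ _) _
  have hQ' : evS Qbar (MvPolynomial.map (σ : Qbar →+* Qbar) Q) ≠ 0 := by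
    rw [← hev]
    exact fun e => hQ (coeffMap_inj (RingHom.injective _) (e.trans (map_zero _).symm))
  refine Subtype.ext ?_
  show diaVal u _ = coeffMap (σ : Qbar →+* Qbar) (diaVal u x)
  rw [diaVal_eq u hQ h, diaVal_eq u hQ' (P := MvPolynomial.map (σ : Qbar →+* Qbar) P)
    (by rw [coe_arithmeticRingAut_apply, ← hev, ← hev, ← map_mul, h]), map_div₀, hev, hev]
  simp [diaPoly, MvPolynomial.map_rename]

/-! ### The analytic dictionary -/

/-- Every element of `K1` is the expansion of a quotient of invariant functions. -/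
theorem exists_rep_one (x : K1 M) : ∃ a b : modFunRingOne M, RepOne x a b := by
  obtain ⟨P, Q, hQ, h⟩ := exists_quot Qbar x.2
  exact ⟨evF iotaOne P, evF iotaOne Q, evS Qbar P, evS Qbar Q, hQ, expands_evF _ P,
    expands_evF _ Q, h⟩

/-- An invariant function with coefficients in `ℚ̄` expands in `K1`. -/
theorem mem_of_isExp_one (hM : 7 ≤ M) (g : modFunRingOne M) (y : LaurentSeries Qbar)
    (hy : IsExpOne (g : ℍ → ℂ) y) : y ∈ K1 M := by
  let : Algebra Qbar ℂ := iotaOne.toAlgebra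
  have h := gL_mem hM g
  rw [gL_eq_of_expands hy] at h
  obtain ⟨z, hz, hzx⟩ := JTors.exists_coeffMap_eq_of_mem (K := Qbar) (L := ℂ)
    (fieldOne M) h fun k => ⟨y.coeff k, (coeffMap_coeff _ _ _).symm⟩
  rw [show z = y from coeffMap_inj iotaOne.injective hzx] at hz
  exact hz

/-- The expansion of `g ∘ γ` is the image of the expansion of `g`. -/
theorem isExp_diaHom (hM : 7 ≤ M) {u : (ZMod M)ˣ} {γ : SL(2, ℤ)} (hγ : γ ∈ Gamma0 M)
    (hu : ((γ 1 1 : ℤ) : ZMod M) = u) (g : modFunRingOne M) (x : K1 M)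
    (hx : IsExpOne (g : ℍ → ℂ) (x : LaurentSeries Qbar)) :
    IsExpOne (fun τ => (g : ℍ → ℂ) (γ • τ)) ((diaHom M u x : K1 M) : LaurentSeries Qbar) := by
  obtain ⟨P, Q, hQ, h⟩ := exists_quot Qbar x.2
  have h1 : g * evF iotaOne Q = evF iotaOne P := gL_injective <| by
    rw [map_mul, gL_eq_of_expands hx, gL_evF, gL_evF, ← map_mul, h]
  let g' : modFunRingOne M := ⟨_, comp_gamma0_mem g.2 hγ⟩
  have h2 : g' * evF iotaOne (diaPoly u Q) = evF iotaOne (diaPoly u P) := by
    refine Subtype.ext (funext fun τ => ?_)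
    simp only [Subalgebra.coe_mul, Pi.mul_apply, diaPoly, evF_rename_apply iotaOne hγ hu, ← h1]
    rfl
  have h3 := congrArg (gL M) h2
  rw [map_mul, gL_evF, gL_evF, ← diaAlg_quot u hQ h, map_mul] at h3
  have hne : coeffMap iotaOne (evS Qbar (diaPoly u Q)) ≠ 0 := fun e => evS_diaPoly_ne_zero u hQ
    (coeffMap_inj iotaOne.injective (e.trans (map_zero _).symm))
  have h4 := mul_right_cancel₀ hne h3
  have h5 := expands_gL g'
  rw [h4] at h5
  exact h5

/-- Over `ℂ`: the field generated is that of quotients of expansions of invariant functions. -/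
theorem mem_laurentBaseChange_iff_quot (hM : 7 ≤ M) {x : LaurentSeries ℂ} :
    x ∈ laurentBaseChange ℂ (fieldOne M) ↔
      ∃ a b : modFunRingOne M, gL M b ≠ 0 ∧ x * gL M b = gL M a := by
  constructor
  · intro hx
    obtain ⟨P, Q, hQ, h⟩ := exists_quot ℂ hx
    refine ⟨evF (RingHom.id ℂ) P, evF (RingHom.id ℂ) Q, ?_, ?_⟩
    · rwa [gL_evF, coeffMap_id]
    · rw [gL_evF, gL_evF, coeffMap_id, coeffMap_id, h]
  · rintro ⟨a, b, hb, h⟩
    rw [← mul_div_cancel_right₀ x hb, h]
    exact div_mem (gL_mem hM a) (gL_mem hM b)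

end FLTAgent.DS.Gen

namespace FLTAgent.DS

open ModularCurve FLTAgent.ModPoly

variable {M : ℕ} [NeZero M]

/-- The diamond automorphisms with their analytic description. -/
def diamondData (hM : 7 ≤ M) : DiamondData M where
  dia := Gen.diaHom M
  spec := by
    rintro u γ hγ hu x a b ⟨ya, yb, hyb, ha, hb, h⟩
    let ya' : K1 M := ⟨ya, Gen.mem_of_isExp_one hM a ya ha⟩
    let yb' : K1 M := ⟨yb, Gen.mem_of_isExp_one hM b yb hb⟩
    refine ⟨⟨_, Gen.comp_gamma0_mem a.2 hγ⟩, ⟨_, Gen.comp_gamma0_mem b.2 hγ⟩, fun _ => rfl,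
      fun _ => rfl, ((Gen.diaHom M u ya' : K1 M) : LaurentSeries (AlgebraicClosure ℚ)),
      ((Gen.diaHom M u yb' : K1 M) : LaurentSeries (AlgebraicClosure ℚ)), ?_,
      Gen.isExp_diaHom hM hγ hu a ya' ha, Gen.isExp_diaHom hM hγ hu b yb' hb, ?_⟩
    · intro e
      have : yb' = 0 := (Gen.diaHom M u).injective ((Subtype.ext e).trans (map_zero _).symm)
      exact hyb (congrArg Subtype.val this)
    · rw [← MulMemClass.coe_mul, ← map_mul, show x * yb' = ya' from Subtype.ext h]
  dia_galOne := Gen.diaHom_galOne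

/-- The diamond automorphism on a generator. -/
theorem diamondData_genSer (hM : 7 ≤ M) (u : (ZMod M)ˣ) {d e f : ZMod M} (hd : d ≠ 0) (he : e ≠ 0)
    (hf : f ≠ 0) (x : K1 M)
    (hx : (x : LaurentSeries (AlgebraicClosure ℚ)) = castSer _ (genSer M d e f)) :
    (((diamondData hM).dia u x : K1 M) : LaurentSeries (AlgebraicClosure ℚ)) =
      castSer _ (genSer M ((u⁻¹ : (ZMod M)ˣ) * d) ((u⁻¹ : (ZMod M)ˣ) * e)
        ((u⁻¹ : (ZMod M)ˣ) * f)) :=
  Gen.diaHom_serG u (some ⟨(d, e, f), hd, he, hf⟩) x hx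

/-- The diamond automorphisms fix `j (M τ)`. -/
theorem diamondData_jSer (hM : 7 ≤ M) (u : (ZMod M)ˣ) (x : K1 M)
    (hx : (x : LaurentSeries (AlgebraicClosure ℚ)) = castSer _ (jSer M)) :
    (diamondData hM).dia u x = x :=
  Subtype.ext ((Gen.diaHom_serG u none x hx).trans hx.symm)

end FLTAgent.DS
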