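import Fermat.Agent.DS.Geom.FieldSeries
import Fermat.Agent.Mazur.Series
import Fermat.Agent.ModPoly.Hermite

/-!
# The generators as functions

`funW i v` is the generator `i` in the variable `w = M τ` at the vector `v`;
`gFun i τ = funW i (1, 0) (M τ)` has the expansion `gSer i`.
-/

set_option autoImplicit false

noncomputable section

namespace FLTAgent.DS.Gen

open Filter Function CongruenceSubgroup ModularCurve
open UpperHalfPlane hiding I
open FLTAgent.EllParam FLTAgent.ModPoly FLTAgent.Mazur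
open scoped Topology Manifold MatrixGroups

local notation "𝕢" => Periodic.qParam

variable (M : ℕ)

/-- Triples of nonzero residues. -/
abbrev Trip : Type := {t : ZMod M × ZMod M × ZMod M // t.1 ≠ 0 ∧ t.2.1 ≠ 0 ∧ t.2.2 ≠ 0}

/-- The index set of the generators; `none` is `j (M τ)`. -/
abbrev GIdx : Type := Option (Trip M)

variable {M}

/-- Row vector times matrix. -/
def rowMul (v : ZMod M × ZMod M) (γ : SL(2, ℤ)) : ZMod M × ZMod M :=
  (v.1 * γ 0 0 + v.2 * γ 1 0, v.1 * γ 0 1 + v.2 * γ 1 1)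

theorem rowMul_mul (v : ZMod M × ZMod M) (γ δ : SL(2, ℤ)) :
    rowMul v (γ * δ) = rowMul (rowMul v γ) δ := by
  simp only [rowMul, Matrix.SpecialLinearGroup.coe_mul, Matrix.mul_apply, Fin.sum_univ_two,
    Int.cast_add, Int.cast_mul, Prod.mk.injEq]
  constructor <;> ring

theorem rowMul_one (v : ZMod M × ZMod M) : rowMul v 1 = v := by
  simp [rowMul]

/-- No nonzero residue kills `v`. -/
def IsPrim (v : ZMod M × ZMod M) : Prop := ∀ k : ZMod M, k * v.1 = 0 → k * v.2 = 0 → k = 0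

theorem isPrim_one_zero : IsPrim ((1, 0) : ZMod M × ZMod M) := fun k h _ => by simpa using h

theorem IsPrim.rowMul {v : ZMod M × ZMod M} (hv : IsPrim v) (γ : SL(2, ℤ)) :
    IsPrim (rowMul v γ) := by
  intro k h1 h2
  have e : Gen.rowMul (Gen.rowMul v γ) γ⁻¹ = v := by rw [← rowMul_mul, mul_inv_cancel, rowMul_one]
  refine hv k ?_ ?_
  · rw [← e]
    show k * ((Gen.rowMul v γ).1 * _ + (Gen.rowMul v γ).2 * _) = 0
    rw [mul_add, ← mul_assoc, ← mul_assoc, h1, h2, zero_mul, zero_mul, add_zero]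
  · rw [← e]
    show k * ((Gen.rowMul v γ).1 * _ + (Gen.rowMul v γ).2 * _) = 0
    rw [mul_add, ← mul_assoc, ← mul_assoc, h1, h2, zero_mul, zero_mul, add_zero]

theorem IsPrim.smul_ne_zero {v : ZMod M × ZMod M} (hv : IsPrim v) {k : ZMod M} (hk : k ≠ 0) :
    ¬(k * v.1 = 0 ∧ k * v.2 = 0) := fun h => hk (hv k h.1 h.2)

/-- Multiplication of the residues of an index by a unit. -/
def mulIdx (u : (ZMod M)ˣ) : GIdx M → GIdx M :=
  Option.map fun t => ⟨(u * t.1.1, u * t.1.2.1, u * t.1.2.2),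
    (Units.mul_right_eq_zero u).not.mpr t.2.1, (Units.mul_right_eq_zero u).not.mpr t.2.2.1,
    (Units.mul_right_eq_zero u).not.mpr t.2.2.2⟩

theorem mulIdx_mul (u v : (ZMod M)ˣ) (i : GIdx M) :
    mulIdx u (mulIdx v i) = mulIdx (u * v) i := by
  cases i <;> simp [mulIdx, mul_assoc]

theorem mulIdx_one (i : GIdx M) : mulIdx 1 i = i := by
  cases i <;> simp [mulIdx]

variable [NeZero M]

/-- The coordinate of the point `k v`. -/
def Xv (v : ZMod M × ZMod M) (k : ZMod M) : ℍ → ℂ := X M (k * v.1) (k * v.2)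

theorem Xv_smul (γ : SL(2, ℤ)) (v : ZMod M × ZMod M) (k : ZMod M) (w : ℍ) :
    Xv v k (γ • w) = den γ w ^ 2 * Xv (rowMul v γ) k w := by
  rw [Xv, X_smul, den, Xv, rowMul]
  ring_nf

/-- The generators in the variable `w = M τ`, at the vector `v`. -/
def funW (i : GIdx M) (v : ZMod M × ZMod M) : ℍ → ℂ :=
  i.elim jFun fun t => fun w =>
    (Xv v t.1.1 w - Xv v t.1.2.1 w) ^ 5 * (Xv v t.1.1 w - Xv v t.1.2.2 w) /
      ModularForm.discriminant w

theorem funW_smul (i : GIdx M) (v : ZMod M × ZMod M) (γ : SL(2, ℤ)) (w : ℍ) :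
    funW i v (γ • w) = funW i (rowMul v γ) w := by
  cases i with
  | none => exact jFun_smul γ w
  | some t =>
    simp only [funW, Option.elim_some, Xv_smul, discriminant_smul, ← mul_sub]
    rw [mul_pow, mul_mul_mul_comm, ← pow_mul, ← pow_add,
      mul_div_mul_left _ _ (pow_ne_zero _ (den_ne_zero γ w))]

theorem funW_mulIdx (u : (ZMod M)ˣ) (i : GIdx M) (v : ZMod M × ZMod M) :
    funW (mulIdx u i) v = funW i ((u : ZMod M) * v.1, (u : ZMod M) * v.2) := by
  cases i with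
  | none => simp only [funW, mulIdx, Option.map_none, Option.elim_none]
  | some t =>
    simp only [funW, mulIdx, Option.map_some, Option.elim_some, Xv]
    funext w
    ring_nf

theorem funW_periodic (i : GIdx M) (v : ZMod M × ZMod M) (w : ℍ) :
    funW i v ((M : ℝ) +ᵥ w) = funW i v w := by
  rw [← smul_T_pow_eq_vadd, funW_smul]
  congr 1
  rw [rowMul, ModularGroup.coe_T_zpow]
  simp

/-- A generator is bounded at `i∞` after multiplication by a power of `q`. -/
theorem isBounded_funW (i : GIdx M) {v : ZMod M × ZMod M} (hv : IsPrim v) :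
    ∃ m : ℕ, IsBoundedAtImInfty fun w => 𝕢 M w ^ m * funW i v w := by
  cases i with
  | none => exact exists_isBounded_of_mem_expRing (expands_jFun.mem_expRing_width (one_dvd M))
  | some t =>
    obtain ⟨m, hm⟩ := exists_isBounded_of_mem_expRing
      (expands_discriminant_inv.mem_expRing_width (h' := M) (one_dvd M))
    refine ⟨m, ?_⟩
    have hX : ∀ k : ZMod M, k ≠ 0 → Xv v k ∈ boundedAtImInftySubalgebra ℂ := fun k hk =>
      isBoundedAtImInfty_X _ _ (hv.smul_ne_zero hk)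
    have hpoly : (Xv v t.1.1 - Xv v t.1.2.1) ^ 5 * (Xv v t.1.1 - Xv v t.1.2.2) ∈
        boundedAtImInftySubalgebra ℂ :=
      mul_mem (pow_mem (sub_mem (hX _ t.2.1) (hX _ t.2.2.1)) 5)
        (sub_mem (hX _ t.2.1) (hX _ t.2.2.2))
    have := (show IsBoundedAtImInfty _ from hpoly).mul hm
    refine this.congr' (Eventually.of_forall fun w => ?_) EventuallyEq.rfl
    simp only [funW, Option.elim_some, Pi.mul_apply, Pi.pow_apply, Pi.sub_apply, Pi.inv_apply]
    ring

variable (M) in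
/-- `w ↦ w / M`. -/
def divM (w : ℍ) : ℍ := Periods.tRep M (some 0) • w

theorem coe_divM (w : ℍ) : (divM M w : ℂ) = (w : ℂ) / M := by
  rw [divM, JTors.coe_tRep_some_smul (NeZero.ne M)]
  simp

theorem mulM_divM (w : ℍ) : mulM M (divM M w) = w := by
  have : (M : ℂ) ≠ 0 := Nat.cast_ne_zero.mpr (NeZero.ne M)
  ext1
  rw [coe_mulM, coe_divM]
  field_simp

theorem divM_mulM (τ : ℍ) : divM M (mulM M τ) = τ := by
  have : (M : ℂ) ≠ 0 := Nat.cast_ne_zero.mpr (NeZero.ne M)
  ext1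
  rw [coe_divM, coe_mulM]
  field_simp

theorem mdiff_mulM {g : ℍ → ℂ} (hg : MDiff g) : MDiff fun τ => g (mulM M τ) :=
  hg.comp (UpperHalfPlane.mdifferentiable_smul (Periods.tRep_det_pos M none))

theorem mdiff_divM {g : ℍ → ℂ} (hg : MDiff g) : MDiff fun w => g (divM M w) :=
  hg.comp (UpperHalfPlane.mdifferentiable_smul (Periods.tRep_det_pos M (some 0)))

theorem tendsto_mulM : Tendsto (mulM M) atImInfty atImInfty := by
  rw [atImInfty, tendsto_comap_iff]
  refine ((tendsto_comap (f := UpperHalfPlane.im) (x := atTop)).const_mul_atTop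
    (show (0 : ℝ) < M from Nat.cast_pos.mpr (NeZero.pos M))).congr fun τ => ?_
  show (M : ℝ) * τ.im = (mulM M τ : ℂ).im
  rw [coe_mulM]
  simp

/-- Expansions at level one, in `M τ`. -/
theorem expands_comp_mulM {g : ℍ → ℂ} {x : LaurentSeries ℂ} (hg : Expands 1 g x) :
    Expands 1 (fun τ => g (mulM M τ)) (qExpand ℂ M x) := by
  have := hg.comp_scale (h' := 1) (k := M) 1 (tendsto_mulM (M := M)) fun τ => by
    rw [coe_mulM, Units.val_one, one_mul]
    simp only [Periodic.qParam, Nat.cast_one, Complex.ofReal_one, div_one, ← Complex.exp_nat_mul]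
    ring_nf
  simpa [twist_one_unit] using this

/-- The generator `i` as a function of `τ`. -/
def gFun (i : GIdx M) : ℍ → ℂ := fun τ => funW i (1, 0) (mulM M τ)

/-- The series of the generator `i`. -/
def gSer : GIdx M → LaurentSeries ℤ
  | none => jSer M
  | some t => genSer M t.1.1 t.1.2.1 t.1.2.2

theorem range_gSer : Set.range (gSer (M := M)) = genSet M := by
  ext x
  constructor
  · rintro ⟨_ | t, rfl⟩
    · exact Set.mem_insert _ _
    · exact Set.mem_insert_of_mem _ ⟨_, _, _, t.2.1, t.2.2.1, t.2.2.2, rfl⟩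
  · rintro (rfl | ⟨d, e, f, hd, he, hf, rfl⟩)
    · exact ⟨none, rfl⟩
    · exact ⟨some ⟨(d, e, f), hd, he, hf⟩, rfl⟩

theorem gFun_none : gFun (M := M) none = fun τ => jFun (mulM M τ) := rfl

theorem Xv_one_zero (k : ZMod M) (τ : ℍ) : Xv (1, 0) k (mulM M τ) = xFun M k τ := by
  simp [Xv, xFun]

theorem castSer_ofPowerSeries (R : Type*) [CommRing R] (p : PowerSeries ℤ) :
    castSer R (HahnSeries.ofPowerSeries ℤ ℤ p) =
      HahnSeries.ofPowerSeries ℤ R (p.map (Int.castRingHom R)) :=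
  coeffMap_ofPowerSeries _ p

theorem expands_gFun (i : GIdx M) : Expands 1 (gFun i) (castSer ℂ (gSer i)) := by
  cases i with
  | none =>
    rw [gSer, jSer, castSer, coeffMap_qExpand, coeffMap_jqModC, gFun_none]
    exact expands_comp_mulM expands_jFun
  | some t =>
    have hX : ∀ a b : ZMod M, a ≠ 0 → b ≠ 0 → Expands 1 (xFun M a - xFun M b)
        (castSer ℂ (HahnSeries.ofPowerSeries ℤ ℤ (xSer M a - xSer M b))) := fun a b ha hb => by
      have h := (expands_xFun ha).sub (expands_xFun hb)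
      rw [← map_sub, add_sub_add_left_eq_sub, ← map_sub, ← castSer_ofPowerSeries] at h
      exact h
    have hΔ : Expands 1 (fun τ => (ModularForm.discriminant : ℍ → ℂ)⁻¹ (mulM M τ))
        (castSer ℂ (deltaInvSer M)) := by
      rw [deltaInvSer, castSer, coeffMap_qExpand, map_mul, coeffMap_single, map_one,
        coeffMap_ofPowerSeries]
      exact expands_comp_mulM expands_discriminant_inv
    have h := (((hX _ _ t.2.1 t.2.2.1).pow 5).mul (hX _ _ t.2.1 t.2.2.2)).mul hΔ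
    rw [← map_pow, ← map_mul, ← map_mul, ← map_pow, ← map_mul] at h
    refine h.congr_fun' (Eventually.of_forall fun τ => ?_)
    simp only [gFun, funW, Option.elim_some, Pi.mul_apply, Pi.pow_apply, Pi.sub_apply,
      Pi.inv_apply, Xv_one_zero, div_eq_mul_inv]

theorem mdiff_gFun (i : GIdx M) : MDiff (gFun i) := by
  cases i with
  | none => exact mdiff_mulM mdifferentiable_jFun
  | some t =>
    have hX : ∀ k : ZMod M, k ≠ 0 → MDiff fun τ => Xv (1, 0) k (mulM M τ) := fun k hk => by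
      simpa only [Xv_one_zero] using mdiff_xFun hk
    exact ((((hX _ t.2.1).sub (hX _ t.2.2.1)).pow 5).mul ((hX _ t.2.1).sub (hX _ t.2.2.2))).div
      (mdiff_mulM Genus.mdiff_discriminant) fun τ => ModularForm.discriminant_ne_zero _

theorem mdiff_funW_one_zero (i : GIdx M) : MDiff (funW i (1, 0)) := by
  have := mdiff_divM (M := M) (mdiff_gFun i)
  simpa only [gFun, mulM_divM] using this

/-- A row obtained from `(1, 0)`. -/
def row (γ : SL(2, ℤ)) : ZMod M × ZMod M := rowMul (1, 0) γ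

theorem isPrim_row (γ : SL(2, ℤ)) : IsPrim (row (M := M) γ) := isPrim_one_zero.rowMul γ

theorem funW_row (i : GIdx M) (γ : SL(2, ℤ)) :
    (fun w => funW i (1, 0) (γ • w)) = funW i (row γ) :=
  funext fun w => funW_smul i _ γ w

theorem funW_mem_expRing (i : GIdx M) (γ : SL(2, ℤ)) :
    (fun w => funW i (1, 0) (γ • w)) ∈ expRing M := by
  obtain ⟨m, hm⟩ := isBounded_funW i (isPrim_row (M := M) γ)
  refine mem_expRing_of_isBounded (m := m)
    (mdifferentiable_comp_smul (mdiff_funW_one_zero i) γ) (fun w => ?_) ?_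
  · simp only [funW_smul, funW_periodic]
  · simpa only [funW_smul, row] using hm

theorem exists_gamma0_lift {γ : SL(2, ℤ)} (hγ : γ ∈ Gamma0 M) :
    ∃ γ' : SL(2, ℤ), (γ' 0 1 : ZMod M) = 0 ∧ γ' 0 0 = γ 0 0 ∧ γ' 1 1 = γ 1 1 ∧
      ∀ τ : ℍ, mulM M (γ • τ) = γ' • mulM M τ := by
  obtain ⟨c, hc⟩ := (ZMod.intCast_zmod_eq_zero_iff_dvd _ _).mp (Gamma0_mem.mp hγ)
  have hdet : γ 0 0 * γ 1 1 - γ 0 1 * γ 1 0 = 1 := by
    rw [← Matrix.det_fin_two]; exact γ.2
  refine ⟨⟨!![γ 0 0, (M : ℤ) * γ 0 1; c, γ 1 1], by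
    rw [Matrix.det_fin_two_of]; linear_combination hdet + γ 0 1 * hc⟩, by simp, rfl, rfl,
    fun τ => ?_⟩
  ext1
  rw [coe_mulM, UpperHalfPlane.coe_specialLinearGroup_apply,
    UpperHalfPlane.coe_specialLinearGroup_apply, coe_mulM]
  simp only [algebraMap_int_eq, eq_intCast, Complex.ofReal_intCast, hc, Matrix.cons_val',
    Matrix.cons_val_zero, Matrix.cons_val_one, Matrix.cons_val_fin_one, Matrix.of_apply]
  push_cast
  ring

/-- Composition of a generator with `γ ∈ Γ₀(M)` whose lower right entry is `u⁻¹`. -/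
theorem gFun_smul {γ : SL(2, ℤ)} (hγ : γ ∈ Gamma0 M) {u : (ZMod M)ˣ}
    (hu : (γ 1 1 : ZMod M) = (u⁻¹ : (ZMod M)ˣ)) (i : GIdx M) (τ : ℍ) :
    gFun i (γ • τ) = gFun (mulIdx u i) τ := by
  obtain ⟨γ', h01, h00, -, h⟩ := exists_gamma0_lift hγ
  have hdet : (γ 0 0 : ZMod M) * γ 1 1 = 1 := by
    have e := congrArg (Int.cast : ℤ → ZMod M)
      ((Matrix.det_fin_two (γ : Matrix (Fin 2) (Fin 2) ℤ)).symm.trans γ.det_coe)
    push_cast at e
    rw [Gamma0_mem.1 hγ, mul_zero, sub_zero] at e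
    exact e
  have h0 : (γ' 0 0 : ZMod M) = u := by
    rw [h00]
    rw [hu] at hdet
    calc (γ 0 0 : ZMod M) = (γ 0 0 : ZMod M) * ((u⁻¹ : (ZMod M)ˣ) : ZMod M) * u := by
          rw [mul_assoc, Units.inv_mul, mul_one]
      _ = u := by rw [hdet, one_mul]
  rw [gFun, h, funW_smul, gFun, funW_mulIdx]
  simp [rowMul, h0, h01]

theorem gFun_smul_gamma1 {γ : SL(2, ℤ)} (hγ : γ ∈ Gamma1 M) (i : GIdx M) (τ : ℍ) :
    gFun i (γ • τ) = gFun i τ := by
  obtain ⟨-, h1, h0⟩ := (Gamma1_mem M γ).1 hγ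
  rw [gFun_smul (Gamma0_mem.2 h0) (u := 1) (by simpa using h1), mulIdx_one]

/-- Functions with expansions at all cusps, composed with a representative of determinant `l`. -/
theorem comp_rep_mem_expRing {N l : ℕ} [NeZero N] [NeZero l] {g : ℍ → ℂ}
    (hg : ∀ γ : SL(2, ℤ), (fun z => g (γ • z)) ∈ expRing N) (x : Option (ZMod l))
    (δ : SL(2, ℤ)) : (fun z : ℍ => g (Periods.tRep l x • δ • z)) ∈ expRing (N * l) := by
  obtain ⟨δ', a, b, d, ha, hd, had, h⟩ := JTors.exists_tRep_smul_eq x δ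
  obtain ⟨a, rfl⟩ := Int.eq_ofNat_of_zero_le ha.le
  obtain ⟨d, rfl⟩ := Int.eq_ofNat_of_zero_le hd.le
  have had' : a * d = l := by exact_mod_cast had
  have : NeZero a := ⟨fun h => by simp [h] at ha⟩
  have : NeZero d := ⟨fun h => by simp [h] at hd⟩
  obtain ⟨x₀, hx₀⟩ := hg δ'
  set φ : ℍ → ℍ := fun z => δ'⁻¹ • Periods.tRep l x • δ • z
  have hφ : Tendsto φ atImInfty atImInfty := by
    rw [atImInfty, tendsto_comap_iff]
    have hd' : (0 : ℝ) < d := by exact_mod_cast NeZero.pos d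
    have ha' : (0 : ℝ) < a := by exact_mod_cast NeZero.pos a
    refine ((tendsto_comap (f := UpperHalfPlane.im) (x := atTop)).const_mul_atTop
      (div_pos ha' hd')).congr fun z => ?_
    show (a : ℝ) / d * z.im = (φ z : ℂ).im
    rw [h]
    push_cast
    simp
    ring
  have hq : ∀ z : ℍ, 𝕢 (N : ℝ) (φ z : ℂ) =
      (Units.mk0 (Complex.exp (2 * Real.pi * Complex.I * b / (N * d : ℕ))) (Complex.exp_ne_zero _) :
        ℂˣ) * 𝕢 ((N * d : ℕ) : ℝ) z ^ a := fun z => by
    rw [Units.val_mk0, h, Periodic.qParam, Periodic.qParam,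
      ← Complex.exp_nat_mul, ← Complex.exp_add]
    congr 1
    have : (N : ℂ) ≠ 0 := Nat.cast_ne_zero.2 (NeZero.ne N)
    have : (d : ℂ) ≠ 0 := Nat.cast_ne_zero.2 (NeZero.ne d)
    push_cast
    field_simp
    ring
  have : NeZero (N * d) := ⟨Nat.mul_ne_zero (NeZero.ne N) (NeZero.ne d)⟩
  have hexp := (hx₀.comp_scale _ hφ hq).width_mul (k := a)
  rw [mul_assoc N d a, mul_comm d a, had'] at hexp
  refine Expands.mem_expRing (hexp.congr_fun' (Eventually.of_forall fun z => ?_))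
  simp [φ]

theorem T_pow_conj_mem (δ : SL(2, ℤ)) : δ * ModularGroup.T ^ (M : ℤ) * δ⁻¹ ∈ Gamma1 M := by
  have h := (Gamma_normal M).conj_mem _ (ModularGroup_T_pow_mem_Gamma M M dvd_rfl) δ
  rw [Gamma_mem] at h
  exact (Gamma1_mem M _).2 ⟨h.1, h.2.2.2, h.2.2.1⟩

/-- The criterion for membership of `modFunRingOne`, with a coarser width. -/
theorem mem_modFunRingOne {L : ℕ} [NeZero L] (hL : M ≤ L) {g : ℍ → ℂ} (hg : MDiff g)
    (hinv : ∀ γ ∈ Gamma1 M, ∀ τ : ℍ, g (γ • τ) = g τ)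
    (hexp : ∀ δ : SL(2, ℤ), (fun τ => g (δ • τ)) ∈ expRing L) : g ∈ modFunRingOne M := by
  refine ⟨hg, hinv, fun δ => ?_⟩
  obtain ⟨m, hm⟩ := exists_isBounded_of_mem_expRing (hexp δ)
  refine mem_expRing_of_isBounded (m := m) (mdifferentiable_comp_smul hg δ) (fun τ => ?_)
    (Asymptotics.IsBigO.trans (Asymptotics.isBigO_of_le _ fun τ => ?_) hm)
  · rw [← smul_T_pow_eq_vadd, ← mul_smul,
      show δ * ModularGroup.T ^ (M : ℤ) = δ * ModularGroup.T ^ (M : ℤ) * δ⁻¹ * δ by group,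
      mul_smul, hinv _ (T_pow_conj_mem δ)]
  · rw [norm_mul, norm_mul, norm_pow, norm_pow, Periodic.norm_qParam, Periodic.norm_qParam]
    gcongr ?_ ^ _ * _
    rw [Real.exp_le_exp, neg_mul, neg_mul, neg_div, neg_div, neg_le_neg_iff]
    exact div_le_div_of_nonneg_left (by positivity [τ.im_pos])
      (by exact_mod_cast NeZero.pos M) (by exact_mod_cast hL)

theorem gFun_mem (i : GIdx M) : gFun i ∈ modFunRingOne M := by
  have : NeZero (M * M) := ⟨Nat.mul_ne_zero (NeZero.ne M) (NeZero.ne M)⟩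
  exact mem_modFunRingOne (Nat.le_mul_of_pos_right M (NeZero.pos M)) (mdiff_gFun i)
    (fun γ hγ τ => gFun_smul_gamma1 hγ i τ)
    fun δ => comp_rep_mem_expRing (fun γ => funW_mem_expRing i γ) none δ

/-- The generator as an element of the ring of invariant functions. -/
def gEl (i : GIdx M) : modFunRingOne M := ⟨gFun i, gFun_mem i⟩

end FLTAgent.DS.Gen
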