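import Fermat.Agent.DS.Geom.Field
import Fermat.Agent.DS.HeckeOne

/-!
# The images of the field of level `Γ₁(M)` under `T p`

The product of a function over the representatives of `T p` is invariant, and its expansion has
coefficients in the field of constants of the expansion it comes from.
-/

set_option autoImplicit false

noncomputable section

namespace FLTAgent.DS.Gen

open Filter Function CongruenceSubgroup ModularCurve
open UpperHalfPlane hiding I
open FLTAgent.ModPoly
open scoped Topology Manifold MatrixGroups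

local notation "Qbar" => AlgebraicClosure ℚ
local notation "𝕢" => Periodic.qParam

variable {M : ℕ} [NeZero M] {p : ℕ} [NeZero p]

/-- The product over the representatives of `T p`. -/
def tOne (p : ℕ) [NeZero p] (γp : SL(2, ℤ)) (g : ℍ → ℂ) : ℍ → ℂ :=
  fun z => ∏ x, g (tRepOne p γp x • z)

theorem tOne_mem (hp : p.Prime) (hpM : ¬ p ∣ M) {γp : SL(2, ℤ)} (h0 : γp ∈ Gamma0 M)
    (h1 : ((γp 1 1 : ℤ) : ZMod M) = (p : ZMod M)) {g : ℍ → ℂ} (hg : g ∈ modFunRingOne M) :
    tOne p γp g ∈ modFunRingOne M := by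
  have : NeZero (M * p) := ⟨Nat.mul_ne_zero (NeZero.ne M) (NeZero.ne p)⟩
  have he : tOne p γp g = ∏ x, fun z : ℍ => g (tRepOne p γp x • z) := by
    funext z; simp [tOne]
  refine mem_modFunRingOne (L := M * p) (Nat.le_mul_of_pos_right M (NeZero.pos p)) ?_
    (fun γ hγ z => ?_) fun δ => ?_
  · rw [he]
    exact MDifferentiable.prod fun x _ =>
      hg.1.comp (UpperHalfPlane.mdifferentiable_smul (tRepOne_det_pos p γp x))
  · obtain ⟨-, hg1, hg0⟩ := (Gamma1_mem M γ).1 hγ
    obtain ⟨σ, δ, hδ, hrel⟩ := exists_transferOne hp hpM h0 h1 (Gamma0_mem.2 hg0)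
    have hmem : ∀ x, δ x ∈ Gamma1 M := fun x =>
      mem_Gamma1_of_lowerRight (hδ x).1 ((hδ x).2.trans hg1)
    have : ∀ x, tRepOne p γp x • γ • z = δ x • tRepOne p γp (σ x) • z := fun x => by
      rw [ModularGroup.sl_moeb, ModularGroup.sl_moeb, ← mul_smul, ← mul_smul, hrel x]
    simp only [tOne, this, hg.2.1 _ (hmem _)]
    exact Equiv.prod_comp σ (fun x => g (tRepOne p γp x • z))
  · have hx : ∀ x, (fun z : ℍ => g (tRepOne p γp x • δ • z)) ∈ expRing (M * p) := fun x => by
      have h := comp_rep_mem_expRing (g := fun w => g (shiftOne p γp x • w))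
        (fun γ => by simpa only [← mul_smul] using hg.2.2 (shiftOne p γp x * γ)) x δ
      simpa only [tRepOne_eq, mul_smul, ModularGroup.sl_moeb] using h
    have : (fun z => tOne p γp g (δ • z)) =
        ∏ x, fun z : ℍ => g (tRepOne p γp x • δ • z) := by
      funext z; simp [tOne]
    rw [this]
    exact prod_mem fun x _ => hx x

theorem expands_prod_fun {h : ℕ} {ι : Type*} (s : Finset ι) {F : ι → ℍ → ℂ}
    {Y : ι → LaurentSeries ℂ} (hF : ∀ i ∈ s, Expands h (F i) (Y i)) :
    Expands h (fun z => ∏ i ∈ s, F i z) (∏ i ∈ s, Y i) := by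
  classical
  induction s using Finset.induction_on with
  | empty => simpa [Pi.one_def] using Expands.one (h := h)
  | insert a s ha ih =>
    simp only [Finset.prod_insert ha]
    exact (hF a (Finset.mem_insert_self a s)).mul
      (ih fun i hi => hF i (Finset.mem_insert_of_mem hi))

/-- `exp (2πi/p)` as a unit. -/
def zetaC (p : ℕ) : ℂˣ :=
  Units.mk0 (Complex.exp (2 * Real.pi * Complex.I / p)) (Complex.exp_ne_zero _)

theorem expands_tRep_some {g : ℍ → ℂ} {y : LaurentSeries ℂ} (hg : Expands 1 g y) (j : ZMod p) :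
    Expands p (fun z => g (Periods.tRep p (some j) • z)) (twist (zetaC p ^ j.val) y) := by
  have hp0 : (p : ℂ) ≠ 0 := Nat.cast_ne_zero.mpr (NeZero.ne p)
  have hφ : Tendsto (fun z : ℍ => Periods.tRep p (some j) • z) atImInfty atImInfty := by
    rw [atImInfty, tendsto_comap_iff]
    refine ((tendsto_comap (f := UpperHalfPlane.im) (x := atTop)).atTop_div_const
      (show (0 : ℝ) < p from Nat.cast_pos.mpr (NeZero.pos p))).congr fun z => ?_
    show z.im / (p : ℝ) = ((Periods.tRep p (some j) • z : ℍ) : ℂ).im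
    rw [JTors.coe_tRep_some_smul (NeZero.ne p)]
    simp [-ZMod.natCast_val]
  have := hg.comp_scale (h' := p) (k := 1) (zetaC p ^ j.val) hφ fun z => by
    rw [JTors.coe_tRep_some_smul (NeZero.ne p), pow_one, Units.val_pow_eq_pow_val, zetaC,
      Units.val_mk0, ← Complex.exp_nat_mul]
    simp only [Periodic.qParam, Nat.cast_one, Complex.ofReal_one, div_one, Complex.ofReal_natCast,
      ← Complex.exp_add]
    congr 1
    field_simp
    ring
  simpa [qExpand_one_apply] using this

theorem expands_tRep_none {g : ℍ → ℂ} {y : LaurentSeries ℂ} (hg : Expands 1 g y) :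
    Expands p (fun z => g (Periods.tRep p none • z)) (qExpand ℂ (p * p) y) := by
  have hφ : Tendsto (fun z : ℍ => Periods.tRep p none • z) atImInfty atImInfty :=
    tendsto_mulM (M := p)
  have h1 := hg.comp_scale (h' := 1) (k := p) 1 hφ fun z => by
    rw [JTors.coe_tRep_none_smul (NeZero.ne p), Units.val_one, one_mul]
    simp only [Periodic.qParam, Nat.cast_one, Complex.ofReal_one, div_one, ← Complex.exp_nat_mul]
    ring_nf
  rw [twist_one_unit] at h1
  have h2 := h1.width_mul (k := p)
  rwa [one_mul, qExpand_qExpand] at h2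

/-- The product over the twists does not depend on the choice of the root of unity. -/
theorem prod_twist_eq {ζ : ℂˣ} (hζ : IsPrimitiveRoot ζ p) (y : LaurentSeries ℂ) :
    ∏ j : ZMod p, twist (zetaC p ^ j.val) y = ∏ j ∈ Finset.range p, twist (ζ ^ j) y := by
  classical
  have hc : IsPrimitiveRoot (zetaC p) p := by
    rw [← IsPrimitiveRoot.coe_units_iff, zetaC, Units.val_mk0]
    exact Complex.isPrimitiveRoot_exp p (NeZero.ne p)
  rw [← Finset.prod_image (f := fun u => twist u y)
      (fun a _ b _ h => ZMod.val_injective p (hc.pow_inj (ZMod.val_lt a) (ZMod.val_lt b) h)),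
    ← Finset.prod_image (s := Finset.range p) (f := fun u => twist u y)
      (fun a ha b hb h => hζ.pow_inj (Finset.mem_range.mp ha) (Finset.mem_range.mp hb) h)]
  refine Finset.prod_congr ?_ fun _ _ => rfl
  have key : ∀ {w : ℂˣ}, IsPrimitiveRoot w p → ∀ u : ℂˣ, u ^ p = 1 → ∃ i < p, w ^ i = u := by
    intro w hw u hu
    obtain ⟨i, hi, h⟩ := (IsPrimitiveRoot.coe_units_iff.mpr hw).eq_pow_of_pow_eq_one
      (show (u : ℂ) ^ p = 1 by rw [← Units.val_pow_eq_pow_val, hu, Units.val_one])
    exact ⟨i, hi, Units.ext (by rw [Units.val_pow_eq_pow_val, h])⟩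
  ext u
  simp only [Finset.mem_image, Finset.mem_univ, true_and, Finset.mem_range]
  constructor
  · rintro ⟨j, rfl⟩
    exact key hζ _ (by rw [← pow_mul, mul_comm, pow_mul, hc.pow_eq_one, one_pow])
  · rintro ⟨i, -, rfl⟩
    obtain ⟨j, hj, h⟩ := key hc (ζ ^ i) (by
      rw [← pow_mul, mul_comm, pow_mul, hζ.pow_eq_one, one_pow])
    exact ⟨j, by rw [ZMod.val_cast_of_lt hj, h]⟩

/-- The image of the expansion of an invariant function. -/
theorem exists_tImage_of_isExp (hM : 7 ≤ M) (hp : p.Prime) (hpM : p.Coprime M)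
    (g : modFunRingOne M) (x : K1 M) (hx : IsExpOne (g : ℍ → ℂ) (x : LaurentSeries Qbar)) :
    ∃ y : K1 M, IsTImage (diamondData hM) p hpM x y := by
  have hdvd : ¬ p ∣ M := hp.coprime_iff_not_dvd.mp hpM
  obtain ⟨γp, h0, h1⟩ := exists_lowerRight_eq (M := M) hp hdvd
  set u := ZMod.unitOfCoprime p hpM
  have h1' : ((γp 1 1 : ℤ) : ZMod M) = u := h1
  set z : LaurentSeries Qbar := ((diaHom M u x : K1 M) : LaurentSeries Qbar)
  let G : modFunRingOne M := ⟨_, tOne_mem hp hdvd h0 h1 g.2⟩
  have hz : Expands 1 (fun τ => (g : ℍ → ℂ) (γp • τ)) (coeffMap iotaOne z) :=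
    isExp_diaHom hM h0 h1' g x hx
  have hG : Expands p (G : ℍ → ℂ) (qExpand ℂ (p * p) (coeffMap iotaOne z) *
      ∏ j : ZMod p, twist (zetaC p ^ j.val) (coeffMap iotaOne (x : LaurentSeries Qbar))) := by
    have := (expands_tRep_none (p := p) hz).mul (expands_prod_fun Finset.univ
      fun (j : ZMod p) _ => expands_tRep_some hx j)
    refine this.congr_fun' (Eventually.of_forall fun w => ?_)
    simp only [G, tOne, Fintype.prod_option, Pi.mul_apply, tRepOne, Periods.tRep, mul_smul,
      ModularGroup.sl_moeb]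
  have hY : qExpand ℂ p (gL M G) = qExpand ℂ (p * p) (coeffMap iotaOne z) *
      ∏ j : ZMod p, twist (zetaC p ^ j.val) (coeffMap iotaOne (x : LaurentSeries Qbar)) := by
    have := (expands_gL G).width_mul (k := p)
    rw [one_mul] at this
    exact this.unique hG
  have hW : ∀ ζ : Qbarˣ, IsPrimitiveRoot ζ p → qExpand ℂ p (gL M G) = coeffMap iotaOne
      (twistProd p ζ (x : LaurentSeries Qbar) * qExpand Qbar (p * p) z) := by
    intro ζ hζ
    rw [hY, prod_twist_eq (ζ := Units.map (iotaOne : Qbar →* ℂ) ζ)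
      (hζ.map_of_injective (Units.map_injective iotaOne.injective)), map_mul, twistProd,
      map_prod, coeffMap_qExpand, mul_comm]
    congr 1
    refine Finset.prod_congr rfl fun j _ => ?_
    rw [coeffMap_twist, map_pow]
  obtain ⟨ζ₀, hζ₀⟩ := HasEnoughRootsOfUnity.exists_primitiveRoot Qbar p
  have h₀ := hW (hζ₀.isUnit (NeZero.ne p)).unit (IsPrimitiveRoot.coe_units_iff.mp (by simpa using hζ₀))
  have hcoef : ∀ k : ℤ, (gL M G).coeff k ∈ Set.range iotaOne := fun k => by
    have := congrArg (fun s : LaurentSeries ℂ => s.coeff ((p : ℤ) * k)) h₀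
    simp only [qExpand_coeff_mul, coeffMap_coeff] at this
    exact ⟨_, this.symm⟩
  choose c hc using hcoef
  let y : LaurentSeries Qbar :=
    { coeff := c
      isPWO_support' := (gL M G).isPWO_support.mono fun k hk h => hk (iotaOne.injective
        (by rw [hc, h, map_zero])) }
  have hy : coeffMap iotaOne y = gL M G := by ext k; exact hc k
  have hye : IsExpOne (G : ℍ → ℂ) y := by
    rw [IsExpOne, hy]
    exact expands_gL G
  refine ⟨⟨y, mem_of_isExp_one hM G y hye⟩, fun ζ hζ => coeffMap_inj iotaOne.injective ?_⟩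
  show coeffMap iotaOne (qExpand Qbar p y) = _
  rw [coeffMap_qExpand, hy, hW ζ hζ]
  rfl

end FLTAgent.DS.Gen

namespace FLTAgent.DS

open ModularCurve FLTAgent.ModPoly

/-- Existence of the images under `T p`. -/
theorem heckeFacts_diamondData {M : ℕ} [NeZero M] (hM : 7 ≤ M) :
    HeckeFacts (diamondData hM) := by
  intro p _ hp hpM x
  obtain ⟨a, b, ya, yb, hyb, ha, hb, h⟩ := Gen.exists_rep_one x
  let xa : K1 M := ⟨ya, Gen.mem_of_isExp_one hM a ya ha⟩
  let xb : K1 M := ⟨yb, Gen.mem_of_isExp_one hM b yb hb⟩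
  obtain ⟨wa, hwa⟩ := Gen.exists_tImage_of_isExp hM hp hpM a xa ha
  obtain ⟨wb, hwb⟩ := Gen.exists_tImage_of_isExp hM hp hpM b xb hb
  have hx : x = xa / xb := by
    rw [eq_div_iff (fun e : xb = 0 => hyb (congrArg Subtype.val e))]
    exact Subtype.ext h
  refine ⟨wa / wb, fun ζ hζ => ?_⟩
  have hd : ∀ u v : K1 M, ((u / v : K1 M) : LaurentSeries (AlgebraicClosure ℚ)) =
      (u : LaurentSeries (AlgebraicClosure ℚ)) / v := fun u v => rfl
  rw [hx, hd, map_div₀, hwa ζ hζ, hwb ζ hζ, hd, map_div₀ ((diamondData hM).dia _), hd, map_div₀]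
  simp only [twistProd, map_div₀, Finset.prod_div_distrib]
  rw [div_mul_div_comm]

end FLTAgent.DS
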