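import Fermat.Agent.DS.Geom.FieldSep
import Fermat.Agent.ModPoly.Phi
import Fermat.Agent.ModPoly.LevelOne
import Fermat.Agent.JTors.FieldDescent

/-!
# Expansions of invariant functions lie in the field of the generators

Interpolation, in the variable `w = M τ`, over the cosets of the stabiliser of `± (1, 0)`.
-/

set_option autoImplicit false

noncomputable section

namespace FLTAgent.DS.Gen

open Filter Function CongruenceSubgroup ModularCurve Polynomial
open UpperHalfPlane hiding I
open FLTAgent.EllParam FLTAgent.ModPoly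
open FLTAgent.Mazur hiding X
open scoped Topology Manifold MatrixGroups

local notation "𝕢" => Periodic.qParam

variable {M : ℕ}

theorem rowMul_neg (v : ZMod M × ZMod M) (γ : SL(2, ℤ)) : rowMul (-v) γ = -rowMul v γ := by
  simp only [rowMul, Prod.fst_neg, Prod.snd_neg, Prod.neg_mk, Prod.mk.injEq]
  constructor <;> ring

variable (M) in
/-- The stabiliser of `± (1, 0)`. -/
def stabOne : Subgroup SL(2, ℤ) where
  carrier := {γ | row (M := M) γ = (1, 0) ∨ row (M := M) γ = -(1, 0)}
  one_mem' := Or.inl (rowMul_one _)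
  mul_mem' := by
    intro a b ha hb
    simp only [Set.mem_ofPred_eq, row] at ha hb ⊢
    rw [rowMul_mul]
    rcases ha with e | e <;> rw [e]
    · exact hb
    · rw [rowMul_neg]
      rcases hb with e' | e' <;> simp [e']
  inv_mem' := by
    intro a ha
    simp only [Set.mem_ofPred_eq, row] at ha ⊢
    rcases ha with e | e
    · left
      conv_lhs => rw [← e]
      rw [← rowMul_mul, mul_inv_cancel, rowMul_one]
    · right
      have : ((1, 0) : ZMod M × ZMod M) = -rowMul (1, 0) a := by rw [e, neg_neg]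
      conv_lhs => rw [this]
      rw [rowMul_neg, ← rowMul_mul, mul_inv_cancel, rowMul_one]

theorem Gamma_le_stabOne : Gamma M ≤ stabOne M := fun γ hγ => by
  left
  have h := Gamma_mem.1 hγ
  simp [row, rowMul, h.1, h.2.1]

variable [NeZero M]

instance finiteIndex_stabOne : (stabOne M).FiniteIndex :=
  Subgroup.finiteIndex_of_le Gamma_le_stabOne

/-- The cosets. -/
abbrev CosW (M : ℕ) : Type := SL(2, ℤ) ⧸ stabOne M

local instance fintypeCosW : Fintype (CosW M) := Fintype.ofFinite _

local instance decEqCosW : DecidableEq (CosW M) := Classical.decEq _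

/-- Invariance under the stabiliser. -/
def IsInvW (M : ℕ) (f : ℍ → ℂ) : Prop := ∀ γ ∈ stabOne M, ∀ w : ℍ, f (γ • w) = f w

theorem funW_neg (i : GIdx M) (v : ZMod M × ZMod M) : funW i (-v) = funW i v := by
  cases i with
  | none => simp only [funW, Option.elim_none]
  | some t =>
    funext w
    simp [funW, Xv, X_neg]

theorem isInvW_funW (i : GIdx M) : IsInvW M (funW i (1, 0)) := fun γ hγ w => by
  rw [funW_smul]
  rcases hγ with e | e <;> rw [show rowMul (1, 0) γ = _ from e]
  rw [funW_neg]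

/-- `f ∘ q⁻¹`. -/
def cosW (q : CosW M) (f : ℍ → ℂ) : ℍ → ℂ := fun w => f (q.out⁻¹ • w)

omit [NeZero M] in
theorem IsInvW.cosW_mk {f : ℍ → ℂ} (hf : IsInvW M f) (a : SL(2, ℤ)) :
    cosW (QuotientGroup.mk a : CosW M) f = fun w => f (a⁻¹ • w) := by
  funext w
  set b := (QuotientGroup.mk a : CosW M).out
  have hmem : b⁻¹ * a ∈ stabOne M := QuotientGroup.eq.mp (QuotientGroup.out_eq' _)
  have := hf _ hmem (a⁻¹ • w)
  rwa [← mul_smul, mul_assoc, mul_inv_cancel, mul_one] at this

omit [NeZero M] in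
theorem IsInvW.cosW_inv_smul {f : ℍ → ℂ} (hf : IsInvW M f) (γ : SL(2, ℤ)) (q : CosW M) :
    cosW (γ⁻¹ • q) f = compHom γ (cosW q f) := by
  induction q using QuotientGroup.induction_on with | _ a => ?_
  rw [MulAction.Quotient.smul_mk, hf.cosW_mk, hf.cosW_mk]
  funext w
  simp [compHom_apply, mul_smul]

variable (M) in
/-- Functions admissible in the interpolation. -/
structure IsAdm (f : ℍ → ℂ) : Prop where
  inv : IsInvW M f
  mdiff : MDiff f
  exp : ∀ γ : SL(2, ℤ), (fun w => f (γ • w)) ∈ expRing (M * M)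

theorem isAdm_funW (i : GIdx M) : IsAdm M (funW i (1, 0)) := by
  have : NeZero (M * M) := ⟨Nat.mul_ne_zero (NeZero.ne M) (NeZero.ne M)⟩
  refine ⟨isInvW_funW i, mdiff_funW_one_zero i, fun γ => ?_⟩
  obtain ⟨x, hx⟩ := funW_mem_expRing i γ
  exact hx.mem_expRing_width (dvd_mul_right M M)

theorem IsAdm.cosW_mem {f : ℍ → ℂ} (hf : IsAdm M f) (q : CosW M) :
    cosW q f ∈ holExp (M * M) :=
  ⟨mdifferentiable_comp_smul hf.mdiff _, hf.exp _⟩

theorem mem_expRing_one_of_periodic {L : ℕ} [NeZero L] {g : ℍ → ℂ} (hg : MDiff g)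
    (hper : ∀ τ : ℍ, g (((1 : ℕ) : ℝ) +ᵥ τ) = g τ) (hL : g ∈ expRing L) : g ∈ expRing 1 := by
  obtain ⟨m, hm⟩ := exists_isBounded_of_mem_expRing hL
  refine mem_expRing_of_isBounded hg hper (m := m)
    (Asymptotics.IsBigO.trans (Asymptotics.isBigO_of_le _ fun τ => ?_) hm)
  rw [norm_mul, norm_mul, norm_pow, norm_pow, Periodic.norm_qParam, Periodic.norm_qParam]
  gcongr ?_ ^ _ * _
  rw [Real.exp_le_exp, neg_mul, neg_mul, neg_div, neg_div, neg_le_neg_iff]
  exact div_le_div_of_nonneg_left (by positivity [τ.im_pos]) (by simp)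
    (by exact_mod_cast Nat.one_le_iff_ne_zero.mpr (NeZero.ne L))

/-- Interpolation over the cosets. -/
def interpW (J f : ℍ → ℂ) : (ℍ → ℂ)[X] :=
  ∑ q : CosW M, C (cosW q f) * ∏ r ∈ Finset.univ.erase q, (X - C (cosW r J))

theorem map_interpW {J f : ℍ → ℂ} (hJ : IsInvW M J) (hf : IsInvW M f) (γ : SL(2, ℤ)) :
    (interpW (M := M) J f).map (compHom γ) = interpW (M := M) J f := by
  rw [interpW, Polynomial.map_sum]
  refine Fintype.sum_equiv (MulAction.toPerm γ⁻¹) _ _ fun q => ?_
  rw [Polynomial.map_mul, Polynomial.map_C, ← hf.cosW_inv_smul, Polynomial.map_prod,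
    MulAction.toPerm_apply]
  congr 1
  refine Finset.prod_equiv (MulAction.toPerm γ⁻¹) (fun r => ?_) fun r _ => ?_
  · simp [(MulAction.injective γ⁻¹).eq_iff]
  · rw [Polynomial.map_sub, Polynomial.map_X, Polynomial.map_C, ← hJ.cosW_inv_smul,
      MulAction.toPerm_apply]

theorem coeff_interpW {J f : ℍ → ℂ} (hJ : IsAdm M J) (hf : IsAdm M f) (i : ℕ) :
    ∃ P : ℂ[X], (interpW (M := M) J f).coeff i = evalJFun P := by
  have : NeZero (M * M) := ⟨Nat.mul_ne_zero (NeZero.ne M) (NeZero.ne M)⟩
  set P₀ : (holExp (M * M))[X] := ∑ q : CosW M, C ⟨_, hf.cosW_mem q⟩ *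
    ∏ r ∈ Finset.univ.erase q, (X - C ⟨_, hJ.cosW_mem r⟩)
  have hmap : P₀.map (holExp (M * M)).val.toRingHom = interpW (M := M) J f := by
    simp only [P₀, interpW, Polynomial.map_sum, Polynomial.map_mul, Polynomial.map_prod,
      Polynomial.map_sub, Polynomial.map_X, Polynomial.map_C]
    rfl
  have hinv : ∀ (γ : SL(2, ℤ)) (w : ℍ),
      (interpW (M := M) J f).coeff i (γ • w) = (interpW (M := M) J f).coeff i w := fun γ w => by
    conv_rhs => rw [← map_interpW hJ.inv hf.inv γ, Polynomial.coeff_map]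
    rfl
  have hmem : (interpW (M := M) J f).coeff i ∈ holExp (M * M) := by
    rw [← hmap, Polynomial.coeff_map]
    exact (P₀.coeff i).2
  obtain ⟨x, hx⟩ := mem_expRing_one_of_periodic hmem.1
    (fun w => by rw [← smul_T_pow_eq_vadd, hinv]) hmem.2
  obtain ⟨P, -, hP⟩ := exists_polynomial_of_levelOne ⊤ hmem.1 hinv hx fun _ => Subring.mem_top _
  exact ⟨P, hP⟩

variable (M) in
/-- The derivative of the interpolation at `J`. -/
def denW (J : ℍ → ℂ) : ℍ → ℂ :=
  ∏ r ∈ (Finset.univ : Finset (CosW M)).erase (QuotientGroup.mk 1), (J - cosW r J)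

theorem cosW_one {f : ℍ → ℂ} (hf : IsInvW M f) :
    cosW (QuotientGroup.mk 1 : CosW M) f = f := by
  rw [hf.cosW_mk]
  simp

theorem eval_interpW {J f : ℍ → ℂ} (hJ : IsInvW M J) (hf : IsInvW M f) :
    (interpW (M := M) J f).eval J = f * denW M J := by
  rw [interpW, eval_finsetSum, Finset.sum_eq_single (QuotientGroup.mk 1 : CosW M)]
  · simp [eval_prod, denW, cosW_one hf]
  · intro q _ hq
    rw [eval_mul, eval_prod, Finset.prod_eq_zero (i := (QuotientGroup.mk 1 : CosW M))
      (Finset.mem_erase.2 ⟨hq.symm, Finset.mem_univ _⟩), mul_zero]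
    simp [cosW_one hJ]
  · simp

/-- A linear combination of the generators. -/
def combW (c : GIdx M → ℂ) : ℍ → ℂ := fun w => ∑ i, c i * funW i (1, 0) w

theorem isAdm_combW (c : GIdx M → ℂ) : IsAdm M (combW c) := by
  have he : combW c = ∑ i, c i • funW i ((1, 0) : ZMod M × ZMod M) := by
    funext w; simp [combW]
  refine ⟨fun γ hγ w => ?_, ?_, fun γ => ?_⟩
  · simp only [combW, isInvW_funW _ γ hγ w]
  · rw [he]
    exact MDifferentiable.sum fun i _ => (mdiff_funW_one_zero i).const_smul (c i)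
  · have : (fun w => combW c (γ • w)) =
        ∑ i, c i • fun w => funW i ((1, 0) : ZMod M × ZMod M) (γ • w) := by
      funext w; simp [combW]
    rw [this]
    exact sum_mem fun i _ => Subalgebra.smul_mem _ ((isAdm_funW i).exp γ) _

/-- A combination with distinct conjugates. -/
theorem exists_separating (hM : 7 ≤ M) :
    ∃ c : GIdx M → ℂ, Function.Injective fun q : CosW M => cosW q (combW c) := by
  classical
  let P := {p : CosW M × CosW M // p.1 ≠ p.2}
  let V : P → Submodule ℂ (GIdx M → ℂ) := fun p => LinearMap.ker (LinearMap.pi fun w : ℍ =>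
    ∑ i, (cosW p.1.1 (funW i (1, 0)) w - cosW p.1.2 (funW i (1, 0)) w) •
      (LinearMap.proj i : (GIdx M → ℂ) →ₗ[ℂ] ℂ))
  have hVmem : ∀ p c, c ∈ V p ↔ cosW p.1.1 (combW c) = cosW p.1.2 (combW c) := fun p c => by
    rw [LinearMap.mem_ker, funext_iff, funext_iff]
    refine forall_congr' fun w => ?_
    simp only [LinearMap.pi_apply, LinearMap.coe_sum, Finset.sum_apply, LinearMap.smul_apply,
      LinearMap.proj_apply, smul_eq_mul, Pi.zero_apply, cosW, combW, sub_mul,
      Finset.sum_sub_distrib, sub_eq_zero, mul_comm (c _)]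
  have hV : ∀ p, V p ≠ ⊤ := by
    rintro ⟨⟨x, y⟩, hxy⟩ htop
    apply hxy
    induction x using QuotientGroup.induction_on with | _ a => ?_
    induction y using QuotientGroup.induction_on with | _ b => ?_
    have hc : ∀ i : GIdx M, cosW (QuotientGroup.mk a : CosW M) (funW i (1, 0)) =
        cosW (QuotientGroup.mk b : CosW M) (funW i (1, 0)) := fun i => by
      have h := (hVmem ⟨_, hxy⟩ (Pi.single i 1)).mp (htop ▸ Submodule.mem_top)
      have hs : combW (Pi.single i (1 : ℂ)) = funW i ((1, 0) : ZMod M × ZMod M) := by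
        funext w
        simp [combW, Pi.single_apply]
      rwa [hs] at h
    refine (QuotientGroup.eq.mpr ?_).symm
    refine row_eq_of_funW_eq hM (γ := b⁻¹ * a) (fun i => funext fun w => ?_) |>.imp_right
      fun e => by rw [e]; simp
    have h := congr_fun (hc i) (a • w)
    rw [(isInvW_funW i).cosW_mk, (isInvW_funW i).cosW_mk] at h
    simp only [← mul_smul, inv_mul_cancel, one_smul] at h
    rw [h, funW_smul]
    rfl
  obtain ⟨c, hc⟩ := Submodule.exists_forall_notMem_of_forall_ne_top V hV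
  refine ⟨c, fun q r h => ?_⟩
  by_contra hne
  exact hc ⟨(q, r), hne⟩ ((hVmem ⟨(q, r), hne⟩ c).mpr h)

theorem denW_ne_zero {J : ℍ → ℂ} (hJ : IsAdm M J)
    (hsep : Function.Injective fun q : CosW M => cosW q J) : denW M J ≠ 0 := by
  intro h
  obtain ⟨r, hr, h0⟩ := (UpperHalfPlane.prod_eq_zero_iff
    (f := fun r : CosW M => J - cosW r J)
    (fun r _ => hJ.mdiff.sub (mdifferentiable_comp_smul hJ.mdiff _))).1 h
  refine (Finset.mem_erase.1 hr).1 (hsep ?_)
  show cosW r J = cosW (QuotientGroup.mk 1 : CosW M) J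
  rw [cosW_one hJ.inv]
  exact (sub_eq_zero.1 h0).symm

/-! ### Expansions -/

theorem mem_expRing_one_of_mem {g : ℍ → ℂ} (hg : g ∈ modFunRingOne M) : g ∈ expRing 1 :=
  mem_expRing_one_of_periodic (L := M) hg.1
    (fun τ => by
      rw [← smul_T_pow_eq_vadd]
      exact hg.2.1 _ ((Gamma1_mem M _).2 (by rw [ModularGroup.coe_T_zpow]; simp)) τ)
    (by simpa using hg.2.2 1)

variable (M) in
/-- The expansion at `∞`. -/
def gL : modFunRingOne M →ₐ[ℂ] LaurentSeries ℂ :=
  (qLaurentHom 1).comp (Subalgebra.inclusion fun _ hg => mem_expRing_one_of_mem hg)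

theorem expands_gL (g : modFunRingOne M) : Expands 1 (g : ℍ → ℂ) (gL M g) :=
  expands_expSeries (Subalgebra.inclusion (fun _ hg => mem_expRing_one_of_mem hg) g)

theorem gL_eq_of_expands {g : modFunRingOne M} {x : LaurentSeries ℂ}
    (h : Expands 1 (g : ℍ → ℂ) x) : gL M g = x :=
  (expands_gL g).unique h

theorem gL_injective : Function.Injective (gL M) := fun f g h =>
  Subtype.ext (eq_of_expands f.2.1 g.2.1 (expands_gL f) (h ▸ expands_gL g))

theorem tendsto_divM : Tendsto (divM M) atImInfty atImInfty := by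
  rw [atImInfty, tendsto_comap_iff]
  refine ((tendsto_comap (f := UpperHalfPlane.im) (x := atTop)).atTop_div_const
    (show (0 : ℝ) < M from Nat.cast_pos.mpr (NeZero.pos M))).congr fun τ => ?_
  show τ.im / (M : ℝ) = (divM M τ : ℂ).im
  rw [coe_divM]
  simp

/-- Passing from `τ` to `w = M τ`. -/
theorem expands_comp_divM {g : ℍ → ℂ} {x : LaurentSeries ℂ} (hg : Expands 1 g x) :
    Expands M (fun w => g (divM M w)) x := by
  have := hg.comp_scale (h' := M) (k := 1) 1 (tendsto_divM (M := M)) fun τ => by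
    rw [coe_divM, Units.val_one, one_mul, pow_one]
    simp only [Periodic.qParam, Nat.cast_one, Complex.ofReal_one, div_one, Complex.ofReal_natCast]
    ring_nf
  simpa [twist_one_unit, qExpand_one_apply] using this

theorem castSer_mem_laurentBaseChange (i : GIdx M) :
    castSer ℂ (gSer i) ∈ laurentBaseChange ℂ (fieldOne M) := by
  have h : castSer ℂ (gSer i) = coeffEmb ℂ (castSer ℚ (gSer i)) := by
    rw [coeffEmb, castSer, castSer, coeffMap_coeffMap]
    exact coeffMap_congr (RingHom.ext_int _ _) _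
  rw [h]
  exact coeffEmb_mem_laurentBaseChange ℂ
    (IntermediateField.subset_adjoin ℚ _ ⟨_, by rw [← range_gSer]; exact ⟨i, rfl⟩, rfl⟩)

theorem isAdm_comp_divM {g : ℍ → ℂ} (hg : g ∈ modFunRingOne M) :
    IsAdm M fun w => g (divM M w) := by
  refine ⟨fun γ hγ w => ?_, mdiff_divM hg.1, fun γ => comp_rep_mem_expRing hg.2.2 _ γ⟩
  obtain ⟨e, he, h00, h01⟩ : ∃ e : ZMod M, (e = 1 ∨ e = -1) ∧ (γ 0 0 : ZMod M) = e ∧
      (γ 0 1 : ZMod M) = 0 := by
    rcases hγ with h | h
    · exact ⟨1, Or.inl rfl, by simpa [row, rowMul] using congrArg Prod.fst h,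
        by simpa [row, rowMul] using congrArg Prod.snd h⟩
    · exact ⟨-1, Or.inr rfl, by simpa [row, rowMul] using congrArg Prod.fst h,
        by simpa [row, rowMul] using congrArg Prod.snd h⟩
  obtain ⟨b, hb⟩ := (ZMod.intCast_zmod_eq_zero_iff_dvd _ _).mp h01
  have hdet : γ 0 0 * γ 1 1 - γ 0 1 * γ 1 0 = 1 := by
    rw [← Matrix.det_fin_two]; exact γ.2
  let G : SL(2, ℤ) := ⟨!![γ 0 0, b; (M : ℤ) * γ 1 0, γ 1 1], by
    rw [Matrix.det_fin_two_of]; linear_combination hdet + γ 1 0 * hb⟩
  have hG0 : G ∈ Gamma0 M := Gamma0_mem.2 (by simp [G])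
  have hd : (γ 1 1 : ZMod M) = e := by
    have := congrArg (Int.cast : ℤ → ZMod M) hdet
    push_cast at this
    rw [h00, h01, zero_mul, sub_zero] at this
    rcases he with rfl | rfl
    · linear_combination this
    · linear_combination -this
  have hmove : divM M (γ • w) = G • divM M w := by
    have hMC : (M : ℂ) ≠ 0 := Nat.cast_ne_zero.mpr (NeZero.ne M)
    have hden : (γ 1 0 : ℂ) * w + γ 1 1 ≠ 0 := Genus.denom_int_ne_zero γ w
    ext1
    rw [coe_divM, UpperHalfPlane.coe_specialLinearGroup_apply,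
      UpperHalfPlane.coe_specialLinearGroup_apply, coe_divM]
    simp only [algebraMap_int_eq, eq_intCast, Complex.ofReal_intCast, G, Matrix.cons_val',
      Matrix.cons_val_zero, Matrix.cons_val_one, Matrix.cons_val_fin_one, Matrix.of_apply, hb]
    push_cast
    field_simp
  rw [hmove]
  rcases he with rfl | rfl
  · refine hg.2.1 G ((Gamma1_mem M G).2 ⟨?_, ?_, ?_⟩) _
    · simpa [G] using h00
    · simpa [G] using hd
    · exact Gamma0_mem.1 hG0
  · rw [← ModularGroup.SL_neg_smul]
    refine hg.2.1 (-G) ((Gamma1_mem M _).2 ⟨?_, ?_, ?_⟩) _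
    · simp [G, h00]
    · simp [G, hd]
    · simp [G]

theorem expands_combW (c : GIdx M → ℂ) :
    ∃ x ∈ laurentBaseChange ℂ (fieldOne M), Expands M (combW c) x := by
  refine ⟨∑ i, c i • castSer ℂ (gSer i),
    sum_mem fun i _ => by
      rw [← HahnSeries.C_mul_eq_smul, HahnSeries.C_apply, ← algebraMap_laurentSeries_eq_single]
      exact mul_mem (IntermediateField.algebraMap_mem _ _) (castSer_mem_laurentBaseChange i), ?_⟩
  have he : combW c = ∑ i, c i • funW i ((1, 0) : ZMod M × ZMod M) := by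
    funext w; simp [combW]
  rw [he]
  refine Expands.sum _ fun i _ => ?_
  have he2 : (fun w => gFun i (divM M w)) = funW i (1, 0) := funext fun w => by
    rw [gFun, mulM_divM]
  exact he2 ▸ (expands_comp_divM (expands_gFun i)).smul (c i)

theorem expands_evalJ_mem (P : ℂ[X]) :
    qExpand ℂ M (aeval (jqModC ℂ) P) ∈ laurentBaseChange ℂ (fieldOne M) := by
  have hj : qExpand ℂ M (jqModC ℂ) ∈ laurentBaseChange ℂ (fieldOne M) := by
    have := castSer_mem_laurentBaseChange (M := M) none
    rwa [gSer, jSer, castSer, coeffMap_qExpand, coeffMap_jqModC] at this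
  induction P using Polynomial.induction_on' with
  | add p q hp hq => rw [map_add, map_add]; exact add_mem hp hq
  | monomial n a =>
    rw [aeval_monomial, map_mul, map_pow, algebraMap_laurentSeries_eq_single, qExpand_single,
      mul_zero, ← algebraMap_laurentSeries_eq_single]
    exact mul_mem (IntermediateField.algebraMap_mem _ a) (pow_mem hj n)

/-- Expansions of invariant functions lie in the field of the generators. -/
theorem gL_mem (hM : 7 ≤ M) (g : modFunRingOne M) :
    gL M g ∈ laurentBaseChange ℂ (fieldOne M) := by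
  obtain ⟨c, hc⟩ := exists_separating hM
  obtain ⟨xJ, hxJ, hJ⟩ := expands_combW c
  have hA := isAdm_combW c
  have key : ∀ f : ℍ → ℂ, IsAdm M f → ∃ Y ∈ laurentBaseChange ℂ (fieldOne M),
      Expands M (f * denW M (combW c)) Y := by
    intro f hf
    choose P hP using coeff_interpW hA hf
    refine ⟨∑ i ∈ Finset.range ((interpW (M := M) (combW c) f).natDegree + 1),
      qExpand ℂ M (aeval (jqModC ℂ) (P i)) * xJ ^ i,
      sum_mem fun i _ => mul_mem (expands_evalJ_mem _) (pow_mem hxJ i), ?_⟩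
    rw [← eval_interpW hA.inv hf.inv, eval_eq_sum_range]
    refine Expands.sum _ fun i _ => ?_
    rw [hP i]
    have h1 := (expands_evalJFun (P i)).width_mul (k := M)
    rw [one_mul] at h1
    exact h1.mul (hJ.pow i)
  obtain ⟨Y, hY, hYe⟩ := key _ (isAdm_comp_divM g.2)
  obtain ⟨Y₁, hY₁, hY₁e⟩ := key _ (isAdm_comp_divM (one_mem (modFunRingOne M)))
  have hone : (fun w : ℍ => (1 : ℍ → ℂ) (divM M w)) * denW M (combW c) = denW M (combW c) := by
    funext w; simp
  rw [hone] at hY₁e
  have hprod : MDiff (denW M (combW c)) := by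
    unfold denW
    exact MDifferentiable.prod fun r _ =>
      hA.mdiff.sub (mdifferentiable_comp_smul hA.mdiff _)
  have hY₁0 : Y₁ ≠ 0 := fun e => denW_ne_zero hA hc (by
    rw [e] at hY₁e
    exact eq_of_expands hprod (mdifferentiable_const (c := (0 : ℂ))) hY₁e (Expands.zero M))
  have := ((expands_comp_divM (M := M) (expands_gL g)).mul hY₁e).unique hYe
  rw [← mul_div_cancel_right₀ (gL M g) hY₁0, this]
  exact div_mem hY hY₁

end FLTAgent.DS.Gen
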