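import Fermat.Agent.DS.Geom.Field
import Fermat.Agent.DS.Phi.One

/-!
# `fieldOne M` is a model of the field of level `±Γ₁(M)`, and the facts of level `M`
-/

set_option autoImplicit false

noncomputable section

namespace FLTAgent.DS

open ModularCurve FLTAgent.ModPoly

variable {M : ℕ} [NeZero M]

/-- `fieldOne M` is a rational model. -/
theorem isModel_fieldOne (hM : 7 ≤ M) : Phi.IsModel (Phi.lvlOne M) (fieldOne M) := by
  refine ⟨IntermediateField.ext fun x => ?_⟩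
  rw [Gen.mem_laurentBaseChange_iff_quot hM, Phi.mem_fieldC]
  have hq : ∀ g : Phi.funRing (Phi.lvlOne M),
      Phi.qL (Phi.lvlOne M) g = Gen.gL M ⟨g, Phi.mem_funRing_lvlOne.1 g.2⟩ := fun g =>
    (Gen.gL_eq_of_expands (g := ⟨g, Phi.mem_funRing_lvlOne.1 g.2⟩) (Phi.expands_qL g)).symm
  constructor
  · rintro ⟨a, b, hb, h⟩
    refine ⟨⟨a, Phi.mem_funRing_lvlOne.2 a.2⟩, ⟨b, Phi.mem_funRing_lvlOne.2 b.2⟩,
      fun e => hb ?_, by rw [hq, hq]; exact h⟩
    have : b = 0 := Subtype.ext (congrArg Subtype.val e :)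
    rw [this, map_zero]
  · rintro ⟨a, b, hb, h⟩
    refine ⟨⟨a, Phi.mem_funRing_lvlOne.1 a.2⟩, ⟨b, Phi.mem_funRing_lvlOne.1 b.2⟩, ?_,
      by rw [← hq, ← hq]; exact h⟩
    rw [← hq]
    exact fun e => hb (Phi.qL_injective (e.trans (map_zero _).symm))

/-- The analytic dictionary at level `M`. -/
theorem levelFacts (hM : 7 ≤ M) : LevelFacts M :=
  ⟨Phi.isFunctionField_K1 (isModel_fieldOne hM), Gen.exists_rep_one, Gen.mem_of_isExp_one hM,
    fun J hJ a h0 h1 v hv => Phi.ord_sub_eq_one (isModel_fieldOne hM) J hJ a h0 h1 v hv⟩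

end FLTAgent.DS
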