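import Fermat.Agent.DS.Geom.FieldFun

/-!
# The conjugates of the generators are distinct

If the generators at the primitive vectors `v` and `(1, 0)` are the same functions, then
`v = ± (1, 0)`. Only the limits at `i∞` and the duplication formula for them are used.
-/

set_option autoImplicit false

noncomputable section

namespace FLTAgent.DS.Gen

open Filter Function
open UpperHalfPlane hiding I
open FLTAgent.EllParam FLTAgent.Mazur
open scoped Topology MatrixGroups

variable {M : ℕ}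

theorem natCast_ne_zero_of_lt {n : ℕ} (h0 : 0 < n) (h : n < M) : (n : ZMod M) ≠ 0 := fun e =>
  absurd (Nat.le_of_dvd h0 ((ZMod.natCast_eq_zero_iff n M).mp e)) (not_le.mpr h)

theorem isPrim_zero_one : IsPrim ((0, 1) : ZMod M × ZMod M) := fun k _ h => by simpa using h

variable [NeZero M]

/-- `u / (1 - u) ^ 2` at `u = exp (2πik/M)`. -/
def sVal (k : ZMod M) : ℂ := Su (zPow (zetaP M) k)

theorem zPow_add_eq (a b : ZMod M) :
    zPow (zetaP M) (a + b) = zPow (zetaP M) a * zPow (zetaP M) b := by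
  simp only [zPow, ← pow_add, ZMod.val_add,
    ← pow_eq_pow_mod _ (isPrimitiveRoot_zetaP (p := M)).pow_eq_one]

theorem zPow_ne_one {k : ZMod M} (hk : k ≠ 0) : zPow (zetaP M) k ≠ 1 :=
  (isPrimitiveRoot_zetaP (p := M)).pow_ne_one_of_pos_of_lt
    (fun e => hk ((ZMod.val_eq_zero k).mp e)) (ZMod.val_lt k)

theorem sVal_inj {a b : ZMod M} (ha : a ≠ 0) (hb : b ≠ 0) (h : sVal a = sVal b) :
    a = b ∨ a = -b := by
  set u := zPow (zetaP M) a with hu
  set v := zPow (zetaP M) b with hv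
  have hu1 : 1 - u ≠ 0 := sub_ne_zero.mpr (zPow_ne_one ha).symm
  have hv1 : 1 - v ≠ 0 := sub_ne_zero.mpr (zPow_ne_one hb).symm
  rw [sVal, sVal, Su, Su, ← hu, ← hv,
    div_eq_div_iff (pow_ne_zero 2 hu1) (pow_ne_zero 2 hv1)] at h
  rcases mul_eq_zero.mp (show (u - v) * (1 - u * v) = 0 by linear_combination h) with e | e
  · exact Or.inl (ZMod.val_injective M ((isPrimitiveRoot_zetaP (p := M)).pow_inj
      (ZMod.val_lt a) (ZMod.val_lt b) (sub_eq_zero.mp e)))
  · refine Or.inr (eq_neg_of_add_eq_zero_left ?_)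
    by_contra hne
    exact zPow_ne_one hne (by rw [zPow_add_eq, ← hu, ← hv]; exact (sub_eq_zero.mp e).symm)

/-- Duplication. -/
theorem sVal_double {a : ZMod M} (ha : a ≠ 0) (h2 : 2 * a ≠ 0) :
    sVal (2 * a) * (1 + 4 * sVal a) = sVal a ^ 2 := by
  have hu1 : 1 - zPow (zetaP M) a ≠ 0 := sub_ne_zero.mpr (zPow_ne_one ha).symm
  have hu2 : 1 - zPow (zetaP M) a * zPow (zetaP M) a ≠ 0 := by
    rw [← zPow_add_eq, ← two_mul]
    exact sub_ne_zero.mpr (zPow_ne_one h2).symm
  rw [two_mul, sVal, sVal, zPow_add_eq, Su, Su]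
  generalize zPow (zetaP M) a = u at hu1 hu2
  rw [show 1 - u * u = (1 - u) * (1 + u) by ring] at hu2 ⊢
  have hu3 : 1 + u ≠ 0 := right_ne_zero_of_mul hu2
  field_simp
  ring

/-- The limit of `Xv v k` at `i∞`. -/
def limVal (v : ZMod M × ZMod M) (k : ZMod M) : ℂ := if k * v.1 = 0 then sVal (k * v.2) else 0

theorem tendsto_Xv {v : ZMod M × ZMod M} (hv : IsPrim v) {k : ZMod M} (hk : k ≠ 0) :
    Tendsto (Xv v k) atImInfty (𝓝 (1 / 12 + limVal v k)) := by
  have := tendsto_X (hv.smul_ne_zero hk)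
  rw [← zPow_zetaP] at this
  exact this

theorem Xv_ne {v : ZMod M × ZMod M} (hv : IsPrim v) {a b : ZMod M} (ha : a ≠ 0) (hb : b ≠ 0)
    (h1 : a - b ≠ 0) (h2 : a + b ≠ 0) (w : ℍ) : Xv v a w ≠ Xv v b w := by
  intro e
  rcases (X_eq_iff w (hv.smul_ne_zero ha) (hv.smul_ne_zero hb)).mp e with ⟨e1, e2⟩ | ⟨e1, e2⟩
  · exact h1 (hv _ (by rw [sub_mul, e1, sub_self]) (by rw [sub_mul, e2, sub_self]))
  · exact h2 (hv _ (by rw [add_mul, e1, neg_add_cancel]) (by rw [add_mul, e2, neg_add_cancel]))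

/-- Separation, at the base vector `(0, 1)`. -/
theorem eq_of_funW_eq (hM : 7 ≤ M) {v : ZMod M × ZMod M} (hv : IsPrim v)
    (h : ∀ (t : Trip M) (w : ℍ), funW (some t) (0, 1) w = funW (some t) v w) :
    v = (0, 1) ∨ v = (0, -1) := by
  have hne : ∀ n : ℕ, 0 < n → n ≤ 6 → (n : ZMod M) ≠ 0 := fun n h0 h6 =>
    natCast_ne_zero_of_lt h0 (by omega)
  have c1 : (1 : ZMod M) ≠ 0 := by simpa using hne 1 one_pos (by norm_num)
  have c2 : (2 : ZMod M) ≠ 0 := by exact_mod_cast hne 2 two_pos (by norm_num)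
  have c3 : (3 : ZMod M) ≠ 0 := by exact_mod_cast hne 3 (by norm_num) (by norm_num)
  have c4 : (4 : ZMod M) ≠ 0 := by exact_mod_cast hne 4 (by norm_num) (by norm_num)
  have c5 : (5 : ZMod M) ≠ 0 := by exact_mod_cast hne 5 (by norm_num) (by norm_num)
  have c6 : (6 : ZMod M) ≠ 0 := by exact_mod_cast hne 6 (by norm_num) le_rfl
  have d12a : (1 : ZMod M) - 2 ≠ 0 := fun e => c1 (by linear_combination -e)
  have d12s : (1 : ZMod M) + 2 ≠ 0 := fun e => c3 (by linear_combination e)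
  set A := Xv (M := M) (0, 1) with hA
  set B := Xv v with hB
  have hvA : IsPrim ((0, 1) : ZMod M × ZMod M) := isPrim_zero_one
  have hraw : ∀ f : ZMod M, f ≠ 0 → ∀ w,
      (A 1 w - A 2 w) ^ 5 * (A 1 w - A f w) = (B 1 w - B 2 w) ^ 5 * (B 1 w - B f w) :=
    fun f hf w => by
      have e := h ⟨(1, 2, f), c1, c2, hf⟩ w
      simp only [funW, Option.elim_some] at e
      exact (div_left_inj' (ModularForm.discriminant_ne_zero w)).mp e
  have hlin : ∀ f : ZMod M, f ≠ 0 → ∀ w,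
      (B 1 w - B 2 w) * (A 1 w - A f w) = (A 1 w - A 2 w) * (B 1 w - B f w) := fun f hf w => by
    have hB0 : B 1 w - B 2 w ≠ 0 := sub_ne_zero.mpr (Xv_ne hv c1 c2 d12a d12s w)
    refine mul_left_cancel₀ (pow_ne_zero 5 hB0) ?_
    linear_combination (A 1 w - A 2 w) * hraw f hf w - (A 1 w - A f w) * hraw 2 c2 w
  set a := limVal (M := M) (0, 1) with ha
  set b := limVal v with hb
  have tA : ∀ k : ZMod M, k ≠ 0 → Tendsto (A k) atImInfty (𝓝 (1 / 12 + a k)) := fun k hk =>
    tendsto_Xv hvA hk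
  have tB : ∀ k : ZMod M, k ≠ 0 → Tendsto (B k) atImInfty (𝓝 (1 / 12 + b k)) := fun k hk =>
    tendsto_Xv hv hk
  have dA : ∀ k : ZMod M, k ≠ 0 →
      Tendsto (fun w => A 1 w - A k w) atImInfty (𝓝 (a 1 - a k)) := fun k hk => by
    have := (tA 1 c1).sub (tA k hk)
    rwa [add_sub_add_left_eq_sub] at this
  have dB : ∀ k : ZMod M, k ≠ 0 →
      Tendsto (fun w => B 1 w - B k w) atImInfty (𝓝 (b 1 - b k)) := fun k hk => by
    have := (tB 1 c1).sub (tB k hk)
    rwa [add_sub_add_left_eq_sub] at this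
  have hsix : (a 1 - a 2) ^ 6 = (b 1 - b 2) ^ 6 := by
    refine tendsto_nhds_unique (((dA 2 c2).pow 6).congr fun w => ?_) ((dB 2 c2).pow 6)
    linear_combination hraw 2 c2 w
  have hlim : ∀ f : ZMod M, f ≠ 0 →
      (b 1 - b 2) * (a 1 - a f) = (a 1 - a 2) * (b 1 - b f) := fun f hf =>
    tendsto_nhds_unique (((dB 2 c2).mul (dA f hf)).congr (hlin f hf)) ((dA 2 c2).mul (dB f hf))
  have ha' : ∀ k : ZMod M, a k = sVal k := fun k => by simp [ha, limVal]
  have hs : ∀ k l : ZMod M, k ≠ 0 → l ≠ 0 → k - l ≠ 0 → k + l ≠ 0 → sVal k ≠ sVal l :=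
    fun k l hk hl h1 h2 e => (sVal_inj hk hl e).elim (fun e' => h1 (by rw [e', sub_self]))
      (fun e' => h2 (by rw [e', neg_add_cancel]))
  have ha12 : a 1 - a 2 ≠ 0 := by
    rw [ha', ha', sub_ne_zero]
    exact hs 1 2 c1 c2 d12a d12s
  have hb12 : b 1 - b 2 ≠ 0 := fun e => ha12 (by
    rw [e, zero_pow (by norm_num)] at hsix
    exact pow_eq_zero_iff (by norm_num) |>.mp hsix)
  have hv1 : v.1 = 0 := by
    by_contra hne0
    have hb1 : b 1 = 0 := by simp [hb, limVal, hne0]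
    by_cases h2 : 2 * v.1 = 0
    · have h3 : 3 * v.1 ≠ 0 := fun e => hne0 (by linear_combination e - h2)
      have hb3 : b 3 = 0 := by simp [hb, limVal, h3]
      have := hlim 3 c3
      rw [hb1, hb3, sub_self, mul_zero] at this
      have ha13 := (mul_eq_zero.mp this).resolve_left (by rwa [hb1] at hb12)
      rw [ha', ha', sub_eq_zero] at ha13
      exact hs 1 3 c1 c3 (fun e => c2 (by linear_combination -e))
        (fun e => c4 (by linear_combination e)) ha13
    · exact hb12 (by simp [hb, limVal, hne0, h2])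
  have hb' : ∀ k : ZMod M, b k = sVal (k * v.2) := fun k => by simp [hb, limVal, hv1]
  have hkv : ∀ k : ZMod M, k ≠ 0 → k * v.2 ≠ 0 := fun k hk e =>
    hk (hv k (by rw [hv1, mul_zero]) e)
  set α := (b 1 - b 2) / (a 1 - a 2) with hα
  set β := b 1 - α * a 1 with hβ
  have hα0 : α ≠ 0 := div_ne_zero hb12 ha12
  have haff : ∀ f : ZMod M, f ≠ 0 → sVal (f * v.2) = α * sVal f + β := fun f hf => by
    have := hlim f hf
    rw [← hb', ← ha', hβ, hα]
    field_simp
    linear_combination this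
  have hquad : ∀ f : ZMod M, f ≠ 0 → 2 * f ≠ 0 →
      (α + 12 * α * β - α ^ 2) * sVal f ^ 2 + (4 * β + 12 * β ^ 2 + 2 * α * β) * sVal f +
        (β + 3 * β ^ 2) = 0 := fun f hf h2f => by
    have e1 := sVal_double hf h2f
    have e2 := sVal_double (hkv f hf) (by rw [← mul_assoc]; exact hkv _ h2f)
    rw [← mul_assoc, haff _ h2f, haff _ hf] at e2
    linear_combination (1 + 4 * sVal f) * e2 - α * (1 + 4 * (α * sVal f + β)) * e1
  have d13a : (1 : ZMod M) - 3 ≠ 0 := fun e => c2 (by linear_combination -e)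
  have d13s : (1 : ZMod M) + 3 ≠ 0 := fun e => c4 (by linear_combination e)
  have d23a : (2 : ZMod M) - 3 ≠ 0 := fun e => c1 (by linear_combination -e)
  have d23s : (2 : ZMod M) + 3 ≠ 0 := fun e => c5 (by linear_combination e)
  have q1 := hquad 1 c1 (by rwa [mul_one])
  have q2 := hquad 2 c2 (fun e => c4 (by linear_combination e))
  have q3 := hquad 3 c3 (fun e => c6 (by linear_combination e))
  have l12 : (α + 12 * α * β - α ^ 2) * (sVal (1 : ZMod M) + sVal (2 : ZMod M)) +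
      (4 * β + 12 * β ^ 2 + 2 * α * β) = 0 :=
    mul_left_cancel₀ (sub_ne_zero.mpr (hs 1 2 c1 c2 d12a d12s))
      (by rw [mul_zero]; linear_combination q1 - q2)
  have l13 : (α + 12 * α * β - α ^ 2) * (sVal (1 : ZMod M) + sVal (3 : ZMod M)) +
      (4 * β + 12 * β ^ 2 + 2 * α * β) = 0 :=
    mul_left_cancel₀ (sub_ne_zero.mpr (hs 1 3 c1 c3 d13a d13s))
      (by rw [mul_zero]; linear_combination q1 - q3)
  have hc2 : α + 12 * α * β - α ^ 2 = 0 :=
    mul_left_cancel₀ (sub_ne_zero.mpr (hs 2 3 c2 c3 d23a d23s))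
      (by rw [mul_zero]; linear_combination l12 - l13)
  have hc1 : 4 * β + 12 * β ^ 2 + 2 * α * β = 0 := by
    rw [hc2, zero_mul, zero_add] at l12
    exact l12
  have hc0 : β + 3 * β ^ 2 = 0 := by
    rw [hc2, hc1] at q1
    simpa using q1
  have hβ0 : β = 0 := (mul_eq_zero.mp (show (2 * α) * β = 0 by
    linear_combination hc1 - 4 * hc0)).resolve_left (mul_ne_zero two_ne_zero hα0)
  have hα1 : α = 1 := mul_left_cancel₀ hα0 (by
    rw [hβ0] at hc2
    linear_combination -hc2)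
  have := haff 1 c1
  rw [one_mul, hα1, hβ0, one_mul, add_zero] at this
  rcases sVal_inj (by simpa using hkv 1 c1) c1 this with e | e
  · exact Or.inl (Prod.ext hv1 e)
  · exact Or.inr (Prod.ext hv1 e)

/-- The rotation taking `(1, 0)` to `(0, 1)`. -/
def rotMat : SL(2, ℤ) := ⟨!![0, 1; -1, 0], by simp [Matrix.det_fin_two_of]⟩

/-- Separation of the generators at `(1, 0)`. -/
theorem row_eq_of_funW_eq (hM : 7 ≤ M) {γ : SL(2, ℤ)}
    (h : ∀ i : GIdx M, funW i (1, 0) = funW i (row γ)) :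
    row (M := M) γ = (1, 0) ∨ row (M := M) γ = (-1, 0) := by
  have h0 : row (M := M) rotMat = (0, 1) := by simp [row, rowMul, rotMat]
  have h1 := eq_of_funW_eq hM ((isPrim_row (M := M) γ).rowMul rotMat) fun t w => by
    rw [← h0, row, ← funW_smul, ← funW_smul, h]
  rcases hr : row (M := M) γ with ⟨x, y⟩
  simp only [hr, rowMul, rotMat] at h1
  rcases h1 with e | e
  · left
    simp_all
  · right
    simp_all

end FLTAgent.DS.Gen
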