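import Fermat.Agent.DS.Geom.Defs
import Fermat.Agent.Mazur.Wp
import Fermat.Agent.Periods.Transfer
import Fermat.Agent.JTors.TRep

/-!
# Expansions of the coordinates of the torsion points of the Tate curve of parameter `q ^ M`

`X M d 0 (M τ)` has the expansion `1 / 12 + xSer M d`.
-/

set_option autoImplicit false

noncomputable section

namespace FLTAgent.DS.Gen

open Filter Function
open UpperHalfPlane hiding I
open FLTAgent.EllParam FLTAgent.ModPoly FLTAgent.Mazur
open scoped Topology Manifold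

/-- `∑ w n * Su (q ^ n)` as a power series in `q`. -/
theorem hasSum_lambert (w : ℕ → ℂ) {B : ℝ} (hw : ∀ n, ‖w n‖ ≤ B) {q : ℂ} (hq : ‖q‖ < 1) :
    Summable (fun n : ℕ+ => w n * Su (q ^ (n : ℕ))) ∧
    HasSum (fun N : ℕ => (∑ k ∈ N.divisors, (k : ℂ) * w (N / k)) * q ^ N)
      (∑' n : ℕ+, w n * Su (q ^ (n : ℕ))) := by
  set F : ℕ+ × ℕ+ → ℂ := fun c => (c.2 : ℂ) * w c.1 * q ^ ((c.1 : ℕ) * c.2) with hF_def
  have hF : Summable F := by
    refine Summable.of_norm_bounded ((summable_prod_mul_pow 1 hq).norm.mul_left B) fun c => ?_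
    simp only [F, pow_one, norm_mul]
    nlinarith [mul_le_mul_of_nonneg_left (hw c.1)
      (mul_nonneg (norm_nonneg (c.2 : ℂ)) (norm_nonneg (q ^ ((c.1 : ℕ) * c.2))))]
  have hrow : ∀ n : ℕ+, HasSum (fun d : ℕ+ => F (n, d)) (w n * Su (q ^ (n : ℕ))) := fun n => by
    have hv : ‖q ^ (n : ℕ)‖ < 1 := by
      rw [norm_pow]; exact pow_lt_one₀ (norm_nonneg _) hq n.ne_zero
    refine ((hasSum_pnat_mul_geometric hv).mul_left (w n)).congr_fun fun d => ?_
    simp only [F, ← pow_mul]
    ring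
  have hp := hF.hasSum.prod_fiberwise hrow
  refine ⟨hp.summable, ?_⟩
  rw [hp.tsum_eq]
  have hsig := sigmaAntidiagonalEquivProd.hasSum_iff.mpr hF.hasSum
  have hN : HasSum (fun N : ℕ+ => (∑ k ∈ (N : ℕ).divisors, (k : ℂ) * w (N / k)) * q ^ (N : ℕ))
      (∑' c, F c) := by
    refine hsig.sigma fun N => ?_
    have h := hasSum_fintype (fun x : (N : ℕ).divisorsAntidiagonal =>
      (F ∘ sigmaAntidiagonalEquivProd) ⟨N, x⟩)
    refine (?_ : (∑ k ∈ (N : ℕ).divisors, (k : ℂ) * w (N / k)) * q ^ (N : ℕ) = _) ▸ h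
    simp only [Function.comp_apply, sigmaAntidiagonalEquivProd, Equiv.coe_fn_mk,
      divisorsAntidiagonalFactors, PNat.mk_coe, F]
    rw [Finset.univ_eq_attach, (N : ℕ).divisorsAntidiagonal.sum_attach
      (fun x : ℕ × ℕ => (x.2 : ℂ) * w x.1 * q ^ (x.1 * x.2)), Finset.sum_mul,
      Nat.sum_divisorsAntidiagonal' fun a b => (b : ℂ) * w a * q ^ (a * b)]
    refine Finset.sum_congr rfl fun d hd => ?_
    rw [Nat.div_mul_cancel (Nat.dvd_of_mem_divisors hd)]
  refine (PNat.coe_injective.hasSum_iff fun n hn => ?_).mp hN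
  rcases Nat.eq_zero_or_pos n with rfl | h0
  · simp
  · exact absurd ⟨⟨n, h0⟩, rfl⟩ hn

variable {M : ℕ} [NeZero M]

/-- The weights of `xSer`. -/
def xWeight (d : ZMod M) (n : ℕ) : ℂ :=
  (if (n : ZMod M) = d then 1 else 0) + (if (n : ZMod M) = -d then 1 else 0)
    - 2 * (if (n : ZMod M) = 0 then 1 else 0)

omit [NeZero M] in
theorem coeff_map_xSer (d : ZMod M) (N : ℕ) :
    PowerSeries.coeff N ((xSer M d).map (Int.castRingHom ℂ)) =
      ∑ k ∈ N.divisors, (k : ℂ) * xWeight d (N / k) := by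
  rw [PowerSeries.coeff_map, xSer, PowerSeries.coeff_mk, map_sum]
  refine Finset.sum_congr rfl fun k _ => ?_
  simp [xWeight, apply_ite (Int.cast : ℤ → ℂ)]

omit [NeZero M] in
theorem norm_xWeight_le (d : ZMod M) (n : ℕ) : ‖xWeight d n‖ ≤ 4 := by
  unfold xWeight
  split_ifs <;> norm_num

theorem mod_eq_val {n : ℕ} {c : ZMod M} (hn : (n : ZMod M) = c) : n % M = c.val := by
  rw [← ZMod.val_natCast, hn]

/-- Splitting the sum along a residue class mod `M`. -/
theorem tsum_residue {f : ℕ → ℂ} (hf : Summable fun n : ℕ+ => f n) {c : ZMod M} (hc : c ≠ 0) :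
    ∑' n : ℕ+, (if ((n : ℕ) : ZMod M) = c then f n else 0) =
      f c.val + ∑' m : ℕ+, f (M * m + c.val) := by
  have hc0 : 0 < c.val := Nat.pos_of_ne_zero fun h => hc ((ZMod.val_eq_zero c).mp h)
  have hM : 0 < M := NeZero.pos M
  let e : ℕ → ℕ+ := fun m => ⟨M * m + c.val, by omega⟩
  have he : Function.Injective e := fun a b h =>
    Nat.eq_of_mul_eq_mul_left hM (by simpa [e] using congrArg Subtype.val h)
  have hs : Summable fun m : ℕ => f (M * m + c.val) := hf.comp_injective he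
  rw [← he.tsum_eq]
  · rw [tsum_congr (fun m => if_pos (by simp [e]))]
    show ∑' m : ℕ, f (M * m + c.val) = _
    rw [tsum_zero_pnat_eq_tsum_nat hs |>.symm, mul_zero, zero_add]
  · intro n hn
    simp only [Function.mem_support, ne_eq, ite_eq_right_iff, not_forall] at hn
    obtain ⟨hn, -⟩ := hn
    refine ⟨(n : ℕ) / M, PNat.eq ?_⟩
    show M * ((n : ℕ) / M) + c.val = n
    rw [← mod_eq_val hn, Nat.div_add_mod]

theorem tsum_residue_zero (f : ℕ → ℂ) :
    ∑' n : ℕ+, (if ((n : ℕ) : ZMod M) = 0 then f n else 0) = ∑' m : ℕ+, f (M * m) := by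
  have hM : 0 < M := NeZero.pos M
  let e : ℕ+ → ℕ+ := fun m => ⟨M * m, Nat.mul_pos hM m.pos⟩
  have he : Function.Injective e := fun a b h =>
    PNat.eq (Nat.eq_of_mul_eq_mul_left hM (congrArg Subtype.val h))
  rw [← he.tsum_eq]
  · exact tsum_congr fun m => if_pos (by simp [e])
  · intro n hn
    simp only [Function.mem_support, ne_eq, ite_eq_right_iff, not_forall] at hn
    obtain ⟨k, hk⟩ := (ZMod.natCast_eq_zero_iff _ M).mp hn.1
    refine ⟨⟨k, Nat.pos_of_ne_zero fun h => n.ne_zero (by rw [hk, h, mul_zero])⟩, PNat.eq ?_⟩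
    simp [e, hk]

variable (M) in
/-- `τ ↦ M τ`. -/
def mulM (τ : ℍ) : ℍ := Periods.tRep M none • τ

theorem coe_mulM (τ : ℍ) : (mulM M τ : ℂ) = (M : ℂ) * τ :=
  JTors.coe_tRep_none_smul (NeZero.ne M) τ

theorem qe_mulM (τ : ℍ) : qe (mulM M τ) = qe τ ^ M := by
  rw [coe_mulM, qe_nat_mul]

/-- The sum of the expansion of `(2πi)⁻² ℘(d τ)` for the lattice `M τ ℤ + ℤ`. -/
theorem hasSum_X_mulM {d : ZMod M} (hd : d ≠ 0) (τ : ℍ) :
    HasSum (fun N : ℕ => PowerSeries.coeff N
        (PowerSeries.C (1 / 12) + (xSer M d).map (Int.castRingHom ℂ)) * qe τ ^ N)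
      (X M d 0 (mulM M τ)) := by
  have hq : ‖qe τ‖ < 1 := norm_qe_tau_lt τ
  have hM : 0 < M := NeZero.pos M
  have hMC : (M : ℂ) ≠ 0 := Nat.cast_ne_zero.mpr hM.ne'
  have hlt := ZMod.val_lt d
  have hd0 : 0 < d.val := Nat.pos_of_ne_zero fun h => hd ((ZMod.val_eq_zero d).mp h)
  have hX : X M d 0 (mulM M τ) = nP (mulM M τ) ((d.val : ℂ) * τ) := by
    rw [X, coe_mulM, ZMod.val_zero, Nat.cast_zero, add_zero]
    congr 1
    field_simp
  have hz : ∀ m n : ℤ, (d.val : ℂ) * τ ≠ m * (mulM M τ : ℂ) + n := by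
    intro m n e
    rw [coe_mulM] at e
    refine natMul_tau_ne_int τ (m := (d.val : ℤ) - m * M) ?_ n (by push_cast; linear_combination e)
    intro h
    have hdvd : (M : ℤ) ∣ d.val := ⟨m, by linear_combination h⟩
    exact absurd (Nat.le_of_dvd hd0 (Int.natCast_dvd_natCast.mp hdvd)) (not_le.mpr hlt)
  set f : ℕ → ℂ := fun n => Su (qe τ ^ n) with hf_def
  have hf : Summable fun n : ℕ+ => f n :=
    ((hasSum_lambert (fun _ => 1) (B := 1) (fun _ => by simp) hq).1).congr fun n => one_mul _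
  obtain ⟨-, hsum⟩ := hasSum_lambert (xWeight d) (norm_xWeight_le d) hq
  have hind : ∀ c : ZMod M, Summable fun n : ℕ+ => if ((n : ℕ) : ZMod M) = c then f n else 0 :=
    fun c => Summable.of_norm_bounded hf.norm fun n => by split_ifs <;> simp
  have hneg : (-d).val = M - d.val := by
    rw [ZMod.neg_val, if_neg hd]
  have hnd : -d ≠ 0 := neg_ne_zero.mpr hd
  have hval : ∑' n : ℕ+, xWeight d n * Su (qe τ ^ (n : ℕ)) = f d.val +
      ∑' m : ℕ+, (f (M * m + d.val) + f (M * m - d.val) - 2 * f (M * m)) := by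
    have e : ∀ n : ℕ+, xWeight d n * Su (qe τ ^ (n : ℕ)) =
        ((if ((n : ℕ) : ZMod M) = d then f n else 0) +
          (if ((n : ℕ) : ZMod M) = -d then f n else 0)) -
          2 * (if ((n : ℕ) : ZMod M) = 0 then f n else 0) := fun n => by
      simp only [xWeight, hf_def]
      split_ifs <;> ring
    rw [tsum_congr e, ((hind d).add (hind (-d))).tsum_sub ((hind 0).mul_left 2),
      (hind d).tsum_add (hind (-d)), tsum_mul_left, tsum_residue hf hd, tsum_residue_zero]
    have hs : ∀ {g : ℕ+ → ℕ}, Function.Injective g → (∀ m, 0 < g m) →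
        Summable fun m => f (g m) := fun hg hpos =>
      hf.comp_injective (i := fun m => (⟨_, hpos m⟩ : ℕ+)) fun a b h =>
        hg (congrArg Subtype.val h)
    have h1 : Summable fun m : ℕ+ => f (M * m + d.val) := hs
      (fun a b h => PNat.eq (Nat.eq_of_mul_eq_mul_left hM (by simpa using h)))
      (fun m => by omega)
    have hle : ∀ m : ℕ+, d.val < M * (m : ℕ) := fun m =>
      hlt.trans_le (Nat.le_mul_of_pos_right M m.pos)
    have h2 : Summable fun m : ℕ+ => f (M * m - d.val) := hs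
      (fun a b h => PNat.eq (Nat.eq_of_mul_eq_mul_left hM (by
        have := hle a; have := hle b; omega)))
      (fun m => Nat.sub_pos_of_lt (hle m))
    have h3 : Summable fun m : ℕ+ => f (M * m) := hs
      (fun a b h => PNat.eq (Nat.eq_of_mul_eq_mul_left hM h)) (fun m => Nat.mul_pos hM m.pos)
    rw [(h1.add h2).tsum_sub (h3.mul_left 2), h1.tsum_add h2, tsum_mul_left]
    have hminus : ∑' n : ℕ+, (if ((n : ℕ) : ZMod M) = -d then f n else 0) =
        ∑' m : ℕ+, f (M * m - d.val) := by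
      let e : ℕ+ → ℕ+ := fun m => ⟨M * m - d.val, Nat.sub_pos_of_lt (hle m)⟩
      have he : Function.Injective e := fun a b h => PNat.eq (Nat.eq_of_mul_eq_mul_left hM (by
        have h' : M * (a : ℕ) - d.val = M * (b : ℕ) - d.val := congrArg Subtype.val h
        have := hle a; have := hle b; omega))
      have hcast : ∀ m : ℕ+, ((e m : ℕ) : ZMod M) = -d := fun m => by
        simp [e, Nat.cast_sub (hle m).le]
      rw [← he.tsum_eq]
      · exact tsum_congr fun m => if_pos (hcast m)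
      · intro n hn
        simp only [Function.mem_support, ne_eq, ite_eq_right_iff, not_forall] at hn
        have hmod := mod_eq_val hn.1
        have hdm := Nat.div_add_mod (n : ℕ) M
        refine ⟨⟨(n : ℕ) / M + 1, Nat.succ_pos _⟩, PNat.eq ?_⟩
        show M * ((n : ℕ) / M + 1) - d.val = n
        rw [hmod, hneg] at hdm
        rw [mul_add, mul_one]
        omega
    rw [hminus]
    ring
  have hu : qe ((d.val : ℂ) * τ) = qe τ ^ d.val := qe_nat_mul _ _
  have htarget : X M d 0 (mulM M τ) = 1 / 12 + ∑' n : ℕ+, xWeight d n * Su (qe τ ^ (n : ℕ)) := by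
    rw [hX, nP_eq_tsum _ hz, qe_mulM, hu, hval, add_assoc]
    congr 2
    refine tsum_congr fun m => ?_
    have hle : d.val ≤ M * (m : ℕ) :=
      hlt.le.trans (Nat.le_mul_of_pos_right M m.pos)
    simp only [hf_def]
    rw [← pow_mul, ← pow_add, ← pow_sub₀ _ (qe_ne_zero _) hle]
  rw [htarget]
  refine ((hasSum_ite_eq 0 ((1 : ℂ) / 12)).add hsum).congr_fun fun N => ?_
  rw [map_add, coeff_map_xSer, PowerSeries.coeff_C]
  rcases eq_or_ne N 0 with rfl | hN
  · simp
  · simp [hN]

variable (M) in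
/-- `τ ↦ X M d 0 (M τ)`. -/
def xFun (d : ZMod M) : ℍ → ℂ := fun τ => X M d 0 (mulM M τ)

/-- The expansion. -/
theorem expands_xFun {d : ZMod M} (hd : d ≠ 0) :
    Expands 1 (xFun M d) (HahnSeries.ofPowerSeries ℤ ℂ
      (PowerSeries.C (1 / 12) + (xSer M d).map (Int.castRingHom ℂ))) := by
  set p := PowerSeries.C (1 / 12 : ℂ) + (xSer M d).map (Int.castRingHom ℂ)
  set F : ℂ → ℂ := fun q => ∑' N : ℕ, PowerSeries.coeff N p * q ^ N
  have hev : ∀ᶠ q in 𝓝 (0 : ℂ), HasSum (fun N => PowerSeries.coeff N p * q ^ N) (F q) := by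
    filter_upwards [Metric.ball_mem_nhds (0 : ℂ) one_pos] with q hq
    refine Summable.hasSum ?_
    have h := ((hasSum_lambert (xWeight d) (norm_xWeight_le d)
      (q := q) (by simpa using hq)).2).summable
    refine ((hasSum_ite_eq 0 ((1 : ℂ) / 12)).summable.add h).congr fun N => ?_
    rw [map_add, coeff_map_xSer, PowerSeries.coeff_C]
    rcases eq_or_ne N 0 with rfl | hN
    · simp
    · simp [hN]
  obtain ⟨han, htay⟩ := taylorPS_eq_of_eventually_hasSum hev
  refine ⟨0, F, han, by rw [htay, HahnSeries.single_zero_one, one_mul],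
    Eventually.of_forall fun τ => ?_⟩
  rw [zpow_zero, one_mul]
  simp only [F, xFun, Periodic.qParam, Complex.ofReal_one, div_one]
  rw [← (hasSum_X_mulM hd τ).tsum_eq]
  simp [p, qe]

theorem mdiff_xFun {d : ZMod M} (hd : d ≠ 0) : MDiff (xFun M d) := by
  set p := PowerSeries.C (1 / 12 : ℂ) + (xSer M d).map (Int.castRingHom ℂ)
  have hball : HasFPowerSeriesOnBall (fun q => ∑' N : ℕ, PowerSeries.coeff N p * q ^ N)
      (.ofScalars ℂ fun N => PowerSeries.coeff N p) 0 1 := by
    have hs : ∀ q : ℂ, ‖q‖ < 1 → Summable fun N => PowerSeries.coeff N p * q ^ N := fun q hq => by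
      refine ((hasSum_ite_eq 0 ((1 : ℂ) / 12)).summable.add
        ((hasSum_lambert (xWeight d) (norm_xWeight_le d) hq).2).summable).congr fun N => ?_
      rw [map_add, coeff_map_xSer, PowerSeries.coeff_C]
      rcases eq_or_ne N 0 with rfl | hN
      · simp
      · simp [hN]
    refine ⟨?_, one_pos, fun {q} hq => ?_⟩
    · refine ENNReal.le_of_forall_nnreal_lt fun r hr => ?_
      refine FormalMultilinearSeries.le_radius_of_summable _ ?_
      have hr' : ‖((r : ℝ) : ℂ)‖ < 1 := by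
        simpa [abs_of_nonneg r.coe_nonneg] using (show (r : ℝ) < 1 by exact_mod_cast hr)
      refine ((hs _ hr').norm).congr fun n => ?_
      rw [FormalMultilinearSeries.ofScalars_norm, norm_mul, norm_pow, Complex.norm_real,
        Real.norm_eq_abs, abs_of_nonneg r.coe_nonneg]
    · have hq' : ‖q‖ < 1 := by
        rw [← ENNReal.ofReal_one, Metric.eball_ofReal] at hq
        simpa using hq
      simp only [zero_add, FormalMultilinearSeries.ofScalars_apply_eq, smul_eq_mul]
      exact (hs q hq').hasSum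
  rw [UpperHalfPlane.mdifferentiable_iff]
  refine DifferentiableOn.congr
    (f := fun z => ∑' N : ℕ, PowerSeries.coeff N p * qe z ^ N) ?_ fun z hz => ?_
  · intro z hz
    have hmem : qe z ∈ Metric.eball (0 : ℂ) 1 := by
      rw [← ENNReal.ofReal_one, Metric.eball_ofReal]
      simpa using norm_qe_tau_lt ⟨z, hz⟩
    refine ((hball.analyticOnNhd _ hmem).differentiableAt.comp z ?_).differentiableWithinAt
    unfold qe
    fun_prop
  · simp only [Function.comp_apply, ofComplex_apply_of_im_pos hz, xFun]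
    exact (hasSum_X_mulM hd ⟨z, hz⟩).tsum_eq.symm

end FLTAgent.DS.Gen
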