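import Fermat.Agent.DS.Geom.RedDistinct
import Mathlib.FieldTheory.SeparableClosure

/-!
# A separating combination of the triples

`theta a q` is a linear combination of the triples at the point `q` (up to sign). Its product
polynomial and the Lagrange polynomials have coefficients in `A[j]`, so over every field of
constants of `A` the triples at `(1, 0)` are rational in `j` and `theta`.
-/

set_option autoImplicit false
set_option synthInstance.maxHeartbeats 100000

noncomputable section

open CongruenceSubgroup IsLocalRing ModularCurve Polynomial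
open scoped MatrixGroups IntermediateField

namespace FLTAgent.DS.RedGal

open FLTAgent.ModPoly

/-- A relation is moved by an endomorphism fixing the coefficients. -/
theorem sum_aeval_mul_pow_eq_zero {k F : Type*} [Field k] [Field F] [Algebra k F]
    (K : IntermediateField k F) (φ : K →ₐ[k] K) {J x y : K} (hJ : φ J = J) (hxy : φ x = y) {n : ℕ}
    (pl : Fin n → k[X])
    (h : ∑ i, Polynomial.aeval (J : F) (pl i) * (x : F) ^ (i : ℕ) = 0) :
    ∑ i, Polynomial.aeval (J : F) (pl i) * (y : F) ^ (i : ℕ) = 0 := by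
  have hc : ∀ z : K, ((∑ i, Polynomial.aeval J (pl i) * z ^ (i : ℕ) : K) : F) =
      ∑ i, Polynomial.aeval (J : F) (pl i) * (z : F) ^ (i : ℕ) := fun z => by
    rw [IntermediateField.coe_sum]
    refine Finset.sum_congr rfl fun i _ => ?_
    rw [← algebraMap_aeval_mk K J (pl i)]
    rfl
  have h0 : (∑ i, Polynomial.aeval J (pl i) * x ^ (i : ℕ) : K) = 0 :=
    Subtype.ext ((hc x).trans h)
  have h1 := congrArg φ h0
  simp only [map_sum, map_mul, map_pow, ← Polynomial.aeval_algHom_apply, hJ, hxy, map_zero] at h1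
  rw [← hc, h1]
  rfl

/-- Ring homomorphisms act on Lagrange polynomials through the values. -/
theorem map_lagrange {R S Q : Type*} [CommRing R] [CommRing S] [Fintype Q] [DecidableEq Q]
    (φ : R →+* S) (z th : Q → R) :
    (∑ q, C (z q) * ∏ q' ∈ Finset.univ.erase q, (X - C (th q'))).map φ =
      ∑ q, C (φ (z q)) * ∏ q' ∈ Finset.univ.erase q, (X - C (φ (th q'))) := by
  simp [Polynomial.map_sum, Polynomial.map_prod]

/-- Lagrange polynomials do not depend on the numbering. -/
theorem lagrange_reindex {R Q : Type*} [CommRing R] [Fintype Q] [DecidableEq Q] (e : Q ≃ Q)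
    (z th : Q → R) :
    ∑ q, C (z (e q)) * ∏ q' ∈ Finset.univ.erase q, (X - C (th (e q'))) =
      ∑ q, C (z q) * ∏ q' ∈ Finset.univ.erase q, (X - C (th q')) := by
  refine Fintype.sum_equiv e _ _ fun q => ?_
  congr 1
  refine Finset.prod_equiv e (fun q' => ?_) fun q' _ => rfl
  simp

variable (M : ℕ) [NeZero M]

/-- Equality up to sign. -/
def pmSetoid : Setoid (Orb M) where
  r v w := w.1 = v.1 ∨ w.1 = -v.1
  iseqv :=
    { refl := fun _ => Or.inl rfl
      symm := fun {v w} h => h.imp (fun e => e.symm) (fun e => by rw [e, neg_neg])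
      trans := fun {u v w} h h' => by
        rcases h with e | e <;> rcases h' with e' | e'
        · exact Or.inl (e'.trans e)
        · exact Or.inr (e'.trans (congrArg Neg.neg e))
        · exact Or.inr (e'.trans e)
        · exact Or.inl (by rw [e', e, neg_neg]) }

/-- Points of exact order `M` up to sign. -/
def PMOrb : Type := Quotient (pmSetoid M)

instance : Finite (PMOrb M) := inferInstanceAs (Finite (Quotient (pmSetoid M)))

instance : Fintype (PMOrb M) := Fintype.ofFinite _

instance : Fintype (GTriple M) := Fintype.ofFinite _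

variable {M}

/-- The class of a point. -/
def pmk (v : Orb M) : PMOrb M := Quotient.mk (pmSetoid M) v

/-- A representative. -/
def pout (q : PMOrb M) : Orb M := Quotient.out (s := pmSetoid M) q

omit [NeZero M] in
theorem pmk_pout (q : PMOrb M) : pmk (pout q) = q := Quotient.out_eq (s := pmSetoid M) q

omit [NeZero M] in
theorem pmk_eq_iff {v w : Orb M} : pmk v = pmk w ↔ w.1 = v.1 ∨ w.1 = -v.1 :=
  ⟨fun h => Quotient.exact (s := pmSetoid M) h, fun h => Quotient.sound (s := pmSetoid M) h⟩

/-- The action on points up to sign. -/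
def actPM (γ : SL(2, ℤ)) (q : PMOrb M) : PMOrb M := pmk (actOrb γ (pout q))

omit [NeZero M] in
theorem actPM_pmk (γ : SL(2, ℤ)) (v : Orb M) : actPM γ (pmk v) = pmk (actOrb γ v) := by
  rw [actPM, pmk_eq_iff]
  rcases pmk_eq_iff.1 (pmk_pout (pmk v)) with e | e
  · left; simp [actOrb, e]
  · right; simp [actOrb, e, vmul_neg]

/-- The action as a permutation. -/
def pmEquiv (γ : SL(2, ℤ)) : PMOrb M ≃ PMOrb M where
  toFun := actPM γ
  invFun := actPM γ⁻¹
  left_inv q := by
    rw [← pmk_pout q, actPM_pmk, actPM_pmk]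
    exact congrArg pmk (Subtype.ext (vmul_inv_vmul γ _))
  right_inv q := by
    rw [← pmk_pout q, actPM_pmk, actPM_pmk]
    exact congrArg pmk (Subtype.ext (by simpa [actOrb] using vmul_inv_vmul γ⁻¹ (pout q).1))

/-- The point `(1, 0)`. -/
def v₀ : Orb M := ⟨(1, 0), 1, vmul_one _⟩

/-- Its class. -/
def q₀ : PMOrb M := pmk v₀

omit [NeZero M] in
theorem exists_actPM_q₀ (q : PMOrb M) : ∃ γ : SL(2, ℤ), actPM γ (q₀ (M := M)) = q := by
  obtain ⟨γ, hγ⟩ := (pout q).2
  exact ⟨γ, by rw [q₀, actPM_pmk, ← pmk_pout q]; exact congrArg pmk (Subtype.ext hγ)⟩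

instance : Nonempty (PMOrb M) := ⟨q₀⟩

theorem ser_idxOf_of_pm {R : Type*} [CommRing R] {ζ : Rˣ} (hζ : (ζ : R) ^ M = 1) {v w : Orb M}
    (h : w.1 = v.1 ∨ w.1 = -v.1) (t : GTriple M) :
    ser R ζ (idxOf w t) = ser R ζ (idxOf v t) := by
  rcases h with e | e
  · rw [show w = v from Subtype.ext e]
  · have hn : ∀ d : ZMod M, smulV d w.1 = -smulV d v.1 := fun d => by
      simp [smulV, e]
    simp only [ser, idxOf, hn, xVec_neg hζ]

theorem ser_idxOf_v₀ {R : Type*} [CommRing R] (ζ : Rˣ) (t : GTriple M) :
    ser R ζ (idxOf v₀ t) = castSer R (genSer M t.1.1 t.1.2.1 t.1.2.2) := by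
  obtain ⟨⟨d, e, f⟩, hd, he, hf⟩ := t
  have h : ∀ x : ZMod M, x ≠ 0 → xVec (ζ : R) (smulV x (v₀ (M := M)).1) =
      (xSer M x).map (Int.castRingHom R) := fun x hx => by
    rw [castPS_xSer (ζ : R) _ hx]
    simp [smulV, v₀]
  rw [genSer, map_mul, coeffMap_ofPowerSeries, map_mul, map_pow, map_sub, map_sub]
  simp only [ser, idxOf, h d hd, h e he, h f hf]

variable (A : ValuationSubring (AlgebraicClosure ℚ))

local notation "κ" => ResidueField A

/-- The triples at a point up to sign. -/
def zq (q : PMOrb M) (t : GTriple M) : LaurentSeries A := yA M A (idxOf (pout q) t)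

theorem yA_idxOf (v : Orb M) (t : GTriple M) : yA M A (idxOf v t) = zq A (pmk v) t := by
  refine (ser_idxOf_of_pm (zA_pow A) (pmk_eq_iff.1 ?_) t).symm
  rw [pmk_pout]

theorem yA_act_idxOf (γ : SL(2, ℤ)) (q : PMOrb M) (t : GTriple M) :
    yA M A (act γ (idxOf (pout q) t)) = zq A (actPM γ q) t := by
  rw [act_idxOf, yA_idxOf]
  rfl

/-- The linear combination, as a polynomial in the family. -/
def thetaPoly (a : GTriple M → A) (q : PMOrb M) : MvPolynomial (Idx M) A :=
  ∑ t, MvPolynomial.C (a t) * MvPolynomial.X (idxOf (pout q) t)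

/-- The linear combination of the triples at `q`. -/
def theta (a : GTriple M → A) (q : PMOrb M) : LaurentSeries A :=
  ∑ t, algebraMap A (LaurentSeries A) (a t) * zq A q t

theorem aeval_thetaPoly (a : GTriple M → A) (q : PMOrb M) :
    MvPolynomial.aeval (yA M A) (thetaPoly A a q) = theta A a q := by
  simp [thetaPoly, theta, zq]

theorem aeval_rename_thetaPoly (a : GTriple M → A) (γ : SL(2, ℤ)) (q : PMOrb M) :
    MvPolynomial.aeval (yA M A) (MvPolynomial.rename (act γ) (thetaPoly A a q)) =
      theta A a (actPM γ q) := by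
  simp [thetaPoly, theta, yA_act_idxOf]

/-- The product polynomial. -/
def phiA (a : GTriple M → A) : Polynomial (LaurentSeries A) := ∏ q, (X - C (theta A a q))

open Classical in
/-- The Lagrange polynomial of a function of the point. -/
def lagA (a : GTriple M → A) (z : PMOrb M → LaurentSeries A) : Polynomial (LaurentSeries A) :=
  ∑ q, C (z q) * ∏ q' ∈ Finset.univ.erase q, (X - C (theta A a q'))

theorem eval_lagA (a : GTriple M → A) (z : PMOrb M → LaurentSeries A) (q : PMOrb M) :
    (lagA A a z).eval (theta A a q) = z q * (lagA A a fun _ => 1).eval (theta A a q) := by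
  classical
  have h : ∀ w : PMOrb M → LaurentSeries A, (lagA A a w).eval (theta A a q) =
      w q * ∏ q' ∈ Finset.univ.erase q, (theta A a q - theta A a q') := fun w => by
    rw [lagA, eval_finsetSum, Finset.sum_eq_single q]
    · simp [eval_prod]
    · intro b _ hb
      rw [eval_mul, eval_prod,
        Finset.prod_eq_zero (Finset.mem_erase.2 ⟨hb.symm, Finset.mem_univ q⟩) (by simp), mul_zero]
    · simp
  rw [h, h, one_mul]

theorem coeffMap_eval_lagA_one {k : Type*} [Field k] (f : A →+* k) (a : GTriple M → A)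
    (h : Function.Injective fun q => coeffMap f (theta A a q)) (q : PMOrb M) :
    coeffMap f ((lagA A a fun _ => 1).eval (theta A a q)) ≠ 0 := by
  classical
  rw [lagA, eval_finsetSum, map_sum, Finset.sum_eq_single q]
  · simp only [map_one, one_mul, eval_prod, eval_sub, eval_X, eval_C, map_prod, map_sub]
    exact Finset.prod_ne_zero_iff.2 fun q' hq' =>
      sub_ne_zero.2 fun e => (Finset.mem_erase.1 hq').1 (h e).symm
  · intro b _ hb
    rw [eval_mul, eval_prod,
      Finset.prod_eq_zero (Finset.mem_erase.2 ⟨hb.symm, Finset.mem_univ q⟩) (by simp), mul_zero,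
      map_zero]
  · simp

variable {A} (hM : (M : ResidueField A) ≠ 0)

include hM

/-- The product polynomial has coefficients in `A[j]`. -/
theorem exists_lift_phiA (a : GTriple M → A) :
    ∃ Q : Polynomial (Polynomial A),
      Q.map (Polynomial.aeval (jA M A)).toRingHom = phiA A a := by
  have e : (∏ q, (X - C (thetaPoly A a q))).map (MvPolynomial.aeval (yA M A)).toRingHom =
      phiA A a := by
    simp [phiA, Polynomial.map_prod, aeval_thetaPoly]
  rw [← e]
  refine exists_lift_of_invariant hM _ fun γ => ?_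
  rw [e, phiA, Polynomial.map_prod]
  refine Fintype.prod_equiv (pmEquiv γ) _ _ fun q => ?_
  simp [aeval_rename_thetaPoly, pmEquiv]

/-- The Lagrange polynomials have coefficients in `A[j]`. -/
theorem exists_lift_lagA (a : GTriple M → A) (Z : PMOrb M → MvPolynomial (Idx M) A)
    (hZ : ∀ (γ : SL(2, ℤ)) (q : PMOrb M), MvPolynomial.aeval (yA M A)
      (MvPolynomial.rename (act γ) (Z q)) = MvPolynomial.aeval (yA M A) (Z (actPM γ q))) :
    ∃ Q : Polynomial (Polynomial A), Q.map (Polynomial.aeval (jA M A)).toRingHom =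
      lagA A a fun q => MvPolynomial.aeval (yA M A) (Z q) := by
  classical
  set φ : MvPolynomial (Idx M) A →+* LaurentSeries A :=
    (MvPolynomial.aeval (yA M A)).toRingHom
  have e : (∑ q, C (Z q) * ∏ q' ∈ Finset.univ.erase q, (X - C (thetaPoly A a q'))).map φ =
      lagA A a fun q => φ (Z q) := by
    rw [map_lagrange, lagA]
    simp only [φ, AlgHom.toRingHom_eq_coe, RingHom.coe_coe, aeval_thetaPoly]
  obtain ⟨Q, hQ⟩ := exists_lift_of_invariant hM
    (∑ q, C (Z q) * ∏ q' ∈ Finset.univ.erase q, (X - C (thetaPoly A a q'))) fun γ => by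
    rw [map_lagrange, map_lagrange]
    simp only [AlgHom.toRingHom_eq_coe, RingHom.comp_apply, RingHom.coe_coe, hZ,
      aeval_rename_thetaPoly, aeval_thetaPoly]
    exact lagrange_reindex (pmEquiv γ) (fun q => MvPolynomial.aeval (yA M A) (Z q)) (theta A a)
  exact ⟨Q, hQ.trans e⟩

theorem exists_lift_lagA_zq (a : GTriple M → A) (t : GTriple M) :
    ∃ Q : Polynomial (Polynomial A), Q.map (Polynomial.aeval (jA M A)).toRingHom =
      lagA A a fun q => zq A q t := by
  have := exists_lift_lagA hM a (fun q => MvPolynomial.X (idxOf (pout q) t)) fun γ q => by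
    simp [yA_act_idxOf, zq]
  simpa [zq] using this

theorem exists_lift_lagA_one (a : GTriple M → A) :
    ∃ Q : Polynomial (Polynomial A), Q.map (Polynomial.aeval (jA M A)).toRingHom =
      lagA A a fun _ => 1 := by
  have := exists_lift_lagA hM a (fun _ => 1) fun γ q => by simp
  simpa using this

omit hM in
/-- The image in a field of series of a value of a polynomial over `A[j]` at a series is rational
in the images. -/
theorem coeffMap_eval_mem {k : Type*} [Field k] (f : A →+* k)
    {K : IntermediateField k⟮coeffMap f (jA M A)⟯ (LaurentSeries k)}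
    (Q : Polynomial (Polynomial A)) {x : LaurentSeries A} (hx : coeffMap f x ∈ K) :
    coeffMap f ((Q.map (Polynomial.aeval (jA M A)).toRingHom).eval x) ∈ K := by
  rw [Polynomial.eval_map, Polynomial.hom_eval₂, Polynomial.eval₂_eq_sum, Polynomial.sum]
  refine sum_mem fun i _ => mul_mem ?_ (pow_mem hx i)
  have hm : coeffMap f (Polynomial.aeval (jA M A) (Q.coeff i)) ∈ k⟮coeffMap f (jA M A)⟯ := by
    rw [GoodRed.coeffMap_aeval]
    exact (Polynomial.aeval_algHom_apply (k⟮coeffMap f (jA M A)⟯).val
      ⟨_, IntermediateField.mem_adjoin_simple_self k _⟩ _).symm ▸ Subtype.prop _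
  exact K.algebraMap_mem ⟨_, hm⟩

/-- Over any field of constants in which the conjugates stay distinct, the triples at `(1, 0)` are
rational in `j` and `theta`. -/
theorem castSer_genSer_mem_adjoin {k : Type*} [Field k] (f : A →+* k) (a : GTriple M → A)
    (h : Function.Injective fun q => coeffMap f (theta A a q)) (t : GTriple M) :
    castSer k (genSer M t.1.1 t.1.2.1 t.1.2.2) ∈
      k⟮coeffMap f (jA M A)⟯⟮coeffMap f (theta A a q₀)⟯ := by
  set K := k⟮coeffMap f (jA M A)⟯⟮coeffMap f (theta A a q₀)⟯
  have hth : coeffMap f (theta A a (q₀ (M := M))) ∈ K :=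
    IntermediateField.mem_adjoin_simple_self _ _
  obtain ⟨Q, hQ⟩ := exists_lift_lagA_zq hM a t
  obtain ⟨Q₁, hQ₁⟩ := exists_lift_lagA_one hM a
  have hN := coeffMap_eval_mem f (K := K) Q hth
  have hD := coeffMap_eval_mem f (K := K) Q₁ hth
  rw [hQ, eval_lagA, map_mul] at hN
  rw [hQ₁] at hD
  have hz := div_mem hN hD
  rw [mul_div_cancel_right₀ _ (coeffMap_eval_lagA_one A f a h q₀), q₀, ← yA_idxOf, yA,
    coeffMap_ser f _ (isUnit_one_sub_zpw hM), ser_idxOf_v₀] at hz
  exact hz

variable {p : ℕ} [Fact p.Prime] (hA : A.LiesOverPrime p) (hpM : ¬ p ∣ M)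

include hA hpM

/-- A combination with distinct reduced conjugates. -/
theorem exists_separating (hM7 : 7 ≤ M) :
    ∃ a : GTriple M → A,
      Function.Injective fun q => coeffMap (residue A) (theta A a q) := by
  classical
  set ι := {x : PMOrb M × PMOrb M // x.1 ≠ x.2}
  set z : PMOrb M → GTriple M → LaurentSeries κ := fun q t => coeffMap (residue A) (zq A q t)
  set f : ι → (GTriple M → κ) →ₗ[κ] LaurentSeries κ := fun x =>
    Fintype.linearCombination κ fun t => z x.1.1 t - z x.1.2 t
  have hf : ∀ x, f x ≠ 0 := by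
    intro x e
    refine x.2 ?_
    have hz : ∀ t, z x.1.1 t = z x.1.2 t := fun t => by
      have h1 : f x (Pi.single t 1) = 0 := by rw [e]; rfl
      rw [Fintype.linearCombination_apply_single, one_smul, sub_eq_zero] at h1
      exact h1
    simp only [z, zq, coeffMap_residue_yA' hM] at hz
    rw [← pmk_pout x.1.1, ← pmk_pout x.1.2, pmk_eq_iff]
    exact eq_or_eq_neg_of_yK_eq hM hA hpM hM7 _ _ hz
  obtain ⟨c, hc⟩ := exists_forall_linearMap_ne_zero f hf
  choose a ha using fun t => residue_surjective (R := A) (c t)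
  refine ⟨a, fun q q' e => ?_⟩
  by_contra hne
  refine hc ⟨(q, q'), hne⟩ ?_
  simp only [theta, map_sum, map_mul, coeffMap_algebraMap', ha] at e
  show Fintype.linearCombination κ (fun t => z q t - z q' t) c = 0
  rw [Fintype.linearCombination_apply, ← sub_eq_zero.2 e, ← Finset.sum_sub_distrib]
  refine Finset.sum_congr rfl fun t _ => ?_
  rw [← mul_sub, ModPoly.algebraMap_eq_C, HahnSeries.C_mul_eq_smul]

/-- The automorphism attached to `γ` moves the reduced combination. -/
theorem exists_theta_hom (a : GTriple M → A) (γ : SL(2, ℤ)) :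
    ∃ (φ : fullField M A →ₐ[κ] fullField M A) (th th' : fullField M A),
      φ ⟨_, jK_mem M A⟩ = ⟨_, jK_mem M A⟩ ∧
      (th : LaurentSeries κ) = coeffMap (residue A) (theta A a q₀) ∧
      (th' : LaurentSeries κ) = coeffMap (residue A) (theta A a (actPM γ q₀)) ∧ φ th = th' := by
  obtain ⟨φ, hφJ, hφy⟩ := exists_extends hM hA hpM γ
  have hm : ∀ q : PMOrb M, coeffMap (residue A) (theta A a q) ∈ fullField M A := fun q => by
    simp only [theta, map_sum, map_mul, coeffMap_algebraMap', zq, coeffMap_residue_yA' hM]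
    exact sum_mem fun t _ => mul_mem ((fullField M A).algebraMap_mem _) (yK_mem M A _)
  refine ⟨φ, ⟨_, hm q₀⟩, ⟨_, hm (actPM γ q₀)⟩, Subtype.ext hφJ, rfl, rfl, ?_⟩
  have e : ∀ q : PMOrb M, (⟨_, hm q⟩ : fullField M A) = ∑ t, algebraMap κ (fullField M A)
      (residue A (a t)) * ⟨_, yK_mem M A (idxOf (pout q) t)⟩ := fun q => Subtype.ext (by
    rw [IntermediateField.coe_sum]
    simp only [theta, map_sum, map_mul, coeffMap_algebraMap', zq, coeffMap_residue_yA' hM]
    rfl)
  rw [e q₀, map_sum]
  refine Subtype.ext ?_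
  rw [IntermediateField.coe_sum]
  simp only [theta, map_sum, map_mul, coeffMap_algebraMap', AlgHom.commutes,
    ← yA_act_idxOf, coeffMap_residue_yA' hM]
  exact Finset.sum_congr rfl fun t _ => congrArg (_ * ·) (hφy _)

/-- The powers of the reduced combination below the number of points are independent over
`κ [j]`. -/
theorem indep_theta (a : GTriple M → A)
    (h : Function.Injective fun q => coeffMap (residue A) (theta A a q))
    (pl : Fin (Fintype.card (PMOrb M)) → Polynomial κ)
    (hp : ∑ i, Polynomial.aeval (jK M A) (pl i) *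
      coeffMap (residue A) (theta A a q₀) ^ (i : ℕ) = 0) : ∀ i, pl i = 0 := by
  classical
  set P : Polynomial (LaurentSeries κ) :=
    ∑ i : Fin (Fintype.card (PMOrb M)), monomial (i : ℕ) (Polynomial.aeval (jK M A) (pl i))
    with hPdef
  have hdeg : P.natDegree < Fintype.card (PMOrb M) := by
    have hpos : 0 < Fintype.card (PMOrb M) := Fintype.card_pos
    refine lt_of_le_of_lt (natDegree_sum_le_of_forall_le _ _
      (n := Fintype.card (PMOrb M) - 1) fun i _ => ?_) (by omega)
    exact (natDegree_monomial_le _).trans (by have := i.2; omega)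
  have hroot : ∀ q, P.eval (coeffMap (residue A) (theta A a q)) = 0 := by
    intro q
    obtain ⟨γ, rfl⟩ := exists_actPM_q₀ q
    obtain ⟨φ, th, th', hJ, hth, hth', hφ⟩ := exists_theta_hom hM hA hpM a γ
    have := sum_aeval_mul_pow_eq_zero (fullField M A) φ (J := ⟨_, jK_mem M A⟩) hJ hφ pl
      (by rw [hth]; exact hp)
    rw [hPdef, eval_finsetSum, ← hth']
    simpa only [eval_monomial] using this
  have hP : P = 0 := Polynomial.eq_zero_of_natDegree_lt_card_of_eval_eq_zero P h hroot hdeg
  intro i
  have hi := congrArg (fun R : Polynomial (LaurentSeries κ) => R.coeff (i : ℕ)) hP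
  simp only [P, finsetSum_coeff, coeff_monomial, coeff_zero] at hi
  rw [Finset.sum_eq_single i (fun b _ hb => if_neg fun e => hb (Fin.ext e)) (by simp),
    if_pos rfl] at hi
  have htr : Transcendental κ (jK M A) := by
    rw [transcendental_iff_injective, jK_eq]
    exact Igusa.injective_aeval_qExpand_jqModC (k := κ) M
  exact transcendental_iff.1 htr _ hi

end FLTAgent.DS.RedGal
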