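import Fermat.Agent.DS.Geom.FieldModel
import Fermat.Agent.LevelSq.HauptSeries

/-!
# Coordinates of levels two and three at `q ^ (M/2)`, `q ^ (M/3)`, ramification over `j (M τ)`

The modular functions of level `Γ₀(M)` lie in `fieldOne M`; hence the coordinate `hauptThree` in
`q ^ (M/3)` for `3 ∣ M` and `hauptTwo` in `q ^ (M/2)` for `2 ∣ M`. The ramification indices over
`j (M τ)` are at most `3` at `0`, `2` at `1728` and `1` elsewhere.
-/

set_option autoImplicit false

noncomputable section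

open ModularCurve AlgebraicCurve CongruenceSubgroup
open UpperHalfPlane hiding I
open scoped MatrixGroups Manifold

namespace FLTAgent.DS

open ModPoly

local notation "Qbar" => AlgebraicClosure ℚ

variable {M : ℕ} [NeZero M]

theorem modularFunctionFieldFull_le_fieldOne (hM : 7 ≤ M) :
    modularFunctionFieldFull M ≤ fieldOne M := by
  refine IntermediateField.adjoin_le_iff.2 ?_
  rintro _ ⟨d, hd0, hd, rfl⟩
  have h := isModel_fieldOne (M := M) hM
  refine Phi.mem_of_coeffEmb_mem (F₀ := fieldOne M) ?_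
  rw [h.eq]
  let g : Phi.funRing (Phi.lvlOne M) := ⟨jMul d, (jMul_mem (N := M) hd).1,
    fun γ hγ τ => (jMul_mem (N := M) hd).2.1 γ (Phi.pmGamma1_le_Gamma0 hγ) τ,
    (jMul_mem (N := M) hd).2.2⟩
  have hg : Phi.qL (Phi.lvlOne M) g = qExpand ℂ d (jqModC ℂ) :=
    Phi.qL_eq_of_expands expands_jMul
  have e : coeffEmb ℂ (qExpand ℚ d jq) = qExpand ℂ d (jqModC ℂ) := by
    rw [← Hecke.coeffEmb_jq (L := ℂ), coeffEmb, coeffMap_qExpand]
  rw [e, ← hg]
  exact Phi.qL_mem_fieldC _ g

/-- A series of level `d` in the variable `q ^ m` lies in `fieldOne M` for `M = m d`. -/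
theorem intToRat_qExpand_mem_fieldOne (hM : 7 ≤ M) {m d : ℕ} [NeZero m] [NeZero d]
    (hmd : M = m * d) {x : LaurentSeries ℤ}
    (hx : Igusa.intToRat x ∈ modularFunctionFieldFull d) :
    Igusa.intToRat (qExpand ℤ m x) ∈ fieldOne M := by
  subst hmd
  refine modularFunctionFieldFull_le_fieldOne hM ?_
  rw [LevelSq.intToRat_qExpand]
  exact LevelSq.qExpand_mem_full hx

/-- `j (M τ)` and `hauptThree (q ^ (M/3))`. -/
theorem jSer_mul_hauptThree {m : ℕ} [NeZero m] (hm : M = m * 3) :
    jSer M * qExpand ℤ m GoodRed.SmallPrime.hauptThree =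
      (qExpand ℤ m GoodRed.SmallPrime.hauptThree + 27) *
        (qExpand ℤ m GoodRed.SmallPrime.hauptThree + 3) ^ 3 := by
  have h := congrArg (qExpand ℤ m) LevelSq.hauptThree_equation_three
  rw [map_mul, map_pow, map_add, map_add, map_ofNat, map_ofNat, map_mul, qExpand_qExpand] at h
  subst hm
  rw [jSer]
  exact h.symm

/-- `j (M τ)` and `hauptTwo (q ^ (M/2))`. -/
theorem jSer_mul_hauptTwo {m : ℕ} [NeZero m] (hm : M = m * 2) :
    jSer M * qExpand ℤ m GoodRed.SmallPrime.hauptTwo =
      (qExpand ℤ m GoodRed.SmallPrime.hauptTwo + 16) ^ 3 := by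
  have h := congrArg (qExpand ℤ m) LevelSq.hauptTwo_equation_two
  rw [map_pow, map_add, map_ofNat, map_mul, qExpand_qExpand] at h
  subst hm
  rw [jSer]
  exact h.symm

/-- The ramification indices over `j (M τ)`. -/
theorem ord_sub_le_jMult (hM : 7 ≤ M) (J : K1 M)
    (hJ : (J : LaurentSeries Qbar) = castSer Qbar (jSer M)) (a : Qbar) (v : Place Qbar (K1 M))
    (hv : 0 < v.ord (J - algebraMap Qbar (K1 M) a)) :
    v.ord (J - algebraMap Qbar (K1 M) a) ≤ Genus.jMult (iotaOne a) := by
  have hMod := isModel_fieldOne (M := M) hM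
  set g : Phi.funRing (Phi.lvlOne M) := Phi.jMulL M - algebraMap ℂ _ (iotaOne a) with hg
  have htoC : Phi.toC iotaOne (J - algebraMap Qbar (K1 M) a) = Phi.qL (Phi.lvlOne M) g := by
    rw [map_sub, hg, map_sub, AlgHom.commutes, Phi.toC_algebraMap, Phi.toC_of_coe_eq J hJ]
  have hgfun : ∀ τ, (g : ℍ → ℂ) τ = jMul M τ - iotaOne a := fun τ => rfl
  rcases hMod.exists_point_or_cusp iotaOne v with ⟨b, z, q, k, -, -, hk⟩ | ⟨q, k, -, hk⟩
  · have e := hk.2 (J - algebraMap Qbar (K1 M) a)
    rw [Phi.expEmb_eq hMod iotaOne _ _ htoC, Phi.pointHom_apply] at e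
    set β : GL (Fin 2) ℝ := Periods.tRep M none * ((q.out⁻¹ : SL(2, ℤ)) : GL (Fin 2) ℝ)
    have hβ : 0 < β.det.val := by
      simp only [β, map_mul, Units.val_mul]
      refine mul_pos (Periods.tRep_det_pos M none) ?_
      simp
    have hfun : Phi.cosetFun q (g : ℍ → ℂ) =
        fun τ => (fun w => jFun w - iotaOne a) (β • τ) := by
      funext τ
      simp only [Phi.cosetFun, hgfun, Phi.jMul_eq, β, mul_smul, ModularGroup.sl_moeb]
    have hne : (fun w => jFun w - iotaOne a) ≠ 0 := fun h => by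
      have e1 := congrFun h UpperHalfPlane.I
      have e2 := congrFun h UpperHalfPlane.ρ
      simp only [Pi.zero_apply, sub_eq_zero, Genus.jFun_I, Genus.jFun_rho] at e1 e2
      rw [← e2] at e1
      norm_num at e1
    rw [hfun, Phi.order_diskSeries_comp_smul (Genus.mdiff_jFun_sub _) hne hβ] at e
    by_cases hw : jFun (β • z) = iotaOne a
    · have hord := Genus.order_diskSeries_jFun_sub (β • z)
      rw [hw, e] at hord
      rw [← hord]
      exact le_mul_of_one_le_left hv.le (by have := hk.1; omega)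
    · rw [(Genus.order_diskSeries_eq_zero (β • z) (g := fun w => jFun w - iotaOne a)
        (sub_ne_zero.2 hw)).1] at e
      have := mul_pos hk.1 hv
      omega
  · exfalso
    have e := hk.2 (J - algebraMap Qbar (K1 M) a)
    rw [Phi.expEmb_eq hMod iotaOne _ _ htoC] at e
    obtain ⟨x, hx, hx0, hneg⟩ := Phi.order_jMul_cusp (M := M) q.out⁻¹
    have hexp : Expands M (fun τ => (g : ℍ → ℂ) (q.out⁻¹ • τ))
        (x - HahnSeries.C (iotaOne a)) :=
      hx.sub (Expands.const M (iotaOne a))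
    have hcu : Phi.cuspHom q g = x - HahnSeries.C (iotaOne a) := Phi.qLAt_eq_of_expands hexp
    rw [hcu] at e
    have hle : (x - HahnSeries.C (iotaOne a)).order ≤ x.order := by
      refine HahnSeries.order_le_of_coeff_ne_zero ?_
      rw [HahnSeries.coeff_sub, HahnSeries.C_apply, HahnSeries.coeff_single_of_ne hneg.ne,
        sub_zero]
      exact HahnSeries.coeff_order_eq_zero.not.2 hx0
    have := mul_pos hk.1 hv
    omega

/-- The bounds by cases. -/
theorem ord_sub_le_cases (hM : 7 ≤ M) (J : K1 M)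
    (hJ : (J : LaurentSeries Qbar) = castSer Qbar (jSer M)) (a : Qbar) (v : Place Qbar (K1 M))
    (hv : 0 < v.ord (J - algebraMap Qbar (K1 M) a)) :
    (a = 0 → v.ord (J - algebraMap Qbar (K1 M) a) ≤ 3) ∧
      (a = 1728 → v.ord (J - algebraMap Qbar (K1 M) a) ≤ 2) ∧
        (a ≠ 0 → a ≠ 1728 → v.ord (J - algebraMap Qbar (K1 M) a) ≤ 1) := by
  have h := ord_sub_le_jMult hM J hJ a v hv
  have h1728 : iotaOne (1728 : Qbar) = 1728 := map_ofNat iotaOne 1728
  refine ⟨fun h0 => ?_, fun h1 => ?_, fun h0 h1 => ?_⟩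
  · rwa [show Genus.jMult (iotaOne a) = 3 from if_pos (by rw [h0, map_zero]), Nat.cast_ofNat] at h
  · rwa [show Genus.jMult (iotaOne a) = 2 from (if_neg (by rw [h1, h1728]; norm_num)).trans
      (if_pos (by rw [h1, h1728])), Nat.cast_ofNat] at h
  · rwa [Genus.jMult, if_neg (fun e => h0 ((map_eq_zero iotaOne).1 e)),
      if_neg (fun e => h1 (iotaOne.injective (e.trans h1728.symm))), Nat.cast_one] at h

end FLTAgent.DS
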