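import Fermat.Agent.DS.Geom.RedFull

/-!
# The reduced triples at two points of order `M` differ unless the points agree up to sign

After moving the first point to `(0, 1)` one compares the coefficients of `q ^ 0`, `q ^ M` and
`q ^ (2M)`.
-/

set_option autoImplicit false
set_option synthInstance.maxHeartbeats 100000

noncomputable section

open CongruenceSubgroup IsLocalRing ModularCurve
open scoped MatrixGroups

namespace FLTAgent.DS.RedGal

open FLTAgent.ModPoly

section Core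

variable {k : Type*} [Field k] {M : ℕ} [NeZero M]

/-- An element killed by a monic polynomial is a constant, over an algebraically closed field. -/
theorem exists_eq_algebraMap_of_isIntegral {F : Type*} [Field F] [Algebra k F] [IsAlgClosed k]
    {r : F} (hr : IsIntegral k r) : ∃ a : k, algebraMap k F a = r :=
  minpoly.mem_range_of_degree_eq_one k r
    (IsAlgClosed.degree_eq_one_of_irreducible k (minpoly.irreducible hr))

theorem eq_or_eq_inv_of_div_sq_eq {x y : k} (hx : x ≠ 1) (hy : y ≠ 1)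
    (h : x / (1 - x) ^ 2 = y / (1 - y) ^ 2) : x = y ∨ x * y = 1 := by
  have hx' : (1 - x) ^ 2 ≠ 0 := pow_ne_zero 2 (sub_ne_zero.2 hx.symm)
  have hy' : (1 - y) ^ 2 ≠ 0 := pow_ne_zero 2 (sub_ne_zero.2 hy.symm)
  rw [div_eq_div_iff hx' hy'] at h
  have : (x - y) * (1 - x * y) = 0 := by linear_combination h
  rcases mul_eq_zero.1 this with h1 | h1
  · exact Or.inl (sub_eq_zero.1 h1)
  · exact Or.inr (sub_eq_zero.1 h1).symm

theorem coeffs_eq_zero_of_three_roots {a b c s₁ s₂ s₃ : k} (h12 : s₁ ≠ s₂) (h13 : s₁ ≠ s₃)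
    (h23 : s₂ ≠ s₃) (e₁ : a * s₁ ^ 2 + b * s₁ + c = 0) (e₂ : a * s₂ ^ 2 + b * s₂ + c = 0)
    (e₃ : a * s₃ ^ 2 + b * s₃ + c = 0) : a = 0 ∧ b = 0 ∧ c = 0 := by
  have u : a * (s₁ + s₂) + b = 0 :=
    (mul_eq_zero.1 (show (s₁ - s₂) * (a * (s₁ + s₂) + b) = 0 by linear_combination e₁ - e₂)
      ).resolve_left (sub_ne_zero.2 h12)
  have v : a * (s₁ + s₃) + b = 0 :=
    (mul_eq_zero.1 (show (s₁ - s₃) * (a * (s₁ + s₃) + b) = 0 by linear_combination e₁ - e₃)
      ).resolve_left (sub_ne_zero.2 h13)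
  have ha : a = 0 :=
    (mul_eq_zero.1 (show (s₂ - s₃) * a = 0 by linear_combination u - v)).resolve_left
      (sub_ne_zero.2 h23)
  subst ha
  have hb : b = 0 := by linear_combination u
  subst hb
  exact ⟨rfl, rfl, by linear_combination e₁⟩

variable {ζ : k} (hζ : IsPrimitiveRoot ζ M)

include hζ

theorem zpw_ne_one {x : ZMod M} (hx : x ≠ 0) : zpw ζ x ≠ 1 := fun e =>
  hx ((ZMod.val_eq_zero x).1 (hζ.pow_inj (ZMod.val_lt x) (Nat.pos_of_ne_zero (NeZero.ne M))
    (by rw [pow_zero]; exact e)))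

theorem zpw_injective : Function.Injective (zpw (M := M) ζ) := fun x y e =>
  ZMod.val_injective M (hζ.pow_inj (ZMod.val_lt x) (ZMod.val_lt y) e)

omit [NeZero M] hζ in
theorem coeff_zero_xVec_zero (x : ZMod M) :
    PowerSeries.coeff 0 (xVec ζ ((0 : ZMod M), x)) = zpw ζ x / (1 - zpw ζ x) ^ 2 := by
  rw [coeff_xVec_zero, if_pos rfl, Ring.inverse_eq_inv', div_eq_mul_inv]

theorem eq_or_eq_neg_of_coeff_eq {x y : ZMod M} (hx : x ≠ 0) (hy : y ≠ 0)
    (h : PowerSeries.coeff 0 (xVec ζ ((0 : ZMod M), x)) =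
      PowerSeries.coeff 0 (xVec ζ ((0 : ZMod M), y))) : x = y ∨ x = -y := by
  rw [coeff_zero_xVec_zero, coeff_zero_xVec_zero] at h
  rcases eq_or_eq_inv_of_div_sq_eq (zpw_ne_one hζ hx) (zpw_ne_one hζ hy) h with e | e
  · exact Or.inl (zpw_injective hζ e)
  · refine Or.inr (eq_neg_of_add_eq_zero_left (zpw_injective hζ ?_))
    rw [zpw_add hζ.pow_eq_one, e, zpw_zero]

/-- `ζ ^ x + ζ ^ (-x) - 2`. -/
theorem sVal_spec (x : ZMod M) (hx : x ≠ 0) :
    (zpw ζ x + zpw ζ (-x) - 2) * PowerSeries.coeff 0 (xVec ζ ((0 : ZMod M), x)) = 1 := by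
  have h1 := zpw_neg_mul_self hζ.pow_eq_one x
  have h2 : (1 - zpw ζ x) ^ 2 ≠ 0 := pow_ne_zero 2 (sub_ne_zero.2 (zpw_ne_one hζ hx).symm)
  rw [coeff_zero_xVec_zero, ← mul_div_assoc, div_eq_one_iff_eq h2]
  linear_combination h1

/-- The comparison with the point `(0, 1)`. -/
theorem eq_zero_and_eq_one_or_of_triples [IsAlgClosed k] (hM : 7 ≤ M) (a b : ZMod M)
    (hb : a = 0 → IsUnit b)
    (h : ∀ d e f : ZMod M, d ≠ 0 → e ≠ 0 → f ≠ 0 →
      (xVec ζ ((0 : ZMod M), d) - xVec ζ ((0 : ZMod M), e)) ^ 5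
          * (xVec ζ ((0 : ZMod M), d) - xVec ζ ((0 : ZMod M), f)) =
        (xVec ζ (d * a, d * b) - xVec ζ (e * a, e * b)) ^ 5
          * (xVec ζ (d * a, d * b) - xVec ζ (f * a, f * b))) :
    a = 0 ∧ (b = 1 ∨ b = -1) := by
  have hn : ∀ n : ℕ, 0 < n → n < 7 → (n : ZMod M) ≠ 0 := fun n h0 h7 e => by
    have := Nat.le_of_dvd h0 ((ZMod.natCast_eq_zero_iff n M).1 e)
    omega
  have h1 : (1 : ZMod M) ≠ 0 := by simpa using hn 1 one_pos (by norm_num)
  have h2 : (2 : ZMod M) ≠ 0 := by simpa using hn 2 two_pos (by norm_num)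
  have h3 : (3 : ZMod M) ≠ 0 := by simpa using hn 3 (by norm_num) (by norm_num)
  have h4 : (4 : ZMod M) ≠ 0 := by simpa using hn 4 (by norm_num) (by norm_num)
  have h5 : (5 : ZMod M) ≠ 0 := by simpa using hn 5 (by norm_num) (by norm_num)
  set U : ZMod M → PowerSeries k := fun d => xVec ζ ((0 : ZMod M), d) with hU
  set U' : ZMod M → PowerSeries k := fun d => xVec ζ (d * a, d * b) with hU'
  have hne : ∀ x y : ZMod M, x ≠ 0 → y ≠ 0 → x ≠ y → x ≠ -y →
      PowerSeries.coeff 0 (U x) ≠ PowerSeries.coeff 0 (U y) := fun x y hx hy e1 e2 e =>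
    (eq_or_eq_neg_of_coeff_eq hζ hx hy e).elim e1 e2
  have ha : a = 0 := by
    by_contra ha
    obtain ⟨e, he0, hea, he1, he2⟩ :
        ∃ e : ZMod M, e ≠ 0 ∧ e * a ≠ 0 ∧ (1 : ZMod M) ≠ e ∧ 1 ≠ -e := by
      rcases ne_or_eq ((2 : ZMod M) * a) 0 with h2a | h2a
      · exact ⟨2, h2, h2a, fun e => h1 (by linear_combination -e),
          fun e => h3 (by linear_combination e)⟩
      · exact ⟨3, h3, fun e => ha (by linear_combination e - h2a),
          fun e => h2 (by linear_combination -e), fun e => h4 (by linear_combination e)⟩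
    have ca : PowerSeries.coeff 0 (xVec ζ (a, b)) = 0 := by rw [coeff_xVec_zero, if_neg ha]
    have ce : PowerSeries.coeff 0 (xVec ζ (e * a, e * b)) = 0 := by
      rw [coeff_xVec_zero, if_neg hea]
    have := congrArg (PowerSeries.constantCoeff (R := k)) (h 1 e e h1 he0 he0)
    simp only [map_pow, map_sub, ← PowerSeries.coeff_zero_eq_constantCoeff_apply, one_mul, ca,
      ce, sub_zero, ← pow_succ] at this
    rw [zero_pow (by norm_num : 5 + 1 ≠ 0)] at this
    exact hne 1 e h1 he0 he1 he2 (sub_eq_zero.1 (eq_zero_of_pow_eq_zero this))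
  subst ha
  refine ⟨rfl, ?_⟩
  obtain ⟨b, rfl⟩ := hb rfl
  simp only [mul_zero] at h hU'
  -- the differences
  let ι : PowerSeries k →+* LaurentSeries k := HahnSeries.ofPowerSeries ℤ k
  set D : ZMod M → ZMod M → LaurentSeries k := fun x y => ι (U x - U y) with hD
  set D' : ZMod M → ZMod M → LaurentSeries k := fun x y => ι (U' x - U' y) with hD'
  have hDne : ∀ x y : ZMod M, x ≠ 0 → y ≠ 0 → x ≠ y → x ≠ -y → D x y ≠ 0 := by
    intro x y hx hy e1 e2 e
    have e' : U x - U y = 0 := HahnSeries.ofPowerSeries_injective (e.trans (map_zero ι).symm)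
    exact hne x y hx hy e1 e2 (sub_eq_zero.1 (by rw [← map_sub, e', map_zero]))
  have hrel : ∀ d e f : ZMod M, d ≠ 0 → e ≠ 0 → f ≠ 0 →
      D d e ^ 5 * D d f = D' d e ^ 5 * D' d f := fun d e f hd he hf => by
    have := congrArg ι (h d e f hd he hf)
    simp only [map_mul, map_pow] at this
    simpa [hD, hD', hU, hU', mul_zero] using this
  have h6 : ∀ d e : ZMod M, d ≠ 0 → e ≠ 0 → d ≠ e → d ≠ -e → (D' d e / D d e) ^ 6 = 1 := by
    intro d e hd he e1 e2
    rw [div_pow, div_eq_one_iff_eq (pow_ne_zero 6 (hDne d e hd he e1 e2))]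
    linear_combination -hrel d e e hd he he
  have hconst : ∀ d e f : ZMod M, d ≠ 0 → e ≠ 0 → f ≠ 0 → d ≠ e → d ≠ -e → d ≠ f → d ≠ -f →
      D' d f / D d f = D' d e / D d e := by
    intro d e f hd he hf e1 e2 f1 f2
    have hde := hDne d e hd he e1 e2
    have hdf := hDne d f hd hf f1 f2
    have h0 : (D' d e / D d e) ^ 5 * (D' d f / D d f) = 1 := by
      rw [div_pow, div_mul_div_comm,
        div_eq_one_iff_eq (mul_ne_zero (pow_ne_zero 5 hde) hdf)]
      exact (hrel d e f hd he hf).symm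
    linear_combination (D' d e / D d e) * h0 - (D' d f / D d f) * h6 d e hd he e1 e2
  -- one constant for the three differences
  have n12 : (1 : ZMod M) ≠ 2 := fun e => h1 (by linear_combination -e)
  have n12' : (1 : ZMod M) ≠ -2 := fun e => h3 (by linear_combination e)
  have n13 : (1 : ZMod M) ≠ 3 := fun e => h2 (by linear_combination -e)
  have n13' : (1 : ZMod M) ≠ -3 := fun e => h4 (by linear_combination e)
  have n23 : (2 : ZMod M) ≠ 3 := fun e => h1 (by linear_combination -e)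
  have n23' : (2 : ZMod M) ≠ -3 := fun e => h5 (by linear_combination e)
  set r := D' 1 2 / D 1 2 with hr
  obtain ⟨α, hα⟩ := exists_eq_algebraMap_of_isIntegral (k := k) (r := r)
    (IsIntegral.of_pow (by norm_num : 0 < 6) (by rw [h6 1 2 h1 h2 n12 n12']; exact isIntegral_one))
  have hα0 : α ≠ 0 := fun e => by
    have := h6 1 2 h1 h2 n12 n12'
    rw [← hr, ← hα, e, map_zero] at this
    norm_num at this
  have hlin : ∀ x : ZMod M, (x = 2 ∨ x = 3) → U' 1 - U' x = PowerSeries.C α * (U 1 - U x) := by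
    intro x hx
    apply HahnSeries.ofPowerSeries_injective (Γ := ℤ) (R := k)
    rw [map_mul, HahnSeries.ofPowerSeries_C, ← ModPoly.algebraMap_eq_C, hα]
    rcases hx with rfl | rfl
    · exact (div_mul_cancel₀ _ (hDne 1 2 h1 h2 n12 n12')).symm
    · rw [hr, ← hconst 1 2 3 h1 h2 h3 n12 n12' n13 n13']
      exact (div_mul_cancel₀ _ (hDne 1 3 h1 h3 n13 n13')).symm
  -- coefficients
  have hcoef : ∀ (n : ℕ) (x : ZMod M), (x = 1 ∨ x = 2 ∨ x = 3) →
      PowerSeries.coeff n (U' x) = α * PowerSeries.coeff n (U x)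
        + (PowerSeries.coeff n (U' 1) - α * PowerSeries.coeff n (U 1)) := by
    intro n x hx
    rcases hx with rfl | hx
    · ring
    · have := congrArg (PowerSeries.coeff n) (hlin x hx)
      rw [map_sub, PowerSeries.coeff_C_mul, map_sub] at this
      linear_combination -this
  set s : ZMod M → k := fun x => zpw ζ x + zpw ζ (-x) - 2 with hs
  set c : ZMod M → k := fun x => PowerSeries.coeff 0 (U x) with hc
  have hsc : ∀ x, x ≠ 0 → s x * c x = 1 := fun x hx => sVal_spec hζ x hx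
  have hxb : ∀ x : ZMod M, x ≠ 0 → x * (b : ZMod M) ≠ 0 := fun x hx e =>
    hx ((Units.mul_left_eq_zero b).1 e)
  have hUb : ∀ x, U' x = U (x * b) := fun x => by simp [hU, hU']
  have hM' := coeff_xVec_level (ζ := ζ) hζ.pow_eq_one
  set β : ℕ → k := fun n => PowerSeries.coeff n (U' 1) - α * PowerSeries.coeff n (U 1) with hβ
  -- the two first equations
  have key : ∀ x : ZMod M, (x = 1 ∨ x = 2 ∨ x = 3) → x ≠ 0 →
      c (x * b) = α * c x + β 0 ∧ s (x * b) = α * s x + β M ∧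
      2 * s (x * b) ^ 2 + 9 * s (x * b) = α * (2 * s x ^ 2 + 9 * s x) + β (2 * M) := by
    intro x hx hx0
    have e2 : ∀ y : ZMod M, PowerSeries.coeff (2 * M) (U y) = 2 * s y ^ 2 + 9 * s y := fun y => by
      rw [hU, (hM' y).2, hs]
      linear_combination (-4 : k) * zpw_neg_mul_self hζ.pow_eq_one y
    refine ⟨?_, ?_, ?_⟩
    · simpa [hc, hUb, hβ] using hcoef 0 x hx
    · have := hcoef M x hx
      rw [hUb, hU] at this
      simpa [(hM' _).1, hs, hβ, hU, hUb] using this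
    · have := hcoef (2 * M) x hx
      rw [hUb, e2, e2] at this
      simpa [hβ] using this
  have hx123 : ∀ x : ZMod M, (x = 1 ∨ x = 2 ∨ x = 3) → x ≠ 0 := by
    rintro x (rfl | rfl | rfl) <;> assumption
  have hsne : ∀ x y : ZMod M, x ≠ 0 → y ≠ 0 → x ≠ y → x ≠ -y → s x ≠ s y := by
    intro x y hx hy e1 e2 e
    refine hne x y hx hy e1 e2 ?_
    have h0 : s x ≠ 0 := left_ne_zero_of_mul_eq_one (hsc x hx)
    refine mul_left_cancel₀ h0 ?_
    rw [hsc x hx, e]
    exact (hsc y hy).symm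
  have hquad : ∀ x : ZMod M, (x = 1 ∨ x = 2 ∨ x = 3) →
      (α * β 0) * s x ^ 2 + (α ^ 2 + β 0 * β M - 1) * s x + α * β M = 0 := by
    intro x hx
    obtain ⟨a0, aM, -⟩ := key x hx (hx123 x hx)
    have e := hsc (x * b) (hxb x (hx123 x hx))
    rw [a0, aM] at e
    linear_combination (s x) * e - (α ^ 2 * s x + α * β M) * hsc x (hx123 x hx)
  obtain ⟨z0, z1, zM⟩ := coeffs_eq_zero_of_three_roots (hsne 1 2 h1 h2 n12 n12')
    (hsne 1 3 h1 h3 n13 n13') (hsne 2 3 h2 h3 n23 n23') (hquad 1 (by simp)) (hquad 2 (by simp))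
    (hquad 3 (by simp))
  have b0 : β 0 = 0 := (mul_eq_zero.1 z0).resolve_left hα0
  have bM : β M = 0 := (mul_eq_zero.1 zM).resolve_left hα0
  have hα2 : α ^ 2 = 1 := by rw [b0, bM] at z1; linear_combination z1
  have hcub : ∀ x : ZMod M, (x = 1 ∨ x = 2 ∨ x = 3) →
      (2 * (α ^ 2 - α)) * s x ^ 2 + 0 * s x + -β (2 * M) = 0 := by
    intro x hx
    obtain ⟨-, aM, a2⟩ := key x hx (hx123 x hx)
    rw [aM, bM, add_zero] at a2
    linear_combination a2
  obtain ⟨y0, -, -⟩ := coeffs_eq_zero_of_three_roots (hsne 1 2 h1 h2 n12 n12')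
    (hsne 1 3 h1 h3 n13 n13') (hsne 2 3 h2 h3 n23 n23') (hcub 1 (by simp)) (hcub 2 (by simp))
    (hcub 3 (by simp))
  have hα1 : α = 1 := by
    by_contra hne'
    have hneg : α = -1 := (sq_eq_one_iff.1 hα2).resolve_left hne'
    have hchar : (2 : k) ≠ 0 := fun h2k => hne' (by linear_combination hneg - h2k)
    rw [hα2] at y0
    rcases mul_eq_zero.1 y0 with e | e
    · exact hchar e
    · exact hne' (sub_eq_zero.1 e).symm
  obtain ⟨a0, -, -⟩ := key 1 (Or.inl rfl) h1
  rw [hα1, b0, one_mul, add_zero, one_mul] at a0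
  exact eq_or_eq_neg_of_coeff_eq hζ (by simpa using hxb 1 h1) h1 a0

end Core

variable (M : ℕ) [NeZero M]

/-- Triples of nonzero residues. -/
abbrev GTriple : Type := {t : ZMod M × ZMod M × ZMod M // t.1 ≠ 0 ∧ t.2.1 ≠ 0 ∧ t.2.2 ≠ 0}

/-- Points of exact order `M`: the rows of `SL(2, ℤ)` modulo `M`. -/
abbrev Orb : Type := {v : ZMod M × ZMod M // ∃ γ : SL(2, ℤ), vmul γ (1, 0) = v}

variable {M}

/-- Scalar multiple. -/
def smulV (d : ZMod M) (v : ZMod M × ZMod M) : ZMod M × ZMod M := (d * v.1, d * v.2)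

omit [NeZero M] in
theorem vmul_smulV (γ : SL(2, ℤ)) (d : ZMod M) (v : ZMod M × ZMod M) :
    vmul γ (smulV d v) = smulV d (vmul γ v) := by
  refine Prod.ext ?_ ?_ <;> simp [vmul, smulV] <;> ring

omit [NeZero M] in
theorem smulV_ne_zero {d : ZMod M} (hd : d ≠ 0) (v : Orb M) : smulV d v.1 ≠ 0 := by
  obtain ⟨γ, hγ⟩ := v.2
  rw [← hγ, ← vmul_smulV]
  refine vmul_ne_zero γ fun e => hd ?_
  simpa [smulV] using congrArg Prod.fst e

/-- The index of a triple at a point. -/
def idxOf (v : Orb M) (t : GTriple M) : Idx M :=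
  Sum.inl (⟨_, smulV_ne_zero t.2.1 v⟩, ⟨_, smulV_ne_zero t.2.2.1 v⟩,
    ⟨_, smulV_ne_zero t.2.2.2 v⟩)

/-- The action on points of exact order `M`. -/
def actOrb (γ : SL(2, ℤ)) (v : Orb M) : Orb M :=
  ⟨vmul γ v.1, by
    obtain ⟨δ, hδ⟩ := v.2
    exact ⟨δ * γ, by rw [← vmul_mul, hδ]⟩⟩

theorem act_idxOf (γ : SL(2, ℤ)) (v : Orb M) (t : GTriple M) :
    act γ (idxOf v t) = idxOf (actOrb γ v) t := by
  simp [act, idxOf, actNZ, actOrb, vmul_smulV]

variable {A : ValuationSubring (AlgebraicClosure ℚ)} (hM : (M : ResidueField A) ≠ 0)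
  {p : ℕ} [Fact p.Prime] (hA : A.LiesOverPrime p) (hpM : ¬ p ∣ M)

include hM hA hpM

/-- An equality between reduced series is moved by every matrix. -/
theorem yK_act_eq {s t : Idx M} (h : yK M A s = yK M A t) (γ : SL(2, ℤ)) :
    yK M A (act γ s) = yK M A (act γ t) := by
  obtain ⟨φ, -, hφ⟩ := exists_extends hM hA hpM γ
  rw [← hφ s, ← hφ t]
  exact congrArg (fun z => ((φ z : fullField M A) : LaurentSeries (ResidueField A)))
    (Subtype.ext h)

/-- **The reduced triples separate points up to sign.** -/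
theorem eq_or_eq_neg_of_yK_eq (hM7 : 7 ≤ M) (v w : Orb M)
    (h : ∀ t : GTriple M, yK M A (idxOf v t) = yK M A (idxOf w t)) :
    w.1 = v.1 ∨ w.1 = -v.1 := by
  obtain ⟨δ, hδ⟩ := v.2
  set γ := δ⁻¹ * ModularGroup.S⁻¹ with hγ
  have hv : vmul γ v.1 = (0, 1) := by
    rw [← hδ, vmul_mul, hγ, mul_inv_cancel_left]
    simp [vmul, Matrix.SpecialLinearGroup.coe_inv, ModularGroup.coe_S, Matrix.adjugate_fin_two]
  set w' := actOrb γ w
  have hunit : w'.1.1 = 0 → IsUnit w'.1.2 := by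
    obtain ⟨ε, hε⟩ := w'.2
    rw [← hε]
    intro h0
    have := congrArg (fun z : ℤ => (z : ZMod M)) (SL_det_eq ε)
    simp only [vmul, one_mul, zero_mul, add_zero] at h0 ⊢
    push_cast at this
    rw [h0, zero_mul, zero_sub] at this
    exact IsUnit.of_mul_eq_one (-((ε 1 0 : ℤ) : ZMod M)) (by linear_combination this)
  have hdelta : castSer (ResidueField A) (deltaInvSer M) ≠ 0 := fun e => by
    have h0 : deltaInvSer M = qExpand ℤ M (HahnSeries.single (-1 : ℤ) (1 : ℤ) *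
      HahnSeries.ofPowerSeries ℤ ℤ dedekindEtaUnitInv) := rfl
    rw [h0, castSer, coeffMap_qExpand, map_mul, coeffMap_single, map_one,
      coeffMap_ofPowerSeries] at e
    have e1 := qExpand_injective M (e.trans (map_zero _).symm)
    rcases mul_eq_zero.1 e1 with e2 | e2
    · exact HahnSeries.single_ne_zero one_ne_zero e2
    · have e3 := congrArg (· * HahnSeries.ofPowerSeries ℤ (ResidueField A)
        (dedekindEtaUnit.map (Int.castRingHom (ResidueField A)))) e2
      simp only [zero_mul, ← map_mul, mul_comm dedekindEtaUnitInv dedekindEtaUnit,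
        dedekindEtaUnit_mul_inv, map_one] at e3
      exact one_ne_zero e3
  have hcore := eq_zero_and_eq_one_or_of_triples (isPrimitiveRoot_zK hM) hM7 w'.1.1 w'.1.2 hunit
    fun d e f hd he hf => by
      have := yK_act_eq hM hA hpM (h ⟨(d, e, f), hd, he, hf⟩) γ
      rw [act_idxOf, act_idxOf] at this
      simp only [yK, ser, idxOf] at this
      have hv' : (actOrb γ v).1 = (0, 1) := hv
      rw [hv'] at this
      simp only [smulV, mul_zero, mul_one] at this
      exact HahnSeries.ofPowerSeries_injective (mul_right_cancel₀ hdelta this)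
  have hw : w'.1 = vmul γ w.1 := rfl
  rcases hcore with ⟨e0, e1 | e1⟩
  · left
    rw [← vmul_inv_vmul γ w.1, ← vmul_inv_vmul γ v.1, ← hw, hv]
    exact congrArg (vmul γ⁻¹) (Prod.ext e0 e1)
  · right
    rw [← vmul_inv_vmul γ w.1, ← vmul_inv_vmul γ v.1, ← hw, hv, ← vmul_neg]
    exact congrArg (vmul γ⁻¹) (Prod.ext (by simpa using e0) (by simpa using e1))

end FLTAgent.DS.RedGal
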