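import Fermat.Agent.DS.Geom.RedBasis

/-!
# The reduced field of level `Γ₁(M)`: Gauss basis, separability, diamonds

Exports for the reduction facts at a place `A` over `p ∤ M`.
-/

set_option autoImplicit false
set_option synthInstance.maxHeartbeats 100000

noncomputable section

open CongruenceSubgroup IsLocalRing ModularCurve Polynomial
open scoped MatrixGroups IntermediateField

namespace FLTAgent.DS

open FLTAgent.ModPoly RedGal

local notation "Qbar" => AlgebraicClosure ℚ

namespace RedGal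

/-- A simple extension is spanned by the powers below the degree of a monic relation, with
denominators cleared. -/
theorem exists_span_pow {k E : Type*} [Field k] [Field E] [Algebra k E] {x θ : E}
    (hx : Transcendental k x) (Φ : Polynomial k⟮x⟯) (hΦ : Φ.Monic) {n : ℕ} (hn : Φ.natDegree = n)
    (hn0 : n ≠ 0) (hθ : Polynomial.aeval θ Φ = 0) {y : E}
    (hy : y ∈ (k⟮x⟯⟮θ⟯).restrictScalars k) :
    ∃ (p : Fin n → k[X]) (q : k[X]), q ≠ 0 ∧
      y * Polynomial.aeval x q = ∑ i, Polynomial.aeval x (p i) * θ ^ (i : ℕ) := by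
  have hy' : y ∈ (k⟮x⟯⟮θ⟯).toSubalgebra := hy
  rw [IntermediateField.adjoin_simple_toSubalgebra_of_isAlgebraic
    (IsIntegral.isAlgebraic ⟨Φ, hΦ, hθ⟩), Algebra.adjoin_singleton_eq_range_aeval,
    AlgHom.mem_range] at hy'
  obtain ⟨r, rfl⟩ := hy'
  have hΦ1 : Φ ≠ 1 := fun e => hn0 (by rw [← hn, e, natDegree_one])
  have hlt : (r %ₘ Φ).natDegree < n := hn ▸ natDegree_modByMonic_lt r hΦ hΦ1
  obtain ⟨p, q, hq, hpq⟩ :=
    GoodRed.exists_clear_denom hx fun i : Fin n => (r %ₘ Φ).coeff (i : ℕ)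
  refine ⟨p, q, hq, ?_⟩
  rw [← aeval_modByMonic_eq_self_of_root (p := r) hθ, aeval_eq_sum_range' hlt, Finset.sum_range,
    Finset.sum_mul]
  refine Finset.sum_congr rfl fun i _ => ?_
  rw [← hpq, Algebra.smul_def]
  show ((((r %ₘ Φ).coeff (i : ℕ)) : E) * _) * _ = _
  ring

variable {M : ℕ} [NeZero M] {A : ValuationSubring (AlgebraicClosure ℚ)}
  (hM : (M : ResidueField A) ≠ 0)

section Field

variable {k : Type*} [Field k] (f : A →+* k) (a : GTriple M → A)

include hM

theorem coeffMap_zq_q₀ (t : GTriple M) :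
    coeffMap f (zq A q₀ t) = castSer k (genSer M t.1.1 t.1.2.1 t.1.2.2) := by
  rw [q₀, ← yA_idxOf, yA, coeffMap_ser f _ (isUnit_one_sub_zpw hM), ser_idxOf_v₀]

theorem coeffMap_theta_mem_fieldOneC : coeffMap f (theta A a q₀) ∈ fieldOneC M k := by
  simp only [theta, map_sum, map_mul, coeffMap_algebraMap', coeffMap_zq_q₀ hM]
  refine sum_mem fun t _ => mul_mem (IntermediateField.algebraMap_mem _ _) ?_
  exact IntermediateField.subset_adjoin k _
    ⟨_, Or.inr ⟨t.1.1, t.1.2.1, t.1.2.2, t.2.1, t.2.2.1, t.2.2.2, rfl⟩, rfl⟩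

theorem fieldOneC_eq (h : Function.Injective fun q => coeffMap f (theta A a q)) :
    fieldOneC M k =
      (k⟮coeffMap f (jA M A)⟯⟮coeffMap f (theta A a q₀)⟯).restrictScalars k := by
  refine le_antisymm (IntermediateField.adjoin_le_iff.2 ?_) ?_
  · rintro _ ⟨z, hz | ⟨d, e, g, hd, he, hg, hz⟩, rfl⟩
    · rw [hz, ← coeffMap_castSer f]
      exact (k⟮coeffMap f (jA M A)⟯⟮coeffMap f (theta A a q₀)⟯).algebraMap_mem
        ⟨_, IntermediateField.mem_adjoin_simple_self k _⟩
    · rw [hz]
      exact castSer_genSer_mem_adjoin hM f a h ⟨(d, e, g), hd, he, hg⟩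
  · rw [IntermediateField.adjoin_adjoin_left, IntermediateField.adjoin_le_iff]
    rintro z (rfl | rfl)
    · rw [jA, coeffMap_castSer]
      exact IntermediateField.subset_adjoin k _ ⟨_, Or.inl rfl, rfl⟩
    · exact coeffMap_theta_mem_fieldOneC hM f a

theorem exists_poly_phi :
    ∃ Φ : Polynomial k⟮coeffMap f (jA M A)⟯, Φ.map (algebraMap _ (LaurentSeries k)) =
      ∏ q, (X - C (coeffMap f (theta A a q))) := by
  obtain ⟨Q, hQ⟩ := exists_lift_phiA hM a
  refine ⟨Q.map ((Polynomial.aeval (R := k)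
    (⟨_, IntermediateField.mem_adjoin_simple_self k _⟩ : k⟮coeffMap f (jA M A)⟯)).toRingHom.comp
      (Polynomial.mapRingHom f)), ?_⟩
  have e : (phiA A a).map (coeffMap f) = ∏ q, (X - C (coeffMap f (theta A a q))) := by
    simp [phiA, Polynomial.map_prod]
  rw [← e, ← hQ, Polynomial.map_map, Polynomial.map_map]
  congr 1
  refine RingHom.ext fun q => ?_
  simp only [RingHom.comp_apply, AlgHom.toRingHom_eq_coe, RingHom.coe_coe,
    Polynomial.coe_mapRingHom, GoodRed.coeffMap_aeval]
  exact algebraMap_aeval_mk _ _ _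

/-- The monic relation of `theta`. -/
theorem exists_monic_phi :
    ∃ Φ : Polynomial k⟮coeffMap f (jA M A)⟯, Φ.Monic ∧
      Φ.natDegree = Fintype.card (PMOrb M) ∧
      Polynomial.aeval (coeffMap f (theta A a q₀)) Φ = 0 ∧
      (Function.Injective (fun q => coeffMap f (theta A a q)) → Φ.Separable) := by
  obtain ⟨Φ, hΦ⟩ := exists_poly_phi hM f a
  have hinj := (algebraMap k⟮coeffMap f (jA M A)⟯ (LaurentSeries k)).injective
  refine ⟨Φ, Polynomial.monic_of_injective hinj ?_, ?_, ?_, fun h => ?_⟩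
  · rw [hΦ]; exact monic_prod_of_monic _ _ fun q _ => monic_X_sub_C _
  · rw [← natDegree_map_eq_of_injective hinj, hΦ, natDegree_finsetProd_X_sub_C_eq_card,
      Finset.card_univ]
  · rw [Polynomial.aeval_def, ← Polynomial.eval_map, hΦ, eval_prod]
    exact Finset.prod_eq_zero (Finset.mem_univ q₀) (by simp)
  · rw [← Polynomial.separable_map (algebraMap k⟮coeffMap f (jA M A)⟯ (LaurentSeries k)), hΦ]
    exact separable_prod_X_sub_C_iff.2 h

end Field

omit [NeZero M] in
theorem coeffEmb_castSer (z : LaurentSeries ℤ) :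
    coeffEmb Qbar (castSer ℚ z) = castSer Qbar z := by
  rw [coeffEmb, castSer, castSer, coeffMap_coeffMap]
  exact coeffMap_congr (RingHom.ext_int _ _) z

variable (M) in
/-- The field over `ℚ̄` from the generators. -/
theorem K1_eq : K1 M = fieldOneC M Qbar := by
  refine le_antisymm (IntermediateField.adjoin_le_iff.2 ?_) (IntermediateField.adjoin_le_iff.2 ?_)
  · rintro _ ⟨y, hy, rfl⟩
    induction hy using IntermediateField.adjoin_induction with
    | mem z hz =>
      obtain ⟨w, hw, rfl⟩ := hz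
      rw [coeffEmb_castSer]
      exact IntermediateField.subset_adjoin _ _ ⟨w, hw, rfl⟩
    | algebraMap r =>
      rw [coeffEmb, algebraMap_laurentSeries_eq_single, coeffMap_single,
        ← algebraMap_laurentSeries_eq_single]
      exact IntermediateField.algebraMap_mem _ _
    | add u v _ _ hu hv => rw [map_add]; exact add_mem hu hv
    | inv u _ hu => rw [map_inv₀]; exact inv_mem hu
    | mul u v _ _ hu hv => rw [map_mul]; exact mul_mem hu hv
  · rintro _ ⟨w, hw, rfl⟩
    rw [← coeffEmb_castSer]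
    exact coeffEmb_mem_laurentBaseChange _ (IntermediateField.subset_adjoin ℚ _ ⟨w, hw, rfl⟩)

omit [NeZero M] in
theorem injective_of_injective_residue {Q : Type*} {th : Q → LaurentSeries A}
    (h : Function.Injective fun q => coeffMap (residue A) (th q)) :
    Function.Injective fun q => coeffMap A.subtype (th q) := fun q q' e => by
  refine h ?_
  show coeffMap (residue A) (th q) = coeffMap (residue A) (th q')
  rw [GoodRed.iotaL_injective (A := A) e]

theorem transcendental_castSer_jSer (k : Type) [Field k] :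
    Transcendental k (castSer k (jSer M)) := by
  rw [transcendental_iff_injective, jSer, castSer, coeffMap_qExpand, coeffMap_jqModC']
  exact Igusa.injective_aeval_qExpand_jqModC (k := k) M

/-- Every element of the reduced field lifts to a quotient of integral series. -/
theorem exists_lift_quot {z : LaurentSeries (ResidueField A)}
    (hz : z ∈ fieldOneC M (ResidueField A)) :
    ∃ (a b : LaurentSeries A) (_ : coeffMap (residue A) b ≠ 0),
      GoodRed.iotaL A a / GoodRed.iotaL A b ∈ K1 M ∧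
        z * coeffMap (residue A) b = coeffMap (residue A) a := by
  induction hz using IntermediateField.adjoin_induction with
  | mem w hw =>
    obtain ⟨g, hg, rfl⟩ := hw
    refine ⟨castSer A g, 1, by rw [map_one]; exact one_ne_zero, ?_, ?_⟩
    · rw [map_one, div_one, GoodRed.iotaL, coeffMap_castSer, K1_eq M]
      exact IntermediateField.subset_adjoin _ _ ⟨g, hg, rfl⟩
    · rw [map_one, mul_one, coeffMap_castSer]
  | algebraMap r =>
    obtain ⟨r, rfl⟩ := residue_surjective r
    refine ⟨algebraMap A _ r, 1, by rw [map_one]; exact one_ne_zero, ?_, ?_⟩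
    · rw [map_one, div_one, GoodRed.iotaL, GoodRed.coeffMap_algebraMap_laurent]
      exact IntermediateField.algebraMap_mem _ _
    · rw [map_one, mul_one, GoodRed.coeffMap_algebraMap_laurent]
  | add u v _ _ hu hv =>
    obtain ⟨a, b, hb, hab, hu⟩ := hu
    obtain ⟨a', b', hb', hab', hv⟩ := hv
    have hne : ∀ {w : LaurentSeries A}, coeffMap (residue A) w ≠ 0 → GoodRed.iotaL A w ≠ 0 :=
      fun hw h => hw (by rw [GoodRed.iotaL_injective (h.trans (map_zero _).symm), map_zero])
    refine ⟨a * b' + a' * b, b * b', by rw [map_mul]; exact mul_ne_zero hb hb', ?_, ?_⟩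
    · rw [map_add, map_mul, map_mul, map_mul,
        mul_comm (GoodRed.iotaL A a') (GoodRed.iotaL A b), ← div_add_div _ _ (hne hb) (hne hb')]
      exact add_mem hab hab'
    · rw [map_add, map_mul, map_mul, map_mul, ← hu, ← hv]; ring
  | inv u _ hu =>
    obtain ⟨a, b, hb, hab, hu⟩ := hu
    rcases eq_or_ne u 0 with rfl | hu0
    · exact ⟨0, 1, by rw [map_one]; exact one_ne_zero, by simp, by simp⟩
    refine ⟨b, a, by rw [← hu]; exact mul_ne_zero hu0 hb, ?_, ?_⟩
    · rw [← inv_div]; exact inv_mem hab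
    · rw [← hu, inv_mul_cancel_left₀ hu0]
  | mul u v _ _ hu hv =>
    obtain ⟨a, b, hb, hab, hu⟩ := hu
    obtain ⟨a', b', hb', hab', hv⟩ := hv
    refine ⟨a * a', b * b', by rw [map_mul]; exact mul_ne_zero hb hb', ?_, ?_⟩
    · rw [map_mul, map_mul, mul_div_mul_comm]; exact mul_mem hab hab'
    · rw [map_mul, map_mul, ← hu, ← hv]; ring

theorem exists_mkSL_unit (u : (ZMod M)ˣ) :
    ∃ γ : SL(2, ℤ), vmul γ ((1 : ZMod M), (0 : ZMod M)) = ((u : ZMod M), 0) := by
  have hg : Nat.gcd (u : ZMod M).val M = 1 := ZMod.val_coe_unit_coprime u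
  have hb := Nat.gcd_eq_gcd_ab (u : ZMod M).val M
  rw [hg, Nat.cast_one] at hb
  refine ⟨mkSL ((u : ZMod M).val : ℤ) (M : ℤ) (-Nat.gcdB (u : ZMod M).val M)
    (Nat.gcdA (u : ZMod M).val M) (by linear_combination -hb), ?_⟩
  simp [vmul, mkSL]

/-- A map on generators extends to the generated field. -/
theorem map_mem_of_adjoin {k F : Type*} [Field k] [Field F] [Algebra k F] (S : Set F)
    (φ : IntermediateField.adjoin k S →ₐ[k] F) (K : IntermediateField k F)
    (h : ∀ x (hx : x ∈ S), φ ⟨x, IntermediateField.subset_adjoin k S hx⟩ ∈ K)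
    (z : IntermediateField.adjoin k S) : φ z ∈ K := by
  obtain ⟨z, hz⟩ := z
  induction hz using IntermediateField.adjoin_induction with
  | mem x hx => exact h x hx
  | algebraMap r => exact (φ.commutes r).symm ▸ K.algebraMap_mem r
  | add x y hx hy ix iy => exact (map_add φ ⟨x, hx⟩ ⟨y, hy⟩).symm ▸ add_mem ix iy
  | inv x hx ix => exact (map_inv₀ φ ⟨x, hx⟩).symm ▸ inv_mem ix
  | mul x y hx hy ix iy => exact (map_mul φ ⟨x, hx⟩ ⟨y, hy⟩).symm ▸ mul_mem ix iy

/-- Endomorphisms fixing the generators fix the generated field. -/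
theorem eq_self_of_gens {k F : Type*} [Field k] [Field F] [Algebra k F] (S : Set F)
    (φ : IntermediateField.adjoin k S →ₐ[k] IntermediateField.adjoin k S)
    (h : ∀ x (hx : x ∈ S), (φ ⟨x, IntermediateField.subset_adjoin k S hx⟩ : F) = x)
    (z : IntermediateField.adjoin k S) : φ z = z := by
  obtain ⟨z, hz⟩ := z
  induction hz using IntermediateField.adjoin_induction with
  | mem x hx => exact Subtype.ext (h x hx)
  | algebraMap r => exact φ.commutes r
  | add x y hx hy ix iy =>
    exact (map_add φ ⟨x, hx⟩ ⟨y, hy⟩).trans ((congrArg₂ (· + ·) ix iy).trans rfl)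
  | inv x hx ix =>
    exact (map_inv₀ φ ⟨x, hx⟩).trans ((congrArg Inv.inv ix).trans rfl)
  | mul x y hx hy ix iy =>
    exact (map_mul φ ⟨x, hx⟩ ⟨y, hy⟩).trans ((congrArg₂ (· * ·) ix iy).trans rfl)

/-- Multiplication of a triple by a unit. -/
def tmul (u : (ZMod M)ˣ) (t : GTriple M) : GTriple M :=
  ⟨((u : ZMod M) * t.1.1, (u : ZMod M) * t.1.2.1, (u : ZMod M) * t.1.2.2),
    fun e => t.2.1 (u.mul_right_eq_zero.1 e), fun e => t.2.2.1 (u.mul_right_eq_zero.1 e),
    fun e => t.2.2.2 (u.mul_right_eq_zero.1 e)⟩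

theorem act_idxOf_v₀ {γ : SL(2, ℤ)} {u : (ZMod M)ˣ}
    (hγ : vmul γ ((1 : ZMod M), (0 : ZMod M)) = ((u : ZMod M), 0)) (t : GTriple M) :
    act γ (idxOf v₀ t) = idxOf v₀ (tmul u t) := by
  have hv : ∀ x : ZMod M, smulV x (actOrb γ v₀).1 = smulV ((u : ZMod M) * x) v₀.1 := fun x => by
    simp [smulV, actOrb, v₀, hγ, mul_comm]
  rw [act_idxOf]
  simp only [idxOf, hv]
  rfl

theorem yK_idxOf_v₀ (t : GTriple M) :
    yK M A (idxOf v₀ t) = castSer (ResidueField A) (genSer M t.1.1 t.1.2.1 t.1.2.2) :=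
  ser_idxOf_v₀ _ t

theorem fieldOneC_le_fullField : fieldOneC M (ResidueField A) ≤ fullField M A := by
  refine IntermediateField.adjoin_le_iff.2 ?_
  rintro _ ⟨z, hz | ⟨d, e, g, hd, he, hg, hz⟩, rfl⟩
  · rw [hz]; exact jK_mem M A
  · rw [hz]; exact (yK_idxOf_v₀ ⟨(d, e, g), hd, he, hg⟩) ▸ yK_mem M A _

variable {p : ℕ} [Fact p.Prime] (hA : A.LiesOverPrime p) (hpM : ¬ p ∣ M)

include hM hA hpM

/-- The diamond substitution as a homomorphism into the series. -/
theorem exists_diaVal (u : (ZMod M)ˣ) :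
    ∃ ψ : fieldOneC M (ResidueField A) →ₐ[ResidueField A] LaurentSeries (ResidueField A),
      (∀ (t : GTriple M) (h : castSer (ResidueField A) (genSer M t.1.1 t.1.2.1 t.1.2.2) ∈
          fieldOneC M (ResidueField A)),
        ψ ⟨_, h⟩ = castSer (ResidueField A)
          (genSer M (tmul u t).1.1 (tmul u t).1.2.1 (tmul u t).1.2.2)) ∧
      ∀ h : castSer (ResidueField A) (jSer M) ∈ fieldOneC M (ResidueField A),
        ψ ⟨_, h⟩ = castSer (ResidueField A) (jSer M) := by
  obtain ⟨γ, hγ⟩ := exists_mkSL_unit u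
  obtain ⟨φ, hφJ, hφy⟩ := exists_extends hM hA hpM γ
  refine ⟨((fullField M A).val.comp φ).comp (IntermediateField.inclusion fieldOneC_le_fullField),
    fun t h => ?_, fun h => hφJ⟩
  have h2 := (hφy (idxOf v₀ t)).trans
    ((congrArg (yK M A) (act_idxOf_v₀ hγ t)).trans (yK_idxOf_v₀ _))
  refine Eq.trans ?_ h2
  exact congrArg (fun z => ((φ z : fullField M A) : LaurentSeries (ResidueField A)))
    (Subtype.ext (yK_idxOf_v₀ t).symm)

/-- The diamond endomorphism. -/
theorem exists_diaHom (u : (ZMod M)ˣ) :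
    ∃ φ : fieldOneC M (ResidueField A) →ₐ[ResidueField A] fieldOneC M (ResidueField A),
      (∀ (d e f : ZMod M) (h : castSer (ResidueField A) (genSer M d e f) ∈
          fieldOneC M (ResidueField A)), d ≠ 0 → e ≠ 0 → f ≠ 0 →
        (φ ⟨_, h⟩ : LaurentSeries (ResidueField A)) =
          castSer (ResidueField A) (genSer M ((u : ZMod M) * d) ((u : ZMod M) * e)
            ((u : ZMod M) * f))) ∧
      ∀ h : castSer (ResidueField A) (jSer M) ∈ fieldOneC M (ResidueField A),
        (φ ⟨_, h⟩ : LaurentSeries (ResidueField A)) = castSer (ResidueField A) (jSer M) := by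
  obtain ⟨ψ, hψ, hψJ⟩ := exists_diaVal hM hA hpM u
  have mm : ∀ {a b : LaurentSeries (ResidueField A)}, a = b →
      b ∈ fieldOneC M (ResidueField A) → a ∈ fieldOneC M (ResidueField A) := fun e h => e ▸ h
  have hmem : ∀ z, ψ z ∈ fieldOneC M (ResidueField A) := by
    refine map_mem_of_adjoin _ ψ _ ?_
    rintro _ ⟨z, hz | ⟨d, e, g, hd, he, hg, hz⟩, rfl⟩
    · subst hz
      exact mm (hψJ _) (IntermediateField.subset_adjoin _ _ ⟨_, Or.inl rfl, rfl⟩)
    · subst hz
      refine mm (hψ ⟨(d, e, g), hd, he, hg⟩ _) ?_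
      exact IntermediateField.subset_adjoin _ _ ⟨_, Or.inr
        ⟨_, _, _, (tmul u ⟨(d, e, g), hd, he, hg⟩).2.1, (tmul u ⟨(d, e, g), hd, he, hg⟩).2.2.1,
          (tmul u ⟨(d, e, g), hd, he, hg⟩).2.2.2, rfl⟩, rfl⟩
  exact ⟨ψ.codRestrict (fieldOneC M (ResidueField A)).toSubalgebra hmem,
    fun d e f h hd he hf => hψ ⟨(d, e, f), hd, he, hf⟩ h, hψJ⟩

end RedGal

section Exports

variable {M : ℕ} [NeZero M] {A : ValuationSubring (AlgebraicClosure ℚ)} {p : ℕ} [Fact p.Prime]
  (hA : A.LiesOverPrime p) (hpM : ¬ p ∣ M)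

include hA hpM

/-- **Gauss basis of the field of level `Γ₁(M)` over `j (Mτ)`.** -/
theorem exists_gaussBasisOne (hM7 : 7 ≤ M) :
    ∃ n, 0 < n ∧ ∃ G : GoodRed.GaussBasis (residue A) (K1 M) (fieldOneC M (ResidueField A)) n,
      G.x = coeffMap (Int.castRingHom A) (jSer M) := by
  classical
  have hM := GoodRed.natCast_residue_ne_zero hA hpM
  obtain ⟨a, ha⟩ := exists_separating hM hA hpM hM7
  have hb := injective_of_injective_residue ha
  have hK : ∀ {y}, y ∈ fieldOneC M Qbar → y ∈ K1 M := fun h => by rw [K1_eq M]; exact h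
  have hxb : coeffMap (residue A) (jA M A) = castSer (ResidueField A) (jSer M) :=
    coeffMap_castSer _ _
  have hx : coeffMap A.subtype (jA M A) = castSer Qbar (jSer M) := coeffMap_castSer _ _
  refine ⟨Fintype.card (PMOrb M), Fintype.card_pos,
    ⟨jA M A, fun i => theta A a q₀ ^ (i : ℕ), ?_, ?_, fun i => ?_, fun i => ?_, ?_, ?_, ?_, ?_⟩,
    rfl⟩
  · refine hK ?_
    rw [GoodRed.iotaL, hx]
    exact IntermediateField.subset_adjoin _ _ ⟨_, Or.inl rfl, rfl⟩
  · rw [hxb]
    exact IntermediateField.subset_adjoin _ _ ⟨_, Or.inl rfl, rfl⟩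
  · rw [map_pow]
    exact pow_mem (hK (coeffMap_theta_mem_fieldOneC hM A.subtype a)) _
  · rw [map_pow]
    exact pow_mem (coeffMap_theta_mem_fieldOneC hM (residue A) a) _
  · rw [hxb]
    exact transcendental_castSer_jSer _
  · intro pl hpl
    refine indep_theta hM hA hpM a ha pl ?_
    rw [← coeffMap_residue_jA]
    simpa only [map_pow] using hpl
  · intro y hy
    rw [K1_eq M, fieldOneC_eq hM A.subtype a hb] at hy
    obtain ⟨Φ, hΦm, hΦd, hΦ0, -⟩ := exists_monic_phi hM A.subtype a
    have htr : Transcendental Qbar (coeffMap A.subtype (jA M A)) := by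
      rw [hx]; exact transcendental_castSer_jSer _
    obtain ⟨pl, q, hq, he⟩ := exists_span_pow htr Φ hΦm hΦd Fintype.card_ne_zero hΦ0 hy
    refine ⟨pl, q, hq, ?_⟩
    simp only [GoodRed.iotaL, map_pow]
    exact he
  · intro z hz
    exact exists_lift_quot hz

/-- The reduced field of level `Γ₁(M)` is separable over `κ (j̄)`. -/
theorem isSeparable_fieldOneC (hM7 : 7 ≤ M) :
    ∃ T : IntermediateField (ResidueField A)⟮castSer (ResidueField A) (jSer M)⟯
        (LaurentSeries (ResidueField A)),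
      fieldOneC M (ResidueField A) = T.restrictScalars (ResidueField A) ∧
        Algebra.IsSeparable (ResidueField A)⟮castSer (ResidueField A) (jSer M)⟯ T := by
  have hM := GoodRed.natCast_residue_ne_zero hA hpM
  obtain ⟨a, ha⟩ := exists_separating hM hA hpM hM7
  suffices ∀ x, coeffMap (residue A) (jA M A) = x →
      ∃ T : IntermediateField (ResidueField A)⟮x⟯ (LaurentSeries (ResidueField A)),
        fieldOneC M (ResidueField A) = T.restrictScalars (ResidueField A) ∧
          Algebra.IsSeparable (ResidueField A)⟮x⟯ T from this _ (coeffMap_castSer _ _)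
  rintro x rfl
  refine ⟨_, fieldOneC_eq hM (residue A) a ha, ?_⟩
  obtain ⟨Φ, -, -, hΦ0, hΦs⟩ := exists_monic_phi hM (residue A) a
  exact IntermediateField.isSeparable_adjoin_simple_iff_isSeparable _ _ |>.2
    ((hΦs ha).of_dvd (minpoly.dvd _ _ hΦ0))

/-- **Diamond automorphisms of the reduced field.** -/
theorem exists_diaRed (u : (ZMod M)ˣ) :
    ∃ φ : fieldOneC M (ResidueField A) ≃ₐ[ResidueField A] fieldOneC M (ResidueField A),
      (∀ (d e f : ZMod M) (h : castSer (ResidueField A) (genSer M d e f) ∈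
          fieldOneC M (ResidueField A)), d ≠ 0 → e ≠ 0 → f ≠ 0 →
        (φ ⟨_, h⟩ : LaurentSeries (ResidueField A)) =
          castSer (ResidueField A) (genSer M ((u : ZMod M) * d) ((u : ZMod M) * e)
            ((u : ZMod M) * f))) ∧
      ∀ h : castSer (ResidueField A) (jSer M) ∈ fieldOneC M (ResidueField A),
        (φ ⟨_, h⟩ : LaurentSeries (ResidueField A)) = castSer (ResidueField A) (jSer M) := by
  have hM := GoodRed.natCast_residue_ne_zero hA hpM
  obtain ⟨φ, hφ, hφJ⟩ := exists_diaHom hM hA hpM u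
  obtain ⟨ψ, hψ, hψJ⟩ := exists_diaHom hM hA hpM u⁻¹
  have hcomp : ∀ (v w : (ZMod M)ˣ) (α β : fieldOneC M (ResidueField A) →ₐ[ResidueField A]
      fieldOneC M (ResidueField A)), (v : ZMod M) * w = 1 →
      (∀ (d e f : ZMod M) (h : castSer (ResidueField A) (genSer M d e f) ∈
          fieldOneC M (ResidueField A)), d ≠ 0 → e ≠ 0 → f ≠ 0 →
        (α ⟨_, h⟩ : LaurentSeries (ResidueField A)) =
          castSer (ResidueField A) (genSer M ((v : ZMod M) * d) ((v : ZMod M) * e)
            ((v : ZMod M) * f))) →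
      (∀ h : castSer (ResidueField A) (jSer M) ∈ fieldOneC M (ResidueField A),
        (α ⟨_, h⟩ : LaurentSeries (ResidueField A)) = castSer (ResidueField A) (jSer M)) →
      (∀ (d e f : ZMod M) (h : castSer (ResidueField A) (genSer M d e f) ∈
          fieldOneC M (ResidueField A)), d ≠ 0 → e ≠ 0 → f ≠ 0 →
        (β ⟨_, h⟩ : LaurentSeries (ResidueField A)) =
          castSer (ResidueField A) (genSer M ((w : ZMod M) * d) ((w : ZMod M) * e)
            ((w : ZMod M) * f))) →
      (∀ h : castSer (ResidueField A) (jSer M) ∈ fieldOneC M (ResidueField A),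
        (β ⟨_, h⟩ : LaurentSeries (ResidueField A)) = castSer (ResidueField A) (jSer M)) →
      ∀ z, α (β z) = z := by
    intro v w α β hvw hα hαJ hβ hβJ
    refine eq_self_of_gens _ (α.comp β) ?_
    rintro _ ⟨z, hz | ⟨d, e, g, hd, he, hg, hz⟩, rfl⟩
    · subst hz
      have hmem : castSer (ResidueField A) (jSer M) ∈ fieldOneC M (ResidueField A) :=
        IntermediateField.subset_adjoin _ _ ⟨_, Or.inl rfl, rfl⟩
      show ((α (β ⟨_, hmem⟩) : fieldOneC M (ResidueField A)) :
        LaurentSeries (ResidueField A)) = _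
      rw [show β ⟨_, hmem⟩ = ⟨_, hmem⟩ from Subtype.ext (hβJ hmem)]
      exact hαJ hmem
    · subst hz
      have hne : ∀ x : ZMod M, x ≠ 0 → (w : ZMod M) * x ≠ 0 := fun x hx e0 =>
        hx (w.mul_right_eq_zero.1 e0)
      have hmem : castSer (ResidueField A) (genSer M d e g) ∈ fieldOneC M (ResidueField A) :=
        IntermediateField.subset_adjoin _ _ ⟨_, Or.inr ⟨d, e, g, hd, he, hg, rfl⟩, rfl⟩
      have hmem' : castSer (ResidueField A) (genSer M ((w : ZMod M) * d) ((w : ZMod M) * e)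
          ((w : ZMod M) * g)) ∈ fieldOneC M (ResidueField A) :=
        IntermediateField.subset_adjoin _ _
          ⟨_, Or.inr ⟨_, _, _, hne d hd, hne e he, hne g hg, rfl⟩, rfl⟩
      show ((α (β ⟨_, hmem⟩) : fieldOneC M (ResidueField A)) :
        LaurentSeries (ResidueField A)) = _
      rw [show β ⟨_, hmem⟩ = ⟨_, hmem'⟩ from Subtype.ext (hβ d e g hmem hd he hg),
        hα _ _ _ hmem' (hne d hd) (hne e he) (hne g hg), ← mul_assoc, ← mul_assoc, ← mul_assoc,
        hvw, one_mul, one_mul, one_mul]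
  refine ⟨AlgEquiv.ofAlgHom φ ψ (AlgHom.ext fun z => ?_) (AlgHom.ext fun z => ?_), hφ, hφJ⟩
  · exact hcomp u u⁻¹ φ ψ u.mul_inv hφ hφJ hψ hψJ z
  · exact hcomp u⁻¹ u ψ φ u.inv_mul hψ hψJ hφ hφJ z

end Exports

end FLTAgent.DS
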