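import Fermat.Agent.DS.Geom.RedCoord
import Fermat.Agent.DS.Geom.RedOne
import Fermat.Agent.GoodRed.SmallPrime.Main

/-!
# Equality of genus for the field of level `Γ₁(M)` at a place `A` over `p ∤ M`

At `p ≥ 5` with the coordinate `j (M τ)`; at `p = 3` with `2 ∣ M`, at `p = 2` with `3 ∣ M` with the
coordinates of levels two and three.
-/

set_option autoImplicit false
set_option linter.unusedSectionVars false
set_option synthInstance.maxHeartbeats 100000

noncomputable section

open Polynomial ModularCurve IsLocalRing AlgebraicCurve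
open scoped IntermediateField

namespace FLTAgent.DS

open FLTAgent.FunctionField GoodRed

local notation "Qbar" => AlgebraicClosure ℚ

variable {M : ℕ} [NeZero M] {A : ValuationSubring (AlgebraicClosure ℚ)} {p : ℕ} [Fact p.Prime]
  (hA : A.LiesOverPrime p) (hpM : ¬ p ∣ M) (hM : 7 ≤ M)

/-- The size of the Gauss basis. -/
def oneDeg : ℕ := (exists_gaussBasisOne hA hpM hM).choose

/-- The Gauss basis of level `Γ₁(M)`. -/
def oneBasis : GaussBasis (residue A) (K1 M) (fieldOneC M (ResidueField A)) (oneDeg hA hpM hM) :=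
  (exists_gaussBasisOne hA hpM hM).choose_spec.2.choose

theorem oneBasis_x : (oneBasis hA hpM hM).x = coeffMap (Int.castRingHom A) (jSer M) :=
  (exists_gaussBasisOne hA hpM hM).choose_spec.2.choose_spec

/-- The Gauss reduction datum of level `Γ₁(M)`. -/
abbrev oneDatum : RedDatum A (residue A) (K1 M) (fieldOneC M (ResidueField A)) :=
  (oneBasis hA hpM hM).datum (isResidueMap_residue A)

theorem coe_oneJ : (((oneBasis hA hpM hM).xF : K1 M) : LaurentSeries Qbar) =
    castSer Qbar (jSer M) := by
  show iotaL A (oneBasis hA hpM hM).x = _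
  rw [oneBasis_x]
  exact iotaL_intA A (jSer M)

theorem coe_oneJb :
    (((oneBasis hA hpM hM).xbF : fieldOneC M (ResidueField A)) : LaurentSeries (ResidueField A)) =
      castSer (ResidueField A) (jSer M) := by
  show coeffMap (residue A) (oneBasis hA hpM hM).x = _
  rw [oneBasis_x]
  exact residue_intA A (jSer M)

include hA hpM hM in
theorem isFunctionField_fieldOneC :
    IsFunctionField (ResidueField A) (fieldOneC M (ResidueField A)) :=
  (oneBasis hA hpM hM).isFunctionField_residue (isResidueMap_residue A)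

theorem isSeparable_oneJb : Algebra.IsSeparable (ResidueField A)⟮(oneBasis hA hpM hM).xbF⟯
    (fieldOneC M (ResidueField A)) := by
  obtain ⟨T, hT, hsep⟩ := isSeparable_fieldOneC hA hpM hM
  exact isSeparable_adjoin_transport _ (coe_oneJb hA hpM hM) T hT hsep

include hA hpM hM in
/-- Equality of genus at `p ≥ 5`. -/
theorem genusFF_eq_one_of_five_le (hp : 5 ≤ p) :
    genusFF Qbar (K1 M) = genusFF (ResidueField A) (fieldOneC M (ResidueField A)) := by
  classical
  have := (levelFacts (M := M) hM).isFunctionField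
  have := isFunctionField_fieldOneC hA hpM hM
  have := isAlgClosed_residue A
  refine genusFF_eq_of_coordinate (D := oneDatum hA hpM hM)
    ((oneBasis hA hpM hM).red_xF (isResidueMap_residue A)) (oneBasis hA hpM hM).transcendental_xbF
    ((oneBasis hA hpM hM).noDefect (isResidueMap_residue A)) (isSeparable_oneJb hA hpM hM)
    {0, 1728} ?_ ?_
  · have h1728 : (1728 : ResidueField A) ≠ 0 := by
      have hpp : p.Prime := Fact.out
      have h : ¬ p ∣ 1728 := fun h => by
        rw [show 1728 = 2 ^ 6 * 3 ^ 3 by norm_num] at h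
        rcases hpp.dvd_mul.1 h with h | h
        · have := Nat.le_of_dvd (by norm_num) (hpp.dvd_of_dvd_pow h); omega
        · have := Nat.le_of_dvd (by norm_num) (hpp.dvd_of_dvd_pow h); omega
      exact_mod_cast GoodRed.natCast_residue_ne_zero hA h
    have := SmallPrime.injOn_residue_pair A (b := 1728) (by rwa [map_ofNat])
    exact this
  · intro a ha v hv
    refine (levelFacts (M := M) hM).ord_sub_eq_one _ (coe_oneJ hA hpM hM) a ?_ ?_ v hv
    · exact fun h => ha 0 (by simp) (by simp [h])
    · exact fun h => ha 1728 (by simp) (by rw [h]; exact map_ofNat A.subtype 1728)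

include hA hpM hM in
/-- Equality of genus from a coordinate of which `j (M τ)` is a rational function. -/
theorem genusFF_eq_one_of_series {z : LaurentSeries ℤ} (hz : Igusa.intToRat z ∈ fieldOne M)
    {P Q : Qbar[X]} {Pb Qb : (ResidueField A)[X]} (hPQ : IsCoprime P Q) (hPQb : IsCoprime Pb Qb)
    (hdeg : Q.natDegree < P.natDegree) (hdegb : Qb.natDegree < Pb.natDegree)
    (hPd : Pb.natDegree = P.natDegree)
    (hy : castSer Qbar (jSer M) * aeval (castSer Qbar z) Q = aeval (castSer Qbar z) P)
    (hyb : castSer (ResidueField A) (jSer M) * aeval (castSer (ResidueField A) z) Qb =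
      aeval (castSer (ResidueField A) z) Pb)
    (S : Finset A) (hS : Set.InjOn (residue A) S)
    (hroot : ∀ a : Qbar, (∀ s ∈ S, (s : Qbar) ≠ a) → Q.eval a ≠ 0 ∧
      ∃ (α : Qbar) (m : ℕ), 0 < m ∧ (X - C a) ^ m ∣ P - C α * Q ∧
        ((α = 0 ∧ m = 3) ∨ (α = 1728 ∧ m = 2) ∨ (α ≠ 0 ∧ α ≠ 1728 ∧ m = 1))) :
    genusFF Qbar (K1 M) = genusFF (ResidueField A) (fieldOneC M (ResidueField A)) := by
  classical
  have := (levelFacts (M := M) hM).isFunctionField
  have := isFunctionField_fieldOneC hA hpM hM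
  have := isAlgClosed_residue A
  set G := oneBasis hA hpM hM
  have hπ := isResidueMap_residue A
  have hzF : iotaL A (intA A z) ∈ K1 M := by
    rw [iotaL_intA, show coeffMap (Int.castRingHom Qbar) z = coeffEmb Qbar (Igusa.intToRat z) from by
      rw [coeffEmb, Igusa.intToRat, coeffMap_coeffMap]
      exact coeffMap_congr (RingHom.ext_int _ _) _]
    exact coeffEmb_mem_laurentBaseChange _ hz
  have hzb : coeffMap (residue A) (intA A z) ∈ fieldOneC M (ResidueField A) := by
    have := G.value_mem hπ (y := ⟨_, hzF⟩) (a := intA A z) (b := 1)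
      ⟨by rw [map_one]; exact one_ne_zero, by rw [map_one, mul_one]⟩
    rwa [map_one, div_one] at this
  set x : K1 M := ⟨_, hzF⟩
  set xb : fieldOneC M (ResidueField A) := ⟨_, hzb⟩
  have hred : (oneDatum hA hpM hM).Red x xb := G.red_of_series hπ rfl rfl
  have hjb : Transcendental (ResidueField A) G.xbF := G.transcendental_xbF
  have hj : Transcendental Qbar G.xF := G.transcendental_xF hπ
  have hy' : G.xF * aeval x Q = aeval x P := by
    refine Subtype.ext ?_
    show (G.xF : LaurentSeries Qbar) * (K1 M).val (aeval x Q) = (K1 M).val (aeval x P)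
    rw [← aeval_algHom_apply (K1 M).val x Q, ← aeval_algHom_apply (K1 M).val x P]
    show (G.xF : LaurentSeries Qbar) * aeval (iotaL A (intA A z)) Q = aeval (iotaL A (intA A z)) P
    rw [coe_oneJ hA hpM hM, iotaL_intA]
    exact hy
  have hyb' : G.xbF * aeval xb Qb = aeval xb Pb := by
    refine Subtype.ext ?_
    show (G.xbF : LaurentSeries (ResidueField A)) *
        (fieldOneC M (ResidueField A)).val (aeval xb Qb) =
      (fieldOneC M (ResidueField A)).val (aeval xb Pb)
    rw [← aeval_algHom_apply (fieldOneC M (ResidueField A)).val xb Qb,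
      ← aeval_algHom_apply (fieldOneC M (ResidueField A)).val xb Pb]
    show (G.xbF : LaurentSeries (ResidueField A)) * aeval (coeffMap (residue A) (intA A z)) Qb =
      aeval (coeffMap (residue A) (intA A z)) Pb
    rw [coe_oneJb hA hpM hM, residue_intA]
    exact hyb
  have hx : Transcendental Qbar x := SmallPrime.transcendental_of_equation hj hPQ hy'
  have hxb : Transcendental (ResidueField A) xb :=
    SmallPrime.transcendental_of_equation hjb hPQb hyb'
  refine genusFF_eq_of_coordinate hred hxb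
    (SmallPrime.noDefect_of_equation hx hxb hPQ hPQb hdeg hdegb hPd hy' hyb' (G.noDefect hπ))
    (SmallPrime.isSeparable_adjoin_of_equation hxb (SmallPrime.den_ne_zero hPQb hdegb) hyb'
      (isSeparable_oneJb hA hpM hM)) S hS ?_
  intro a ha v hv
  obtain ⟨hQa, α, m, hm, hdvd, hcases⟩ := hroot a ha
  refine SmallPrime.ord_eq_one_of_pow_dvd hx hdeg hy' hm hQa hdvd hv fun hpos => ?_
  obtain ⟨h3, h2, h1⟩ := ord_sub_le_cases hM G.xF (coe_oneJ hA hpM hM) α v hpos
  rcases hcases with ⟨h, rfl⟩ | ⟨h, rfl⟩ | ⟨h0, h', rfl⟩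
  · exact h3 h
  · exact h2 h
  · exact h1 h0 h'

include hA hpM hM in
/-- Equality of genus at `3` for even level. -/
theorem genusFF_eq_one_three (hp : p = 3) (h2 : 2 ∣ M) :
    genusFF Qbar (K1 M) = genusFF (ResidueField A) (fieldOneC M (ResidueField A)) := by
  classical
  subst hp
  obtain ⟨m, hm⟩ := h2
  rw [mul_comm] at hm
  have : NeZero m := ⟨fun h => NeZero.ne M (by rw [hm, h, zero_mul])⟩
  have h16 : ((16 : ℕ) : ResidueField A) ≠ 0 := SmallPrime.ofNat_residue_ne_zero A hA (by norm_num)
  have h64 : ((64 : ℕ) : ResidueField A) ≠ 0 := SmallPrime.ofNat_residue_ne_zero A hA (by norm_num)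
  have hd : ∀ (K : Type) [Field K] (c : K), ((X + C c) ^ 3 : K[X]).natDegree = 3 :=
    fun K _ c => by rw [natDegree_pow, natDegree_X_add_C]
  have heq : ∀ (R : Type) [CommRing R],
      castSer R (jSer M) * castSer R (qExpand ℤ m SmallPrime.hauptTwo) =
        (castSer R (qExpand ℤ m SmallPrime.hauptTwo) + 16) ^ 3 := fun R _ => by
    have h := congrArg (castSer R) (jSer_mul_hauptTwo hm)
    simpa only [map_mul, map_pow, map_add, map_ofNat] using h
  refine genusFF_eq_one_of_series hA hpM hM (z := qExpand ℤ m SmallPrime.hauptTwo)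
    (intToRat_qExpand_mem_fieldOne hM hm (SmallPrime.intToRat_hauptTwo_mem dvd_rfl))
    (P := (X + C 16) ^ 3) (Q := X) (Pb := (X + C 16) ^ 3) (Qb := X)
    (SmallPrime.isCoprime_X_add_C_X (by norm_num)).pow_left
    (SmallPrime.isCoprime_X_add_C_X (by exact_mod_cast h16)).pow_left
    (by rw [hd _ (16 : Qbar), natDegree_X]; norm_num)
    (by rw [hd _ (16 : ResidueField A), natDegree_X]; norm_num)
    (by rw [hd _ (16 : Qbar), hd _ (16 : ResidueField A)]) ?_ ?_ {0, -64} ?_ ?_
  · simp only [map_pow, map_add, aeval_X, aeval_C, map_ofNat]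
    exact heq Qbar
  · simp only [map_pow, map_add, aeval_X, aeval_C, map_ofNat]
    exact heq (ResidueField A)
  · refine SmallPrime.injOn_residue_pair A ?_
    rw [map_neg, map_ofNat, neg_ne_zero]
    exact_mod_cast h64
  intro a ha
  have ha0 : a ≠ 0 := fun h => ha 0 (by simp) (by simp [h])
  have ha64 : a + 64 ≠ 0 := fun h => ha (-64) (by simp) (by
    show A.subtype (-64) = a
    rw [map_neg, map_ofNat]
    linear_combination -h)
  refine ⟨by simpa using ha0, ?_⟩
  set α := (a + 16) ^ 3 / a with hα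
  have hαQ : (a + 16) ^ 3 = α * a := by rw [hα, div_mul_cancel₀ _ ha0]
  by_cases h0 : α = 0
  · refine ⟨α, 3, by norm_num, ?_, Or.inl ⟨h0, rfl⟩⟩
    have h : a = -16 := by
      rw [h0, zero_mul] at hαQ
      exact eq_neg_of_add_eq_zero_left (eq_zero_of_pow_eq_zero hαQ)
    rw [h0, h, map_zero, zero_mul, sub_zero, map_neg, sub_neg_eq_add]
  by_cases h1 : α = 1728
  · refine ⟨α, 2, by norm_num, ⟨X + C 64, ?_⟩, Or.inr (Or.inl ⟨h1, rfl⟩)⟩
    have h : (a - 8) ^ 2 * (a + 64) = 0 := by rw [h1] at hαQ; linear_combination hαQ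
    have h' : a = 8 := sub_eq_zero.1
      (eq_zero_of_pow_eq_zero ((mul_eq_zero.1 h).resolve_right ha64))
    rw [h1, h']
    simp only [map_ofNat]
    ring
  exact ⟨α, 1, one_pos, SmallPrime.dvd_sub_of_eval_eq_zero (by simp [hαQ]),
    Or.inr (Or.inr ⟨h0, h1, rfl⟩)⟩

include hA hpM hM in
/-- Equality of genus at `2` for level divisible by `3`. -/
theorem genusFF_eq_one_two (hp : p = 2) (h3 : 3 ∣ M) :
    genusFF Qbar (K1 M) = genusFF (ResidueField A) (fieldOneC M (ResidueField A)) := by
  classical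
  subst hp
  obtain ⟨m, hm⟩ := h3
  rw [mul_comm] at hm
  have : NeZero m := ⟨fun h => NeZero.ne M (by rw [hm, h, zero_mul])⟩
  have h27 : ((27 : ℕ) : ResidueField A) ≠ 0 := SmallPrime.ofNat_residue_ne_zero A hA (by norm_num)
  have h3' : ((3 : ℕ) : ResidueField A) ≠ 0 := SmallPrime.ofNat_residue_ne_zero A hA (by norm_num)
  have hd : ∀ (K : Type) [Field K] (c d : K),
      ((X + C c) * (X + C d) ^ 3 : K[X]).natDegree = 4 := fun K _ c d => by
    rw [natDegree_mul (X_add_C_ne_zero c) (pow_ne_zero 3 (X_add_C_ne_zero d)), natDegree_pow,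
      natDegree_X_add_C, natDegree_X_add_C]
  have hco : ∀ {K : Type} [Field K] (c d : K), c ≠ 0 → d ≠ 0 →
      IsCoprime ((X + C c) * (X + C d) ^ 3) (X : K[X]) := fun c d hc hd' =>
    (SmallPrime.isCoprime_X_add_C_X hc).mul_left (SmallPrime.isCoprime_X_add_C_X hd').pow_left
  have heq : ∀ (R : Type) [CommRing R],
      castSer R (jSer M) * castSer R (qExpand ℤ m SmallPrime.hauptThree) =
        (castSer R (qExpand ℤ m SmallPrime.hauptThree) + 27) *
          (castSer R (qExpand ℤ m SmallPrime.hauptThree) + 3) ^ 3 := fun R _ => by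
    have h := congrArg (castSer R) (jSer_mul_hauptThree hm)
    simpa only [map_mul, map_pow, map_add, map_ofNat] using h
  refine genusFF_eq_one_of_series hA hpM hM (z := qExpand ℤ m SmallPrime.hauptThree)
    (intToRat_qExpand_mem_fieldOne hM hm (SmallPrime.intToRat_hauptThree_mem dvd_rfl))
    (P := (X + C 27) * (X + C 3) ^ 3) (Q := X)
    (Pb := (X + C 27) * (X + C 3) ^ 3) (Qb := X)
    (hco 27 3 (by norm_num) (by norm_num))
    (hco 27 3 (by exact_mod_cast h27) (by exact_mod_cast h3'))
    (by rw [hd _ (27 : Qbar) 3, natDegree_X]; norm_num)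
    (by rw [hd _ (27 : ResidueField A) 3, natDegree_X]; norm_num)
    (by rw [hd _ (27 : Qbar) 3, hd _ (27 : ResidueField A) 3]) ?_ ?_ {0, -27} ?_ ?_
  · simp only [map_mul, map_pow, map_add, aeval_X, aeval_C, map_ofNat]
    exact heq Qbar
  · simp only [map_mul, map_pow, map_add, aeval_X, aeval_C, map_ofNat]
    exact heq (ResidueField A)
  · refine SmallPrime.injOn_residue_pair A ?_
    rw [map_neg, map_ofNat, neg_ne_zero]
    exact_mod_cast h27
  intro a ha
  have ha0 : a ≠ 0 := fun h => ha 0 (by simp) (by simp [h])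
  have ha27 : a + 27 ≠ 0 := fun h => ha (-27) (by simp) (by
    show A.subtype (-27) = a
    rw [map_neg, map_ofNat]
    linear_combination -h)
  refine ⟨by simpa using ha0, ?_⟩
  set α := (a + 27) * (a + 3) ^ 3 / a with hα
  have hαQ : (a + 27) * (a + 3) ^ 3 = α * a := by rw [hα, div_mul_cancel₀ _ ha0]
  by_cases h0 : α = 0
  · refine ⟨α, 3, by norm_num, ?_, Or.inl ⟨h0, rfl⟩⟩
    have h : a = -3 := by
      rw [h0, zero_mul] at hαQ
      exact eq_neg_of_add_eq_zero_left
        (eq_zero_of_pow_eq_zero ((mul_eq_zero.1 hαQ).resolve_left ha27))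
    rw [h0, h, map_zero, zero_mul, sub_zero, map_neg, sub_neg_eq_add]
    exact dvd_mul_left _ _
  by_cases h1 : α = 1728
  · refine ⟨α, 2, by norm_num, ?_, Or.inr (Or.inl ⟨h1, rfl⟩)⟩
    have h : a ^ 2 + 18 * a - 27 = 0 := by
      rw [h1] at hαQ
      exact eq_zero_of_pow_eq_zero (n := 2) (by linear_combination hαQ)
    rw [h1, show (X + C 27) * (X + C 3) ^ 3 - C 1728 * X =
        (X ^ 2 + C 18 * X - C 27 : Qbar[X]) ^ 2 from by simp only [map_ofNat]; ring]
    exact pow_dvd_pow_of_dvd (dvd_iff_isRoot.2 (by simpa [IsRoot] using h)) 2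
  exact ⟨α, 1, one_pos, SmallPrime.dvd_sub_of_eval_eq_zero (by simp [hαQ]),
    Or.inr (Or.inr ⟨h0, h1, rfl⟩)⟩

include hA hpM hM in
/-- Equality of genus at every `p ∤ M` with the congruence conditions on `M` at `2` and `3`. -/
theorem genusFF_eq_one (h3 : p = 2 → 3 ∣ M) (h2 : p = 3 → 2 ∣ M) :
    genusFF Qbar (K1 M) = genusFF (ResidueField A) (fieldOneC M (ResidueField A)) := by
  have hp : p.Prime := Fact.out
  rcases le_or_gt 5 p with h5 | h5
  · exact genusFF_eq_one_of_five_le hA hpM hM h5
  have h23 : p = 2 ∨ p = 3 := by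
    have := hp.two_le
    interval_cases p
    · exact Or.inl rfl
    · exact Or.inr rfl
    · exact absurd hp (by decide)
  rcases h23 with h | h
  · exact genusFF_eq_one_two hA hpM hM h (h3 h)
  · exact genusFF_eq_one_three hA hpM hM h (h2 h)

end FLTAgent.DS
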