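import Fermat.Agent.DS.Geom.RedStable
import Fermat.Agent.DS.Geom.RedGenus
import Fermat.Agent.DS.Geom.FieldHecke
import Fermat.Agent.DS.Geom.FieldModel
import Fermat.Agent.DS.Phi.Classes
import Fermat.Agent.GoodRed.Torsion
import Fermat.Agent.GoodRed.QbarPlace

/-!
# Good reduction of the field of level `Γ₁(M)`

`ReductionFacts` at every place over `p ∤ M`, and the resulting `GeomFacts`.
-/

set_option autoImplicit false
set_option linter.unusedSectionVars false
set_option synthInstance.maxHeartbeats 100000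

noncomputable section

open Polynomial ModularCurve IsLocalRing AlgebraicCurve
open scoped IntermediateField

namespace FLTAgent.DS

open FLTAgent.FunctionField GoodRed

local notation "Qbar" => AlgebraicClosure ℚ

variable {M : ℕ} [NeZero M] {A : ValuationSubring (AlgebraicClosure ℚ)} {p : ℕ} [Fact p.Prime]
  (hA : A.LiesOverPrime p) (hpM : ¬ p ∣ M) (hM : 7 ≤ M)

/-- `RedOne` is the reduction of the Gauss datum. -/
theorem redOne_iff {x : K1 M} {z : LaurentSeries (ResidueField A)} :
    RedOne A x z ↔ ∃ zb : fieldOneC M (ResidueField A),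
      (zb : LaurentSeries (ResidueField A)) = z ∧ (oneDatum hA hpM hM).Red x zb := by
  set G := oneBasis hA hpM hM
  have hπ := isResidueMap_residue A
  constructor
  · rintro ⟨a, b, hb, he, hz⟩
    have hz' : z = coeffMap (residue A) a / coeffMap (residue A) b := by
      rw [eq_div_iff hb, hz]
    refine ⟨⟨z, ?_⟩, rfl, (G.red_iff hπ).2 ⟨a, b, ⟨hb, he⟩, hz⟩⟩
    rw [hz']
    exact G.value_mem hπ ⟨hb, he⟩
  · rintro ⟨zb, rfl, h⟩
    obtain ⟨a, b, ⟨hb, he⟩, hz⟩ := (G.red_iff hπ).1 h
    exact ⟨a, b, hb, he, hz⟩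

include hA hpM hM in
/-- Scaling to a nonzero reduction. -/
theorem exists_scale_redOne (x : K1 M) (hx : x ≠ 0) :
    ∃ (c : Qbar) (z : LaurentSeries (ResidueField A)), c ≠ 0 ∧ z ≠ 0 ∧ RedOne A (c • x) z := by
  obtain ⟨c, zb, hc, hzb, hred⟩ := (oneDatum hA hpM hM).exists_scale hx
  exact ⟨c, zb, hc, fun e => hzb (Subtype.ext e),
    (redOne_iff hA hpM hM).2 ⟨zb, rfl, hred⟩⟩

include hA hpM hM in
/-- The diamond automorphisms preserve nonzero reductions. -/
theorem exists_dia_redOne (u : (ZMod M)ˣ) (x : K1 M) (z : LaurentSeries (ResidueField A))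
    (h : RedOne A x z) (hz : z ≠ 0) :
    ∃ z' : LaurentSeries (ResidueField A), z' ≠ 0 ∧ RedOne A ((diamondData hM).dia u x) z' := by
  obtain ⟨zb, rfl, hred⟩ := (redOne_iff hA hpM hM).1 h
  have hfix : (diamondData hM).dia u (oneBasis hA hpM hM).xF = (oneBasis hA hpM hM).xF :=
    diamondData_jSer hM u _ (coe_oneJ hA hpM hM)
  obtain ⟨zb', hzb', hred'⟩ := exists_red_map (oneBasis hA hpM hM) (isResidueMap_residue A)
    ((diamondData hM).dia u) hfix hred (fun e => hz (by rw [e]; rfl))
  exact ⟨zb', fun e => hzb' (Subtype.ext e), (redOne_iff hA hpM hM).2 ⟨zb', rfl, hred'⟩⟩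

include hA hpM hM in
/-- Reduction is injective on the torsion prime to the residue characteristic. -/
theorem exists_pow_eq_of_redOne (h3 : p = 2 → 3 ∣ M) (h2 : p = 3 → 2 ∣ M) (ℓ : ℕ)
    (hℓ : (ℓ : ResidueField A) ≠ 0) (x : K1 M) (hx : x ≠ 0) (hdvd : DvdDiv ℓ x)
    (hred : RedOne A x 1) : ∃ u : K1 M, x = u ^ ℓ := by
  classical
  have := (levelFacts (M := M) hM).isFunctionField
  have := isFunctionField_fieldOneC hA hpM hM
  have := isAlgClosed_residue A
  obtain ⟨zb, hzb, hred⟩ := (redOne_iff hA hpM hM).1 hred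
  obtain rfl : zb = 1 := Subtype.ext hzb
  obtain ⟨g, c, hL, hk⟩ := exists_rrLarge_of_genus_eq (genusFF_eq_one hA hpM hM h3 h2)
  obtain ⟨R⟩ := exists_placeRed (D := oneDatum hA hpM hM) hL hk
  have hℓ0 : ℓ ≠ 0 := fun e => hℓ (by rw [e, Nat.cast_zero])
  set X : Divisor Qbar (K1 M) :=
    Finsupp.mapRange (fun n : ℤ => n / (ℓ : ℤ)) (Int.zero_ediv _) (divisorOf x) with hXdef
  have hX : ℓ • X = divisorOf x := by
    ext v
    rw [Finsupp.smul_apply, hXdef, Finsupp.mapRange_apply, nsmul_eq_mul, divisorOf_apply]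
    exact Int.mul_ediv_cancel' (hdvd v)
  have hdeg : Divisor.degree X = 0 := by
    have h := congrArg Divisor.degree hX
    rw [map_nsmul, degree_divisorOf, nsmul_eq_mul] at h
    exact (mul_eq_zero.1 h).resolve_left (by exact_mod_cast hℓ0)
  have hone : divisorOf (K := ResidueField A) (1 : fieldOneC M (ResidueField A)) = 0 :=
    Finsupp.ext fun v => by simp
  have hr : Finsupp.mapDomain R.r X =
      divisorOf (K := ResidueField A) (1 : fieldOneC M (ResidueField A)) := by
    have h : ℓ • Finsupp.mapDomain R.r X = 0 := by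
      rw [show ℓ • Finsupp.mapDomain R.r X = Finsupp.mapDomain R.r (ℓ • X) from
        (map_nsmul (Finsupp.mapDomain.addMonoidHom R.r) ℓ X).symm, hX, ← hone]
      exact R.map_divisorOf _ _ hred one_ne_zero
    rw [hone]
    ext v
    have h' := congrArg (fun Y : Divisor (ResidueField A) (fieldOneC M (ResidueField A)) => Y v) h
    simp only [Finsupp.smul_apply, nsmul_eq_mul, Finsupp.zero_apply, mul_eq_zero] at h'
    exact h'.resolve_left (by exact_mod_cast hℓ0)
  obtain ⟨h, hh0, hXh⟩ := torsion_principal R hL hk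
    (isRankOne_of_liesOverPrime hA Fact.out) hℓ hdeg hx hX one_ne_zero hr
  have hdiv : divisorOf (K := Qbar) (x / h ^ ℓ) = 0 := by
    ext v
    rw [divisorOf_apply, FunctionField.ord_div hx (pow_ne_zero _ hh0), FunctionField.ord_pow,
      ← divisorOf_apply (K := Qbar) x v, ← hX, hXh, Finsupp.smul_apply, divisorOf_apply,
      nsmul_eq_mul, sub_self, Finsupp.zero_apply]
  obtain ⟨a, ha⟩ := exists_eq_algebraMap_of_divisorOf_eq_zero hdiv
  obtain ⟨b, hb⟩ := IsAlgClosed.exists_pow_nat_eq a (Nat.pos_of_ne_zero hℓ0)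
  refine ⟨algebraMap Qbar (K1 M) b * h, ?_⟩
  rw [mul_pow, ← map_pow, hb, ha, div_mul_cancel₀ _ (pow_ne_zero _ hh0)]

include hA hpM hM in
/-- **Good reduction at `A`.** -/
theorem reductionFacts (h3 : p = 2 → 3 ∣ M) (h2 : p = 3 → 2 ∣ M) :
    ReductionFacts (diamondData hM) A where
  exists_scale := exists_scale_redOne hA hpM hM
  dia_red := exists_dia_redOne hA hpM hM
  torsion := exists_pow_eq_of_redOne hA hpM hM h3 h2

/-- **The facts about the fields of level `Γ₁(M)`.** -/
theorem geomFacts : GeomFacts where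
  exists_data M _ hM :=
    ⟨levelFacts hM, diamondData hM, heckeFacts_diamondData hM, fun ℓ hℓ =>
      haveI : NeZero ℓ := ⟨hℓ.ne_zero⟩
      Phi.charClassFacts hM (diamondData hM) ℓ,
      fun p hp hpM h3 h2 A hA =>
        haveI : Fact p.Prime := ⟨hp⟩
        reductionFacts hA hpM hM h3 h2⟩

end FLTAgent.DS
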