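import Fermat.Agent.DS.Geom.RedVec
import Fermat.Agent.ModPoly.Roots
import Fermat.Agent.GoodRed.GaussDatum
import Mathlib.RingTheory.MvPolynomial.Symmetric.Defs
import Mathlib.RingTheory.RootsOfUnity.EnoughRootsOfUnity

/-!
# The full level `M` family

Triples of nonzero points of order `M` and the conjugates of `j (Mτ)`, permuted by `SL(2, ℤ)`.
Their series have integral coefficients and satisfy the symmetry identities over every valuation
ring of `ℚ̄` in which `M` is a unit.
-/

set_option autoImplicit false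

noncomputable section

open Filter Function Complex CongruenceSubgroup
open UpperHalfPlane hiding I
open ModularCurve
open scoped Real Topology MatrixGroups Manifold

namespace FLTAgent.DS.RedGal

open FLTAgent.ModPoly

local notation "Qbar" => AlgebraicClosure ℚ
local notation "𝕢" => Periodic.qParam

variable {M : ℕ}

/-- The row vector `v γ`. -/
def vmul (γ : SL(2, ℤ)) (v : ZMod M × ZMod M) : ZMod M × ZMod M :=
  (v.1 * γ 0 0 + v.2 * γ 1 0, v.1 * γ 0 1 + v.2 * γ 1 1)

theorem vmul_mul (γ δ : SL(2, ℤ)) (v : ZMod M × ZMod M) :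
    vmul δ (vmul γ v) = vmul (γ * δ) v := by
  refine Prod.ext ?_ ?_ <;>
    simp [vmul, Matrix.SpecialLinearGroup.coe_mul, Matrix.mul_apply, Fin.sum_univ_two] <;> ring

theorem vmul_one (v : ZMod M × ZMod M) : vmul 1 v = v := by
  simp [vmul]

theorem vmul_inv_vmul (γ : SL(2, ℤ)) (v : ZMod M × ZMod M) : vmul γ⁻¹ (vmul γ v) = v := by
  rw [vmul_mul, mul_inv_cancel, vmul_one]

theorem vmul_zero (γ : SL(2, ℤ)) : vmul γ (0 : ZMod M × ZMod M) = 0 := by
  simp [vmul]

theorem vmul_ne_zero (γ : SL(2, ℤ)) {v : ZMod M × ZMod M} (hv : v ≠ 0) : vmul γ v ≠ 0 :=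
  fun e => hv (by rw [← vmul_inv_vmul γ v, e, vmul_zero])

theorem vmul_neg (γ : SL(2, ℤ)) (v : ZMod M × ZMod M) : vmul γ (-v) = -vmul γ v := by
  refine Prod.ext ?_ ?_ <;> simp [vmul] <;> ring

variable (M) in
/-- Nonzero points of order `M`. -/
abbrev NZ : Type := {v : ZMod M × ZMod M // v ≠ 0}

variable (M) in
/-- The index set of the family. -/
abbrev Idx : Type := (NZ M × NZ M × NZ M) ⊕ HIdx M

/-- The action on nonzero points. -/
def actNZ (γ : SL(2, ℤ)) (v : NZ M) : NZ M := ⟨vmul γ v.1, vmul_ne_zero γ v.2⟩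

variable [NeZero M]

/-- The right action on the index set. -/
def act (γ : SL(2, ℤ)) : Idx M → Idx M :=
  Sum.map (Prod.map (actNZ γ) (Prod.map (actNZ γ) (actNZ γ))) (permIdx γ)

theorem permIdx_one (p : HIdx M) : permIdx 1 p = p :=
  idx_ext fun τ => by rw [← jConj_smul, one_smul]

theorem permIdx_permIdx (γ δ : SL(2, ℤ)) (p : HIdx M) :
    permIdx δ (permIdx γ p) = permIdx (γ * δ) p :=
  idx_ext fun τ => by rw [← jConj_smul, ← jConj_smul, ← jConj_smul, mul_smul]

theorem act_mul (γ δ : SL(2, ℤ)) (s : Idx M) : act δ (act γ s) = act (γ * δ) s := by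
  rcases s with ⟨d, e, f⟩ | p
  · simp [act, actNZ, vmul_mul]
  · simp [act, permIdx_permIdx]

theorem act_one (s : Idx M) : act 1 s = s := by
  rcases s with ⟨d, e, f⟩ | p
  · simp [act, actNZ, vmul_one]
  · simp [act, permIdx_one]

variable (M) in
/-- The permutations of the index set. -/
def permHom : SL(2, ℤ) →* Equiv.Perm (Idx M) where
  toFun γ :=
    { toFun := act γ⁻¹
      invFun := act γ
      left_inv := fun s => by rw [act_mul, inv_mul_cancel, act_one]
      right_inv := fun s => by rw [act_mul, mul_inv_cancel, act_one] }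
  map_one' := Equiv.ext fun s => by simp [act_one]
  map_mul' γ δ := Equiv.ext fun s => by simp [Equiv.Perm.mul_apply, act_mul]

theorem permHom_apply (γ : SL(2, ℤ)) (s : Idx M) : permHom M γ s = act γ⁻¹ s := rfl

/-- Matrices congruent to one act trivially. -/
theorem act_of_mem_Gamma {γ : SL(2, ℤ)} (hγ : γ ∈ CongruenceSubgroup.Gamma M) (s : Idx M) :
    act γ s = s := by
  have hv : ∀ v : ZMod M × ZMod M, vmul γ v = v := fun v => by
    obtain ⟨h00, h01, h10, h11⟩ := Gamma_mem.mp hγ
    simp [vmul, h00, h01, h10, h11]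
  rcases s with ⟨d, e, f⟩ | p
  · simp [act, actNZ, hv]
  · refine congrArg Sum.inr (idx_ext fun τ => ?_)
    rw [← jConj_smul, ← jMul_gammaIdx_smul, ← jMul_gammaIdx_smul]
    have hc : gammaIdx p * γ * (gammaIdx p)⁻¹ ∈ Gamma0 M :=
      Gamma_le_Gamma0 M ((Gamma_normal M).conj_mem _ hγ _)
    rw [← mem_Gamma0_iff_jMul_smul.mp hc (gammaIdx p • τ), ← mul_smul, ← mul_smul]
    simp

/-- The functions of the family. -/
def fS : Idx M → ℍ → ℂ
  | .inl (d, e, f) => fun τ => (xTau d.1 τ - xTau e.1 τ) ^ 5 * (xTau d.1 τ - xTau f.1 τ)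
      * (ModularForm.discriminant τ)⁻¹
  | .inr p => jConj M p

theorem fS_smul (γ : SL(2, ℤ)) (s : Idx M) (τ : ℍ) : fS s (γ • τ) = fS (act γ s) τ := by
  rcases s with ⟨d, e, f⟩ | p
  · simp only [fS, act, Sum.map_inl, Prod.map, actNZ, xTau, vmul, sub_sub_sub_cancel_right,
      Mazur.X_smul, Mazur.discriminant_smul, Mazur.den]
    have h1 : (γ 1 0 : ℂ) * τ + γ 1 1 ≠ 0 := Mazur.den_ne_zero γ τ
    have h2 := ModularForm.discriminant_ne_zero τ
    field_simp
  · exact jConj_smul γ p τ

theorem mdiff_fS (s : Idx M) : MDiff (fS s) := by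
  rcases s with ⟨d, e, f⟩ | p
  · have hΔ : MDiff fun τ : ℍ => (ModularForm.discriminant τ)⁻¹ := by
      rw [show (fun τ : ℍ => (ModularForm.discriminant τ)⁻¹) =
        (fun _ => (1 : ℂ)) / ModularForm.discriminant from funext fun z => by simp]
      exact mdifferentiable_const.div Genus.mdiff_discriminant
        ModularForm.discriminant_ne_zero
    exact ((((mdiff_xTau d.2).sub (mdiff_xTau e.2)).pow 5).mul
      ((mdiff_xTau d.2).sub (mdiff_xTau f.2))).mul hΔ
  · exact mdifferentiable_jConj p.2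

/-- The series of the family. -/
def ser (R : Type*) [CommRing R] (ζ : Rˣ) : Idx M → LaurentSeries R
  | .inl (d, e, f) => HahnSeries.ofPowerSeries ℤ R
      ((xVec (ζ : R) d.1 - xVec (ζ : R) e.1) ^ 5 * (xVec (ζ : R) d.1 - xVec (ζ : R) f.1))
      * castSer R (deltaInvSer M)
  | .inr p => jqConj R ζ p

omit [NeZero M] in
theorem coeffMap_castSer {R S : Type*} [CommRing R] [CommRing S] (f : R →+* S)
    (z : LaurentSeries ℤ) : coeffMap f (castSer R z) = castSer S z := by
  rw [castSer, coeffMap_coeffMap]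
  exact coeffMap_congr (RingHom.ext_int _ _) z

theorem coeffMap_ser {R S : Type*} [CommRing R] [CommRing S] (f : R →+* S) (ζ : Rˣ)
    (h : ∀ b : ZMod M, b ≠ 0 → IsUnit (1 - zpw (ζ : R) b)) (s : Idx M) :
    coeffMap f (ser R ζ s) = ser S (Units.map (f : R →* S) ζ) s := by
  have hx : ∀ v : NZ M, (xVec (ζ : R) v.1).map f = xVec ((Units.map (f : R →* S) ζ : Sˣ) : S) v.1 :=
    fun v => map_xVec f _ _ fun h1 => h _ fun h2 => v.2 (Prod.ext h1 h2)
  rcases s with ⟨d, e, g⟩ | p
  · simp only [ser, map_mul, coeffMap_ofPowerSeries, coeffMap_castSer, map_pow, map_sub, hx]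
  · exact coeffMap_jqConj f ζ p

theorem deltaInvSer_complex : castSer ℂ (deltaInvSer M) =
    qExpand ℂ M (HahnSeries.single (-1 : ℤ) 1 *
      HahnSeries.ofPowerSeries ℤ ℂ (Mazur.etaInvSer ℂ)) := by
  rw [deltaInvSer, castSer, coeffMap_qExpand, map_mul, coeffMap_single, map_one,
    coeffMap_ofPowerSeries]
  rfl

theorem expands_fS (s : Idx M) : Expands M (fS s) (ser ℂ (zetaC M) s) := by
  rcases s with ⟨d, e, f⟩ | p
  · have hΔ := Mazur.expands_discriminant_inv.width_mul (k := M)
    rw [one_mul, ← deltaInvSer_complex] at hΔ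
    have := ((((expands_xTau d.2).sub (expands_xTau e.2)).pow 5).mul
      ((expands_xTau d.2).sub (expands_xTau f.2))).mul hΔ
    rw [ser, map_mul, map_pow, map_sub, map_sub]
    exact this
  · exact expands_jConj p.2

theorem expands_jFun_level : Expands M jFun (castSer ℂ (jSer M)) := by
  have h := expands_jFun.width_mul (k := M)
  rw [one_mul] at h
  rw [jSer, castSer, coeffMap_qExpand, coeffMap_jqModC']
  exact h

/-! ### Over a valuation ring of `ℚ̄` -/

section Valuation

variable (A : ValuationSubring Qbar)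

/-- The embedding of `A` into `ℂ`. -/
def iotaC : A →+* ℂ := iotaOne.comp A.subtype

theorem iotaC_injective : Function.Injective (iotaC A) :=
  iotaOne.injective.comp Subtype.val_injective

theorem exists_zetaA : ∃ ζ : Aˣ, iotaC A ζ = zC M ∧ (ζ : A) ^ M = 1 := by
  obtain ⟨ζ₀, h₀⟩ := HasEnoughRootsOfUnity.exists_primitiveRoot Qbar M
  have h1 := h₀.map_of_injective iotaOne.injective
  obtain ⟨i, -, hi⟩ := h1.eq_pow_of_pow_eq_one (zC_pow M)
  have hz : (ζ₀ ^ i) ^ M = 1 := by rw [← pow_mul, mul_comm, pow_mul, h₀.pow_eq_one, one_pow]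
  have hmem : ζ₀ ^ i ∈ A := by
    rw [← A.valuation_le_one_iff]
    refine (pow_le_one_iff (NeZero.ne M)).1 ?_
    rw [← map_pow, hz, map_one]
  have hA : (⟨_, hmem⟩ : A) ^ M = 1 := Subtype.ext hz
  refine ⟨Units.ofPowEqOne _ M hA (NeZero.ne M), ?_, hA⟩
  show iotaOne (ζ₀ ^ i) = _
  rw [map_pow, hi]

variable (M) in
/-- The root of unity in `A` above `exp (2πi/M)`. -/
def zA : Aˣ := (exists_zetaA (M := M) A).choose

theorem iotaC_zA : iotaC A (zA M A) = zC M := (exists_zetaA (M := M) A).choose_spec.1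

theorem zA_pow : ((zA M A : Aˣ) : A) ^ M = 1 := (exists_zetaA (M := M) A).choose_spec.2

theorem map_iotaC_zA : Units.map (iotaC A : A →* ℂ) (zA M A) = zetaC M :=
  Units.ext (iotaC_zA A)

theorem isPrimitiveRoot_zA : IsPrimitiveRoot ((zA M A : Aˣ) : A) M := by
  refine IsPrimitiveRoot.of_map_of_injective (f := iotaC A) ?_ (iotaC_injective A)
  rw [iotaC_zA]
  exact IsPrimitiveRoot.coe_units_iff.mpr (isPrimitiveRoot_zetaC M)

local notation "κ" => IsLocalRing.ResidueField A

variable (M) in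
/-- The root of unity in the residue field. -/
def zK : κˣ := Units.map (IsLocalRing.residue A : A →* κ) (zA M A)

theorem zK_pow : ((zK M A : κˣ) : κ) ^ M = 1 := by
  show IsLocalRing.residue A _ ^ M = 1
  rw [← map_pow, zA_pow, map_one]

variable {A} (hM : (M : IsLocalRing.ResidueField A) ≠ 0)

theorem isRoot_cyclotomic_zK : (Polynomial.cyclotomic M κ).IsRoot ((zK M A : κˣ) : κ) := by
  have h := (isPrimitiveRoot_zA (M := M) A).isRoot_cyclotomic (Nat.pos_of_ne_zero (NeZero.ne M))
  rw [← Polynomial.map_cyclotomic M (IsLocalRing.residue A)]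
  exact h.map

include hM

theorem isPrimitiveRoot_zK : IsPrimitiveRoot ((zK M A : κˣ) : κ) M := by
  have : NeZero (M : κ) := ⟨hM⟩
  exact Polynomial.isRoot_cyclotomic_iff.1 ((isRoot_cyclotomic_zK (M := M)))

theorem isUnit_one_sub_zpw (b : ZMod M) (hb : b ≠ 0) : IsUnit (1 - zpw ((zA M A : Aˣ) : A) b) := by
  rw [← IsLocalRing.residue_ne_zero_iff_isUnit, map_sub, map_one, map_zpw, sub_ne_zero]
  intro e
  have hp := isPrimitiveRoot_zK hM
  refine hb ((ZMod.val_eq_zero b).1 (hp.pow_inj (ZMod.val_lt b)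
    (Nat.pos_of_ne_zero (NeZero.ne M)) ?_))
  rw [pow_zero]
  exact e.symm

omit hM in
variable (M A) in
/-- The integral series. -/
def yA (s : Idx M) : LaurentSeries A := ser A (zA M A) s

omit hM in
variable (M A) in
/-- The integral series of `j`. -/
def jA : LaurentSeries A := castSer A (jSer M)

theorem coeffMap_iotaC_yA (s : Idx M) : coeffMap (iotaC A) (yA M A s) = ser ℂ (zetaC M) s := by
  rw [yA, coeffMap_ser _ _ (isUnit_one_sub_zpw hM), map_iotaC_zA]

theorem coeffMap_residue_yA (s : Idx M) :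
    coeffMap (IsLocalRing.residue A) (yA M A s) = ser κ (zK M A) s := by
  rw [yA, coeffMap_ser _ _ (isUnit_one_sub_zpw hM), zK]

theorem expands_aeval (P : MvPolynomial (Idx M) A) :
    MDiff (fun τ => MvPolynomial.eval₂ (iotaC A) (fun s => fS s τ) P) ∧
    Expands M (fun τ => MvPolynomial.eval₂ (iotaC A) (fun s => fS s τ) P)
      (coeffMap (iotaC A) (MvPolynomial.aeval (yA M A) P)) := by
  induction P using MvPolynomial.induction_on with
  | C a =>
    simp only [MvPolynomial.eval₂_C, MvPolynomial.aeval_C]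
    rw [algebraMap_eq_C, HahnSeries.C_apply, coeffMap_single, ← HahnSeries.C_apply]
    exact ⟨mdifferentiable_const, Expands.const M _⟩
  | add p q hp hq =>
    simp only [MvPolynomial.eval₂_add, map_add]
    exact ⟨hp.1.add hq.1, hp.2.add hq.2⟩
  | mul_X p s hp =>
    simp only [MvPolynomial.eval₂_mul, MvPolynomial.eval₂_X, map_mul, MvPolynomial.aeval_X,
      coeffMap_iotaC_yA hM]
    exact ⟨hp.1.mul (mdiff_fS s), hp.2.mul (expands_fS s)⟩

/-- **Invariant polynomials in the family are polynomials in `j`.** -/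
theorem aeval_mem_adjoin (P : MvPolynomial (Idx M) A)
    (h : ∀ γ : SL(2, ℤ),
      MvPolynomial.aeval (yA M A) (MvPolynomial.rename (act γ) P) =
        MvPolynomial.aeval (yA M A) P) :
    MvPolynomial.aeval (yA M A) P ∈ Algebra.adjoin A {jA M A} := by
  set F : ℍ → ℂ := fun τ => MvPolynomial.eval₂ (iotaC A) (fun s => fS s τ) P
  set x := coeffMap (iotaC A) (MvPolynomial.aeval (yA M A) P) with hx
  obtain ⟨hF, hFx⟩ := expands_aeval hM P
  have hinv : ∀ (γ : SL(2, ℤ)) (τ : ℍ), F (γ • τ) = F τ := by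
    intro γ
    obtain ⟨hF', hFx'⟩ := expands_aeval hM (MvPolynomial.rename (act γ) P)
    rw [h γ] at hFx'
    have e := eq_of_expands hF' hF hFx' hFx
    intro τ
    refine Eq.trans ?_ (congr_fun e τ)
    simp only [F, MvPolynomial.eval₂_rename, Function.comp_def, fS_smul]
  have hmem : F ∈ modFunRing M :=
    ⟨hF, fun γ _ => hinv γ, fun γ => by rw [funext (hinv γ)]; exact hFx.mem_expRing⟩
  obtain ⟨x₁, hx₁⟩ := mem_expRing_one hmem
  have hw := hx₁.width_mul (k := M)
  rw [one_mul] at hw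
  have hxx : x = qExpand ℂ M x₁ := hFx.unique hw
  have hR : ∀ k, x₁.coeff k ∈ (iotaC A).range := fun k => by
    rw [← qExpand_coeff_mul M x₁ k, ← hxx, hx]
    exact ⟨_, (coeffMap_coeff _ _ _).symm⟩
  obtain ⟨P', hP', hFP⟩ := exists_polynomial_of_levelOne _ hF hinv hx₁ hR
  obtain ⟨q, hq⟩ : ∃ q : Polynomial A, q.map (iotaC A) = P' := by
    rw [← Polynomial.mem_lifts, Polynomial.lifts_iff_coeff_lifts]
    exact fun i => hP' i
  refine Algebra.adjoin_singleton_eq_range_aeval A (jA M A) ▸ ⟨q, ?_⟩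
  refine coeffMap_injective (iotaC_injective A) ?_
  have h1 : x₁ = Polynomial.aeval (jqModC ℂ) P' :=
    hx₁.unique (by rw [show F = evalJFun P' from hFP]; exact expands_evalJFun P')
  have h2 : x = qExpand ℂ M (Polynomial.aeval (jqModC ℂ) P') := by rw [hxx, h1]
  rw [qExpand_aeval] at h2
  refine Eq.trans ?_ h2.symm
  show coeffMap (iotaC A) (Polynomial.aeval (jA M A) q) = _
  rw [GoodRed.coeffMap_aeval, hq, jA, coeffMap_castSer, jSer, castSer, coeffMap_qExpand,
    coeffMap_jqModC']

theorem twist_yA (s : Idx M) : twist (zA M A) (yA M A s) = yA M A (act ModularGroup.T s) := by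
  refine coeffMap_injective (iotaC_injective A) ?_
  rw [coeffMap_twist, coeffMap_iotaC_yA hM, coeffMap_iotaC_yA hM, map_iotaC_zA]
  have hlim : Tendsto (fun τ : ℍ => ModularGroup.T • τ) atImInfty atImInfty := by
    rw [atImInfty, tendsto_comap_iff]
    refine Tendsto.congr (fun τ => ?_) (tendsto_comap : Tendsto UpperHalfPlane.im _ atTop)
    have := congrArg UpperHalfPlane.im (UpperHalfPlane.modular_T_smul τ)
    rw [UpperHalfPlane.vadd_im] at this
    exact this.symm
  have hq : ∀ τ : ℍ, 𝕢 M ((ModularGroup.T • τ : ℍ) : ℂ) = ((zetaC M : ℂˣ) : ℂ) * 𝕢 M τ ^ 1 := by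
    intro τ
    rw [pow_one, zetaC, Units.val_mk0, UpperHalfPlane.modular_T_smul, UpperHalfPlane.coe_vadd,
      Periodic.qParam, Periodic.qParam, ← Complex.exp_add]
    congr 1
    push_cast
    ring
  have h1 := (expands_fS s).comp_scale (zetaC M) hlim hq
  rw [qExpand_one_apply] at h1
  exact h1.unique ((expands_fS (act ModularGroup.T s)).congr_fun'
    (Eventually.of_forall fun τ => (fS_smul _ s τ).symm))

omit hM in
theorem twist_jA : twist (zA M A) (jA M A) = jA M A := by
  refine HahnSeries.ext (funext fun k => ?_)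
  rw [twist_coeff]
  by_cases hk : (M : ℤ) ∣ k
  · obtain ⟨l, rfl⟩ := hk
    have : (zA M A) ^ M = 1 := Units.ext (by simpa using zA_pow (M := M) A)
    rw [zpow_mul, zpow_natCast, this, one_zpow, Units.val_one, one_mul]
  · rw [show (jA M A).coeff k = 0 by
      rw [jA, castSer, jSer, coeffMap_qExpand, qExpand_coeff_of_not_dvd _ _ hk], mul_zero]

end Valuation

end FLTAgent.DS.RedGal
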