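import Fermat.Agent.DS.Geom.Facts
import Fermat.Agent.ModPoly.Roots
import Mathlib.Algebra.Module.Submodule.Union
import Mathlib.RingTheory.MvPolynomial.Symmetric.Defs

/-!
# The reductions of the conjugates are permuted by the group

For a linear form `∑ c s * y s` the product of `X - ∑ c s * y (g • s)` over the group has
coefficients in `A[J]`; so every embedding of the reduced field fixing the reduced `J` maps the
reduced linear form to one of its permuted ones, and one permutation works for all forms.
-/

set_option autoImplicit false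

noncomputable section

namespace FLTAgent.DS

open ModularCurve FLTAgent.ModPoly

/-- An infinite field is not a finite union of proper hyperplanes: a vector avoiding the zero
loci of finitely many nonzero linear maps. -/
theorem exists_forall_linearMap_ne_zero {k V ι : Type*} [Field k] [Infinite k] [AddCommGroup V]
    [Module k V] [Finite ι] {W : ι → Type*} [∀ i, AddCommGroup (W i)] [∀ i, Module k (W i)]
    (f : ∀ i, V →ₗ[k] W i) (hf : ∀ i, f i ≠ 0) : ∃ v : V, ∀ i, f i v ≠ 0 := by
  classical
  have := Fintype.ofFinite ι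
  have h := Submodule.iUnion_ssubset_of_forall_ne_top_of_card_lt (Finset.univ : Finset ι)
    (fun i => LinearMap.ker (f i)) (fun i e => hf i (LinearMap.ker_eq_top.1 e))
    (by rw [ENat.card_eq_top_of_infinite]; exact ENat.natCast_lt_top _)
  obtain ⟨v, -, hv⟩ := Set.exists_of_ssubset h
  exact ⟨v, fun i hi => hv (Set.mem_biUnion (Finset.mem_univ i) (by simpa using hi))⟩

theorem coeffMap_algebraMap' {R T : Type*} [CommRing R] [CommRing T] (f : R →+* T) (r : R) :
    coeffMap f (algebraMap R (LaurentSeries R) r) = algebraMap T (LaurentSeries T) (f r) := by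
  rw [algebraMap_eq_C, algebraMap_eq_C, HahnSeries.C_apply, coeffMap_single, HahnSeries.C_apply]

theorem coeffMap_aeval' {R T : Type*} [CommRing R] [CommRing T] (f : R →+* T)
    (x : LaurentSeries R) (q : Polynomial R) :
    coeffMap f (Polynomial.aeval x q) = Polynomial.aeval (coeffMap f x) (q.map f) := by
  induction q using Polynomial.induction_on' with
  | add p r hp hr => simp [hp, hr]
  | monomial n r => simp [Polynomial.aeval_monomial, coeffMap_algebraMap']

/-- `∑ c s * Y (σ s)` as a polynomial in the variables `Y`. -/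
def linForm {A S : Type*} [CommRing A] [Fintype S] (c : S → A) (σ : S → S) : MvPolynomial S A :=
  ∑ s, MvPolynomial.C (c s) * MvPolynomial.X (σ s)

theorem rename_linForm {A S : Type*} [CommRing A] [Fintype S] (c : S → A) (σ τ : S → S) :
    MvPolynomial.rename τ (linForm c σ) = linForm c (τ ∘ σ) := by
  simp [linForm, map_sum]

theorem reducedGaloisStatement : ReducedGaloisStatement := by
  intro A k _ _ _ π hπ S G _ _ _ _ y J hinv E φ hy hJ hφJ
  classical
  by_contra hne
  push Not at hne
  set d : G → S → LaurentSeries k := fun g s =>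
    φ ⟨_, hy s⟩ - coeffMap π (y (g • s))
  set f : G → (S → k) →ₗ[k] LaurentSeries k := fun g =>
    Fintype.linearCombination k (d g)
  have hf : ∀ g, f g ≠ 0 := fun g e => by
    obtain ⟨s, hs⟩ := hne g
    have h1 : f g (Pi.single s 1) = 0 := by rw [e]; rfl
    rw [Fintype.linearCombination_apply_single, one_smul, sub_eq_zero] at h1
    exact hs h1
  obtain ⟨c, hc⟩ := exists_forall_linearMap_ne_zero f hf
  choose a ha using fun s => hπ (c s)
  set P : Polynomial (MvPolynomial S A) :=
    ∏ g : G, (Polynomial.X - Polynomial.C (linForm a (g • ·))) with hP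
  have hPinv : ∀ g : G, P.map (MvPolynomial.rename (g • ·)).toRingHom = P := by
    intro g
    rw [hP, Polynomial.map_prod]
    refine Fintype.prod_equiv (Equiv.mulLeft g) _ _ fun h => ?_
    simp only [Polynomial.map_sub, Polynomial.map_X, Polynomial.map_C, Equiv.coe_mulLeft,
      AlgHom.toRingHom_eq_coe, RingHom.coe_coe, rename_linForm, Function.comp_def, mul_smul]
  set ev : MvPolynomial S A →+* LaurentSeries k :=
    (coeffMap π).comp (MvPolynomial.aeval y).toRingHom
  have hcoef : ∀ i, ev (P.coeff i) ∈ E.toSubalgebra ∧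
      ∀ h : ev (P.coeff i) ∈ E, φ ⟨_, h⟩ = ev (P.coeff i) := by
    intro i
    have hm : MvPolynomial.aeval y (P.coeff i) ∈ Algebra.adjoin A {J} :=
      hinv _ fun g => by
        conv_rhs => rw [← hPinv g, Polynomial.coeff_map]
        rfl
    rw [Algebra.adjoin_singleton_eq_range_aeval, AlgHom.mem_range] at hm
    obtain ⟨q, hq⟩ := hm
    have he : ev (P.coeff i) = (Polynomial.aeval (⟨_, hJ⟩ : E) (q.map π) : E) := by
      show coeffMap π (MvPolynomial.aeval y (P.coeff i)) = _
      rw [← hq, coeffMap_aeval']
      exact Polynomial.aeval_algHom_apply E.val (⟨_, hJ⟩ : E) (q.map π)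
    refine ⟨he ▸ (Polynomial.aeval (⟨_, hJ⟩ : E) (q.map π)).2, fun h => ?_⟩
    have e : (⟨_, h⟩ : E) = Polynomial.aeval (⟨_, hJ⟩ : E) (q.map π) := Subtype.ext he
    rw [e, ← Polynomial.aeval_algHom_apply, hφJ, he]
    exact Polynomial.aeval_algHom_apply E.val (⟨_, hJ⟩ : E) (q.map π)
  -- the reduced linear form is a root, hence so is its image
  set L : E := ∑ s, algebraMap k E (c s) * (⟨_, hy s⟩ : E) with hL
  have hlin : ∀ σ : S → S, ev (linForm a σ) =
      ∑ s, algebraMap k (LaurentSeries k) (c s) * coeffMap π (y (σ s)) := fun σ => by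
    simp only [ev, linForm, RingHom.comp_apply, AlgHom.toRingHom_eq_coe, RingHom.coe_coe, map_sum,
      map_mul, MvPolynomial.aeval_C, MvPolynomial.aeval_X, coeffMap_algebraMap', ha]
  have hroot : (P.map ev).eval (L : LaurentSeries k) = 0 := by
    rw [hP, Polynomial.map_prod, Polynomial.eval_prod]
    refine Finset.prod_eq_zero (Finset.mem_univ (1 : G)) ?_
    rw [Polynomial.map_sub, Polynomial.map_X, Polynomial.map_C, Polynomial.eval_sub,
      Polynomial.eval_X, Polynomial.eval_C, hlin, sub_eq_zero, hL]
    simp
  set R : Polynomial E := ∑ i ∈ P.support,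
    Polynomial.monomial i (⟨_, (hcoef i).1⟩ : E) with hR
  have hR1 : R.map E.val.toRingHom = P.map ev := by
    refine Polynomial.ext fun i => ?_
    rw [Polynomial.coeff_map, Polynomial.coeff_map, hR, Polynomial.finsetSum_coeff]
    simp only [Polynomial.coeff_monomial, Finset.sum_ite_eq', Polynomial.mem_support_iff]
    split_ifs with h
    · rfl
    · rw [not_not.1 h, map_zero, map_zero]
  have hR2 : R.map φ.toRingHom = P.map ev := by
    refine Polynomial.ext fun i => ?_
    rw [Polynomial.coeff_map, Polynomial.coeff_map, hR, Polynomial.finsetSum_coeff]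
    simp only [Polynomial.coeff_monomial, Finset.sum_ite_eq', Polynomial.mem_support_iff]
    split_ifs with h
    · exact (hcoef i).2 _
    · rw [not_not.1 h, map_zero, map_zero]
  have hR0 : R.eval L = 0 := by
    apply E.val.toRingHom.injective
    rw [map_zero, ← Polynomial.eval_map_apply, hR1]
    exact hroot
  have hφL : (P.map ev).eval (φ L) = 0 := by
    rw [← hR2]
    show (R.map φ.toRingHom).eval (φ.toRingHom L) = 0
    rw [Polynomial.eval_map_apply, hR0, map_zero]
  rw [hP, Polynomial.map_prod, Polynomial.eval_prod, Finset.prod_eq_zero_iff] at hφL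
  obtain ⟨g, -, hg⟩ := hφL
  rw [Polynomial.map_sub, Polynomial.map_X, Polynomial.map_C, Polynomial.eval_sub,
    Polynomial.eval_X, Polynomial.eval_C, hlin, sub_eq_zero] at hg
  refine hc g ?_
  show Fintype.linearCombination k (d g) c = 0
  rw [Fintype.linearCombination_apply, ← sub_eq_zero.2 hg, hL, map_sum, ← Finset.sum_sub_distrib]
  refine Finset.sum_congr rfl fun s _ => ?_
  rw [map_mul, AlgHom.commutes, ← mul_sub, algebraMap_eq_C, HahnSeries.C_mul_eq_smul]

end FLTAgent.DS
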