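import Fermat.Agent.DS.Geom.RedFamily
import Fermat.Agent.DS.Geom.RedGalois
import Fermat.Agent.DS.FiniteImage
import Fermat.Agent.GoodRed.X0Datum
import Fermat.Agent.Igusa.Exports
import Mathlib.LinearAlgebra.Matrix.FixedDetMatrices
import Mathlib.FieldTheory.Extension

/-!
# The Galois group of the reduced field of full level is all of `SL(2, ℤ)`

The substitution `q ↦ ζ q` gives `T`; irreducibility of the modular equation modulo `p ∤ M` makes
the group transitive on the conjugates of `j (Mτ)`, so it contains a conjugate of the lower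
unipotent, hence everything.
-/

set_option autoImplicit false
set_option synthInstance.maxHeartbeats 100000

noncomputable section

open CongruenceSubgroup IsLocalRing ModularCurve Polynomial
open scoped MatrixGroups IntermediateField

namespace FLTAgent.DS.RedGal

open FLTAgent.ModPoly

local notation "Qbar" => AlgebraicClosure ℚ

/-- Evaluation inside an intermediate field. -/
theorem algebraMap_aeval_mk {k F : Type*} [Field k] [Field F] [Algebra k F]
    (K : IntermediateField k F) (z : K) (q : k[X]) :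
    algebraMap K F (Polynomial.aeval z q) = Polynomial.aeval (z : F) q :=
  (Polynomial.aeval_algebraMap_apply F z q).symm

/-- A monic polynomial over `κ (j)` with the conjugates of `j (Mτ)` as roots. -/
theorem exists_poly_conj {k : Type*} [Field k] (N : ℕ) [NeZero N] (ζ : kˣ)
    (hζ : (cyclotomic N k).IsRoot (ζ : k)) (K : IntermediateField k (LaurentSeries k))
    (hK : qExpand k N (jqModC k) ∈ K) :
    ∃ Ψ : Polynomial K, Ψ.map (algebraMap K (LaurentSeries k)) = conjProd N k ζ := by
  refine ⟨(phiK N k).map (Polynomial.aeval (R := k) (⟨_, hK⟩ : K)).toRingHom, ?_⟩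
  rw [← phiRoots_eq_conjProd N ζ hζ, phiRoots, Polynomial.map_map]
  congr 1
  exact RingHom.ext fun q => algebraMap_aeval_mk K _ q

/-- `β⁻¹ T β ≡ T ^ (d ^ 2)` modulo `M` for `β ∈ Γ₀(M)`. -/
theorem conj_T_congr {M : ℕ} {β : SL(2, ℤ)} (hβ0 : β ∈ Gamma0 M) :
    β⁻¹ * ModularGroup.T * β * (ModularGroup.T ^ (β 1 1 * β 1 1))⁻¹ ∈
      CongruenceSubgroup.Gamma M := by
  have hc : ((β 1 0 : ℤ) : ZMod M) = 0 := Gamma0_mem.mp hβ0
  have hdet : ((β 0 0 : ℤ) : ZMod M) * ((β 1 1 : ℤ) : ZMod M) = 1 := by
    have := congrArg (fun z : ℤ => (z : ZMod M)) (SL_det_eq β)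
    simpa [hc] using this
  rw [← zpow_neg, Gamma_mem]
  simp only [Matrix.SpecialLinearGroup.coe_mul, Matrix.SpecialLinearGroup.coe_inv,
    ModularGroup.coe_T, ModularGroup.coe_T_zpow, Matrix.adjugate_fin_two, Matrix.mul_apply,
    Fin.sum_univ_two]
  simp [hc]
  refine ⟨?_, ?_, ?_⟩ <;> grind

variable (M : ℕ) [NeZero M] (A : ValuationSubring (AlgebraicClosure ℚ))

local notation "κ" => ResidueField A

instance : IsAlgClosed (ResidueField A) := isAlgClosed_residue A

/-- The reduced series. -/
def yK (s : Idx M) : LaurentSeries κ := ser κ (zK M A) s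

/-- The reduced `j`. -/
def jK : LaurentSeries κ := castSer κ (jSer M)

/-- `κ (j)`. -/
abbrev K0 : IntermediateField κ (LaurentSeries κ) := κ⟮jK M A⟯

/-- The reduced field of full level. -/
def fullField : IntermediateField κ (LaurentSeries κ) :=
  IntermediateField.adjoin κ ({jK M A} ∪ Set.range (yK M A))

local instance (priority := high) algLaurentRedFull : Algebra κ (LaurentSeries κ) :=
  HahnSeries.powerSeriesAlgebra ℤ κ

local instance (priority := high) algFullFieldRedFull : Algebra κ (fullField M A) :=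
  SubalgebraClass.toAlgebra (fullField M A)

local instance (priority := high) algK0RedFull : Algebra κ (K0 M A) :=
  SubalgebraClass.toAlgebra (K0 M A)

local instance (priority := high) modFullFieldRedFull : Module κ (fullField M A) :=
  Algebra.toModule

theorem yK_mem (s : Idx M) : yK M A s ∈ fullField M A :=
  IntermediateField.subset_adjoin κ _ (Or.inr ⟨s, rfl⟩)

theorem jK_mem : jK M A ∈ fullField M A :=
  IntermediateField.subset_adjoin κ _ (Or.inl rfl)

theorem fullField_le : fullField M A ≤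
    (IntermediateField.adjoin (K0 M A) (Set.range (yK M A))).restrictScalars κ :=
  (IntermediateField.adjoin_adjoin_left κ _ _).ge

theorem coeffMap_residue_jA : coeffMap (residue A) (jA M A) = jK M A :=
  coeffMap_castSer _ _

theorem jK_eq : jK M A = qExpand κ M (jqModC κ) := by
  rw [jK, castSer, jSer, coeffMap_qExpand, coeffMap_jqModC']

/-- The endomorphism of the reduced field attached to `γ`, if there is one. -/
def Extends (γ : SL(2, ℤ)) (φ : fullField M A →ₐ[κ] fullField M A) : Prop :=
  ((φ ⟨_, jK_mem M A⟩ : fullField M A) : LaurentSeries κ) = jK M A ∧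
    ∀ s, ((φ ⟨_, yK_mem M A s⟩ : fullField M A) : LaurentSeries κ) = yK M A (act γ s)

variable {M A}

theorem exists_extends_of_hom {γ : SL(2, ℤ)} (φ : fullField M A →ₐ[κ] LaurentSeries κ)
    (hJ : φ ⟨_, jK_mem M A⟩ = jK M A) (hy : ∀ s, φ ⟨_, yK_mem M A s⟩ = yK M A (act γ s)) :
    ∃ ψ, Extends M A γ ψ := by
  have hle : ∀ z (hz : z ∈ fullField M A), φ ⟨z, hz⟩ ∈ fullField M A := by
    intro z hz
    induction hz using IntermediateField.adjoin_induction with
    | mem x hx =>
      rcases hx with rfl | ⟨s, rfl⟩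
      · exact hJ.symm ▸ jK_mem M A
      · exact (hy s).symm ▸ yK_mem M A _
    | algebraMap r =>
      exact (φ.commutes r).symm ▸ (fullField M A).algebraMap_mem r
    | add x y hx hy' ix iy =>
      exact (map_add φ ⟨x, hx⟩ ⟨y, hy'⟩).symm ▸ add_mem ix iy
    | inv x hx ix =>
      exact (map_inv₀ φ ⟨x, hx⟩).symm ▸ inv_mem ix
    | mul x y hx hy' ix iy =>
      exact (map_mul φ ⟨x, hx⟩ ⟨y, hy'⟩).symm ▸ mul_mem ix iy
  refine ⟨φ.codRestrict (fullField M A).toSubalgebra fun z => hle z.1 z.2, ?_, fun s => ?_⟩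
  · exact hJ
  · exact hy s

theorem Extends.comp {γ δ : SL(2, ℤ)} {φ ψ : fullField M A →ₐ[κ] fullField M A}
    (hφ : Extends M A γ φ) (hψ : Extends M A δ ψ) : Extends M A (γ * δ) (ψ.comp φ) := by
  refine ⟨?_, fun s => ?_⟩
  · have e : φ ⟨_, jK_mem M A⟩ = ⟨_, jK_mem M A⟩ := Subtype.ext hφ.1
    rw [AlgHom.comp_apply, e]
    exact hψ.1
  · have e : φ ⟨_, yK_mem M A s⟩ = ⟨_, yK_mem M A (act γ s)⟩ := Subtype.ext (hφ.2 s)
    rw [AlgHom.comp_apply, e, ← act_mul]
    exact hψ.2 _

theorem extends_id : Extends M A 1 (AlgHom.id κ (fullField M A)) := by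
  refine ⟨rfl, fun s => ?_⟩
  rw [act_one]
  rfl

theorem Extends.of_act_eq {γ δ : SL(2, ℤ)} {φ : fullField M A →ₐ[κ] fullField M A}
    (hφ : Extends M A γ φ) (h : ∀ s : Idx M, act γ s = act δ s) : Extends M A δ φ :=
  ⟨hφ.1, fun s => by rw [← h]; exact hφ.2 s⟩

variable (M A) in
/-- The matrices which act on the reduced field. -/
def fullH : Subgroup SL(2, ℤ) where
  carrier := {γ | ∃ φ, Extends M A γ φ}
  one_mem' := ⟨_, extends_id⟩
  mul_mem' := fun ⟨_, hφ⟩ ⟨_, hψ⟩ => ⟨_, hφ.comp hψ⟩
  inv_mem' := fun {γ} ⟨φ, hφ⟩ => by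
    obtain ⟨n, hn⟩ := Nat.exists_eq_succ_of_ne_zero (orderOf_pos (permHom M γ)).ne'
    have hpow : ∀ i, ∃ ψ, Extends M A (γ ^ i) ψ := by
      intro i
      induction i with
      | zero => exact ⟨_, (pow_zero γ).symm ▸ extends_id⟩
      | succ i ih =>
        obtain ⟨ψ, hψ⟩ := ih
        exact ⟨_, (pow_succ γ i).symm ▸ hψ.comp hφ⟩
    obtain ⟨ψ, hψ⟩ := hpow n
    refine ⟨ψ, hψ.of_act_eq fun s => ?_⟩
    have e : permHom M (γ ^ n)⁻¹ = permHom M γ := by
      rw [map_inv, inv_eq_iff_mul_eq_one, ← map_mul, ← pow_succ, map_pow,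
        show n + 1 = orderOf (permHom M γ) from hn.symm, pow_orderOf_eq_one]
    have e' := congrArg (fun σ : Equiv.Perm (Idx M) => σ s) e
    simpa only [permHom_apply, inv_inv] using e'

theorem act_congr {γ δ : SL(2, ℤ)} (h : γ * δ⁻¹ ∈ CongruenceSubgroup.Gamma M) (s : Idx M) :
    act γ s = act δ s := by
  conv_lhs => rw [← inv_mul_cancel_right γ δ, ← act_mul, act_of_mem_Gamma h]

theorem mem_fullH_congr {γ δ : SL(2, ℤ)} (h : γ * δ⁻¹ ∈ CongruenceSubgroup.Gamma M)
    (hδ : δ ∈ fullH M A) : γ ∈ fullH M A := by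
  obtain ⟨φ, hφ⟩ := hδ
  exact ⟨φ, hφ.of_act_eq fun s => (act_congr h s).symm⟩

variable (hM : (M : ResidueField A) ≠ 0)

include hM

theorem coeffMap_residue_yA' (s : Idx M) : coeffMap (residue A) (yA M A s) = yK M A s :=
  coeffMap_residue_yA hM s

/-- Symmetric expressions in the family reduce into `κ (j)`. -/
theorem exists_lift_of_invariant (P : Polynomial (MvPolynomial (Idx M) A))
    (h : ∀ γ : SL(2, ℤ), P.map ((MvPolynomial.aeval (yA M A)).toRingHom.comp
        (MvPolynomial.rename (act γ)).toRingHom) = P.map (MvPolynomial.aeval (yA M A)).toRingHom) :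
    ∃ Q : Polynomial (Polynomial A),
      Q.map (Polynomial.aeval (jA M A)).toRingHom = P.map (MvPolynomial.aeval (yA M A)).toRingHom := by
  rw [← Polynomial.mem_lifts, Polynomial.lifts_iff_coeff_lifts]
  intro i
  have := aeval_mem_adjoin hM (P.coeff i) fun γ => by
    have e := congrArg (fun R : Polynomial (LaurentSeries A) => R.coeff i) (h γ)
    simpa [Polynomial.coeff_map] using e
  rw [Algebra.adjoin_singleton_eq_range_aeval, AlgHom.mem_range] at this
  obtain ⟨q, hq⟩ := this
  exact ⟨q, by simp [hq]⟩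

omit hM in
variable (M A) in
/-- `A[X] → κ (j)`. -/
def evK : Polynomial A →+* K0 M A :=
  (Polynomial.aeval (R := κ) (⟨jK M A, IntermediateField.mem_adjoin_simple_self κ _⟩ :
    K0 M A)).toRingHom.comp (Polynomial.mapRingHom (residue A))

omit hM in
theorem evK_spec : (algebraMap (K0 M A) (LaurentSeries κ)).comp (evK M A) =
    (coeffMap (residue A)).comp (Polynomial.aeval (jA M A)).toRingHom := by
  refine RingHom.ext fun q => ?_
  simp only [RingHom.comp_apply, evK, Polynomial.coe_mapRingHom, AlgHom.toRingHom_eq_coe,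
    RingHom.coe_coe, GoodRed.coeffMap_aeval, coeffMap_residue_jA]
  exact (Polynomial.aeval_algHom_apply (K0 M A).val _ _).symm

/-- Each reduced series is a root of a split monic polynomial over `κ (j)`. -/
theorem exists_split_poly (s : Idx M) : ∃ Q : Polynomial (K0 M A), Q.Monic ∧
    Polynomial.aeval (yK M A s) Q = 0 ∧ (Q.map (algebraMap (K0 M A) (LaurentSeries κ))).Splits := by
  classical
  have : Fintype (permHom M).range := Fintype.ofFinite _
  set P : Polynomial (MvPolynomial (Idx M) A) :=
    ∏ g : (permHom M).range, (X - C (MvPolynomial.X (g.1 s))) with hP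
  obtain ⟨Q, hQ⟩ := exists_lift_of_invariant hM P fun γ => by
    rw [hP, Polynomial.map_prod, Polynomial.map_prod]
    refine Fintype.prod_equiv
      (Equiv.mulLeft (⟨permHom M γ⁻¹, _, rfl⟩ : (permHom M).range)) _ _ fun g => ?_
    simp [Equiv.Perm.mul_apply]
    rfl
  set Q' := Q.map (evK M A)
  have hmap : Q'.map (algebraMap (K0 M A) (LaurentSeries κ)) =
      ∏ g : (permHom M).range, (X - C (yK M A (g.1 s))) := by
    rw [Polynomial.map_map, evK_spec, ← Polynomial.map_map, hQ, hP, Polynomial.map_prod,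
      Polynomial.map_prod]
    simp [coeffMap_residue_yA' hM]
  refine ⟨Q', ?_, ?_, ?_⟩
  · refine Polynomial.monic_of_injective (algebraMap (K0 M A) (LaurentSeries κ)).injective ?_
    rw [hmap]
    exact monic_prod_of_monic _ _ fun g _ => monic_X_sub_C _
  · rw [Polynomial.aeval_def, ← Polynomial.eval_map, hmap, Polynomial.eval_prod]
    exact Finset.prod_eq_zero (Finset.mem_univ (1 : (permHom M).range)) (by simp)
  · rw [hmap]
    exact Polynomial.Splits.prod fun g _ => Polynomial.Splits.X_sub_C _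

/-- A root of the minimal polynomial is a value of some matrix of the group. -/
theorem exists_mem_fullH_of_root (s : Idx M) {y : LaurentSeries κ}
    (hy : Polynomial.aeval y (minpoly (K0 M A) (yK M A s)) = 0) :
    ∃ γ ∈ fullH M A, yK M A (act γ s) = y := by
  classical
  have hK : ∀ z ∈ Set.range (yK M A), IsIntegral (K0 M A) z ∧
      ((minpoly (K0 M A) z).map (algebraMap (K0 M A) (LaurentSeries κ))).Splits := by
    rintro _ ⟨t, rfl⟩
    obtain ⟨Q, hQm, hQ0, hQs⟩ := exists_split_poly hM t
    refine ⟨⟨Q, hQm, hQ0⟩, hQs.of_dvd ?_ (Polynomial.map_dvd _ (minpoly.dvd _ _ hQ0))⟩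
    exact (hQm.map _).ne_zero
  have hx : yK M A s ∈ IntermediateField.adjoin (K0 M A) (Set.range (yK M A)) :=
    IntermediateField.subset_adjoin _ _ ⟨s, rfl⟩
  obtain ⟨φ, hφ⟩ := IntermediateField.exists_algHom_adjoin_of_splits_of_aeval hK hx hy
  set φ' : fullField M A →ₐ[κ] LaurentSeries κ :=
    (φ.restrictScalars κ).comp (IntermediateField.inclusion (fullField_le M A)) with hφ'
  have hJ : φ' ⟨_, jK_mem M A⟩ = jK M A :=
    φ.commutes (⟨jK M A, IntermediateField.mem_adjoin_simple_self κ _⟩ : K0 M A)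
  have hy' : ∀ t, coeffMap (residue A) (yA M A t) ∈ fullField M A := fun t => by
    rw [coeffMap_residue_yA' hM]; exact yK_mem M A t
  have hJ' : coeffMap (residue A) (jA M A) ∈ fullField M A := by
    rw [coeffMap_residue_jA]; exact jK_mem M A
  have : Fintype (permHom M).range := Fintype.ofFinite _
  obtain ⟨⟨_, γ, rfl⟩, hg⟩ := reducedGaloisStatement A κ (residue A) residue_surjective (Idx M)
    (permHom M).range (yA M A) (jA M A)
    (fun P hP => aeval_mem_adjoin hM P fun δ => by
      have := hP ⟨permHom M δ⁻¹, _, rfl⟩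
      simp only [Subgroup.smul_def, Equiv.Perm.smul_def, permHom_apply, inv_inv] at this
      rw [this])
    (fullField M A) φ' hy' hJ' (by
      simp only [coeffMap_residue_jA]
      exact hJ)
  have hval : ∀ t, φ' ⟨_, yK_mem M A t⟩ = yK M A (act γ⁻¹ t) := fun t => by
    have := hg t
    simp only [coeffMap_residue_yA' hM, Subgroup.smul_def, Equiv.Perm.smul_def, permHom_apply]
      at this
    exact this
  obtain ⟨ψ, hψ⟩ := exists_extends_of_hom φ' hJ hval
  refine ⟨γ⁻¹, ⟨ψ, hψ⟩, ?_⟩
  rw [← hval s]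
  exact hφ

/-- The substitution `q ↦ ζ q`. -/
theorem T_mem_fullH : ModularGroup.T ∈ fullH M A := by
  let tw : LaurentSeries κ →ₐ[κ] LaurentSeries κ :=
    { twist (zK M A) with
      commutes' := fun r => by
        show twist (zK M A) (algebraMap κ (LaurentSeries κ) r) = _
        rw [ModPoly.algebraMap_eq_C, twist_C] }
  refine exists_extends_of_hom (tw.comp (fullField M A).val) ?_ fun s => ?_
  · show twist (zK M A) (jK M A) = jK M A
    rw [← coeffMap_residue_jA, zK, ← coeffMap_twist, twist_jA]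
  · show twist (zK M A) (yK M A s) = _
    rw [← coeffMap_residue_yA' hM, ← coeffMap_residue_yA' hM, zK, ← coeffMap_twist, twist_yA hM]

variable {p : ℕ} [Fact p.Prime] (hA : A.LiesOverPrime p) (hpM : ¬ p ∣ M)

include hA hpM

/-- All conjugates of `j (Mτ)` are conjugate over `κ (j)`. -/
theorem exists_mem_fullH_permIdx (r : HIdx M) :
    ∃ γ ∈ fullH M A, permIdx γ (topIdx M) = r := by
  have : CharP κ p := WeilPairing.charP_residueField Fact.out hA
  let qM : LaurentSeries κ →ₐ[κ] LaurentSeries κ :=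
    { qExpand κ M with
      commutes' := fun c => by
        show qExpand κ M (algebraMap κ (LaurentSeries κ) c) = _
        rw [ModPoly.algebraMap_eq_C, qExpand_C] }
  have hmap : (κ⟮jqModC κ⟯).map qM = K0 M A := by
    rw [IntermediateField.adjoin_map, Set.image_singleton, K0, jK_eq]
    rfl
  set top : Idx M := Sum.inr (topIdx M) with htop
  have htopv : yK M A top = qExpand κ M (jqNModC κ M) := by
    have : NeZero ((topIdx M : ℕ × ℕ).1 * (topIdx M : ℕ × ℕ).1) :=
      ⟨mul_ne_zero (NeZero.ne M) (NeZero.ne M)⟩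
    show jqConj κ (zK M A) (topIdx M : ℕ × ℕ) = _
    rw [jqConj_eq, show (topIdx M : ℕ × ℕ).1 * (topIdx M : ℕ × ℕ).2 = 0 from mul_zero _, pow_zero,
      twist_one_unit, jqNModC, qExpand_qExpand]
    exact qExpand_congr rfl _
  obtain ⟨Q, hQm, hQ0, -⟩ := exists_split_poly hM top
  have hint : IsIntegral (K0 M A) (yK M A top) := ⟨Q, hQm, hQ0⟩
  -- the degree of the minimal polynomial
  set m := minpoly (K0 M A) (yK M A top)
  have hdeg : ModularCurve.dedekindPsi M ≤ m.natDegree := by
    rw [← Igusa.natDegree_minpoly_jqNModC_charP M p hpM κ]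
    have hc : ∀ i, ∃ c : κ⟮jqModC κ⟯, qM c = (m.coeff i : LaurentSeries κ) := fun i => by
      have h1 : (m.coeff i : LaurentSeries κ) ∈ (κ⟮jqModC κ⟯).map qM := by
        rw [hmap]; exact (m.coeff i).2
      obtain ⟨c, hc, e⟩ := h1
      exact ⟨⟨c, hc⟩, e⟩
    choose c hc using hc
    set Q0 : Polynomial κ⟮jqModC κ⟯ := ∑ i ∈ m.support, Polynomial.monomial i (c i)
    have hQ0' : (Q0.map (algebraMap κ⟮jqModC κ⟯ (LaurentSeries κ))).map qM.toRingHom =
        m.map (algebraMap (K0 M A) (LaurentSeries κ)) := by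
      refine Polynomial.ext fun i => ?_
      simp only [Q0, Polynomial.coeff_map, Polynomial.finsetSum_coeff, Polynomial.coeff_monomial,
        Finset.sum_ite_eq']
      split_ifs with h
      · exact hc i
      · rw [Polynomial.notMem_support_iff.1 h]; simp
    have hd : Q0.natDegree = m.natDegree := by
      have := congrArg Polynomial.natDegree hQ0'
      rw [natDegree_map_eq_of_injective qM.toRingHom.injective,
        natDegree_map_eq_of_injective (algebraMap κ⟮jqModC κ⟯ (LaurentSeries κ)).injective,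
        natDegree_map_eq_of_injective (algebraMap (K0 M A) (LaurentSeries κ)).injective] at this
      exact this
    have hroot : Polynomial.aeval (jqNModC κ M) Q0 = 0 := by
      apply qM.toRingHom.injective
      rw [map_zero, Polynomial.aeval_def, ← Polynomial.eval_map, ← Polynomial.eval_map_apply, hQ0',
        show qM.toRingHom (jqNModC κ M) = yK M A top from htopv.symm, Polynomial.eval_map,
        ← Polynomial.aeval_def]
      exact minpoly.aeval _ _
    have hne : Q0 ≠ 0 := by
      intro e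
      rw [e, Polynomial.natDegree_zero] at hd
      exact (minpoly.natDegree_pos hint).ne' hd.symm
    rw [← hd]
    exact Polynomial.natDegree_le_of_dvd (minpoly.dvd _ _ hroot) hne
  -- the polynomial with all the conjugates as roots
  obtain ⟨Ψ, hΨmap⟩ := exists_poly_conj M (zK M A) (isRoot_cyclotomic_zK (M := M) (A := A))
    (K0 M A) (jK_eq M A ▸ IntermediateField.mem_adjoin_simple_self κ _)
  have hΨm : Ψ.Monic := by
    refine Polynomial.monic_of_injective (algebraMap (K0 M A) (LaurentSeries κ)).injective ?_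
    rw [hΨmap]
    exact monic_prod_of_monic _ _ fun g _ => monic_X_sub_C _
  have hΨd : Ψ.natDegree = ModularCurve.dedekindPsi M := by
    rw [← natDegree_map_eq_of_injective (algebraMap (K0 M A) (LaurentSeries κ)).injective, hΨmap,
      conjProd, natDegree_finsetProd_X_sub_C_eq_card, Finset.card_univ, card_hIdx]
  have hroots : ∀ t : HIdx M, Polynomial.aeval (yK M A (Sum.inr t)) Ψ = 0 := fun t => by
    rw [Polynomial.aeval_def, ← Polynomial.eval_map, hΨmap, conjProd, Polynomial.eval_prod]
    exact Finset.prod_eq_zero (Finset.mem_univ t) (by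
      rw [eval_sub, eval_X, eval_C]; exact sub_self _)
  have hm : m = Ψ :=
    (eq_of_monic_of_dvd_of_natDegree_le (minpoly.monic hint) hΨm
      (minpoly.dvd _ _ (hroots (topIdx M))) (hΨd.le.trans hdeg)).symm
  obtain ⟨γ, hγ, e⟩ := exists_mem_fullH_of_root hM top (y := yK M A (Sum.inr r))
    (show Polynomial.aeval _ m = 0 by rw [hm]; exact hroots r)
  refine ⟨γ, hγ, ?_⟩
  have hp := isPrimitiveRoot_zK hM
  exact Subtype.ext (jqConj_injective (IsPrimitiveRoot.coe_units_iff.mp hp)
    (permIdx γ (topIdx M)).2 r.2 e)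

/-- **Every matrix acts on the reduced field of full level.** -/
theorem fullH_eq_top : fullH M A = ⊤ := by
  have hT := T_mem_fullH hM
  obtain ⟨γ, hγ, e⟩ := exists_mem_fullH_permIdx hM hA hpM (permIdx ModularGroup.S (topIdx M))
  set β := ModularGroup.S * γ⁻¹ with hβ
  have hβ0 : β ∈ Gamma0 M := by
    rw [mem_Gamma0_iff_jMul_smul]
    intro τ
    rw [jMul_smul_eq_jConj, hβ, ← permIdx_permIdx, ← e, permIdx_permIdx, mul_inv_cancel,
      permIdx_one, jConj_topIdx]
  have hconj : β⁻¹ * ModularGroup.T * β ∈ fullH M A :=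
    mem_fullH_congr (δ := ModularGroup.T ^ (β 1 1 * β 1 1)) (conj_T_congr hβ0) (zpow_mem hT _)
  have hS' : (ModularGroup.S)⁻¹ * ModularGroup.T * ModularGroup.S ∈ fullH M A := by
    have := mul_mem (mul_mem (inv_mem hγ) hconj) hγ
    rwa [show γ⁻¹ * (β⁻¹ * ModularGroup.T * β) * γ
      = ModularGroup.S⁻¹ * ModularGroup.T * ModularGroup.S by rw [hβ]; group] at this
  have hS : ModularGroup.S ∈ fullH M A := by
    have h3 := inv_mem (mul_mem (mul_mem hT hS') hT)
    rwa [show (ModularGroup.T * (ModularGroup.S⁻¹ * ModularGroup.T * ModularGroup.S)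
      * ModularGroup.T)⁻¹ = ModularGroup.S by
        rw [inv_eq_iff_eq_inv]
        ext i j
        fin_cases i <;> fin_cases j <;>
          simp [Matrix.SpecialLinearGroup.coe_mul, Matrix.SpecialLinearGroup.coe_inv,
            ModularGroup.coe_T, ModularGroup.coe_S, Matrix.adjugate_fin_two, Matrix.mul_apply,
            Fin.sum_univ_two]] at h3
  rw [eq_top_iff, ← SpecialLinearGroup.SL2Z_generators, Subgroup.closure_le]
  rintro x (rfl | rfl)
  · exact hS
  · exact hT

/-- The automorphism attached to a matrix. -/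
theorem exists_extends (γ : SL(2, ℤ)) : ∃ φ, Extends M A γ φ := by
  have h : γ ∈ fullH M A := by rw [fullH_eq_top hM hA hpM]; trivial
  exact h

end FLTAgent.DS.RedGal
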