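import Fermat.Agent.GoodRed.GaussDegree
import Mathlib.RingTheory.IntegralClosure.Algebra.Basic
import Mathlib.RingTheory.IntegralClosure.IntegrallyClosed

/-!
# The valuation ring of a Gauss basis is the integral closure of the one of the coordinate

It is finite over its intersection with `L (x)`, so every automorphism fixing `x` preserves it and
its group of units.
-/

set_option autoImplicit false
set_option linter.unusedSectionVars false

noncomputable section

open Polynomial ModularCurve
open scoped IntermediateField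

namespace FLTAgent.DS

open GoodRed

variable {L k : Type*} [Field L] [Field k] {A : ValuationSubring L} {π : A →+* k}
  {F : IntermediateField L (LaurentSeries L)} {Fb : IntermediateField k (LaurentSeries k)}
  {n : ℕ} (G : GaussBasis π F Fb n) (hπ : IsResidueMap A π)

/-- The valuation ring cut out on `L (x)`, inside `F`. -/
def coordRing : Subring F :=
  (G.datum hπ).V.toSubring ⊓ L⟮G.xF⟯.toSubfield.toSubring

theorem mem_coordRing_iff {y : F} :
    y ∈ coordRing G hπ ↔ y ∈ (G.datum hπ).V ∧ y ∈ L⟮G.xF⟯ := Iff.rfl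

theorem aeval_xF_mem_adjoin (r : L[X]) : aeval G.xF r ∈ L⟮G.xF⟯ := by
  rw [aeval_eq_sum_range]
  exact sum_mem fun i _ =>
    L⟮G.xF⟯.smul_mem (pow_mem (IntermediateField.mem_adjoin_simple_self L G.xF) i)

/-- An integral polynomial in `x`. -/
theorem red_aeval_xF (r : A[X]) :
    (G.datum hπ).Red (aeval G.xF (r.map A.subtype))
      ⟨coeffMap π (aeval G.x r), G.coeffMap_den_mem r⟩ := by
  refine G.red_of_series hπ ?_ rfl
  rw [G.coe_aeval_xF, iotaL, coeffMap_aeval]

/-- The elements of the valuation ring are combinations of the basis over `coordRing`. -/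
theorem mem_span_coordRing {y : F} (hy : y ∈ (G.datum hπ).V) :
    y ∈ Submodule.span (coordRing G hπ) (Set.range G.eF) := by
  rcases eq_or_ne y 0 with rfl | hy0
  · exact zero_mem _
  have hy0' : (y : LaurentSeries L) ≠ 0 := by simpa using hy0
  obtain ⟨p, q, hq, hpq⟩ := G.span (y : LaurentSeries L) y.2
  obtain ⟨c₂, qA, hc₂, hqA, hqb⟩ := RedDatum.exists_scale_poly A π hq
  have hpne : ∃ i, p i ≠ 0 := by
    by_contra h
    push Not at h
    simp only [h, map_zero, zero_mul, Finset.sum_const_zero, mul_eq_zero] at hpq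
    rcases hpq with hpq | hpq
    · exact hy0' hpq
    · exact hq (transcendental_iff.1 (G.transcendental_xF hπ) _
        (Subtype.ext (by rw [G.coe_aeval_xF, hpq]; rfl)))
  obtain ⟨c₁, pA, hc₁, hpA, hpb⟩ := exists_scale_polys A π p hpne
  set c := c₂ / c₁
  -- the relation in `F`
  set den : F := aeval G.xF (qA.map A.subtype)
  set num : F := ∑ i, aeval G.xF ((pA i).map A.subtype) * G.eF i
  have hden := red_aeval_xF G hπ qA
  have hnum : (G.datum hπ).Red num
      ⟨coeffMap π (G.num pA), G.coeffMap_num_mem pA⟩ := by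
    refine G.red_of_series hπ ?_ rfl
    rw [G.iotaL_num, IntermediateField.coe_sum]
    refine Finset.sum_congr rfl fun i _ => ?_
    show ((aeval G.xF ((pA i).map A.subtype) : F) : LaurentSeries L) * _ = _
    rw [G.coe_aeval_xF]
  have hrel : y * den = algebraMap L F c * num := by
    refine Subtype.ext ?_
    simp only [MulMemClass.coe_mul, den, num, IntermediateField.coe_sum, G.coe_aeval_xF,
      IntermediateField.algebraMap_apply]
    rw [hqA, map_mul, aeval_C, Finset.mul_sum]
    simp only [hpA, map_mul, aeval_C]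
    show (y : LaurentSeries L) * (algebraMap L (LaurentSeries L) c₂ * _) =
      ∑ i, algebraMap L (LaurentSeries L) c * (algebraMap L (LaurentSeries L) c₁ * _ * _)
    rw [mul_left_comm, hpq, Finset.mul_sum]
    refine Finset.sum_congr rfl fun i _ => ?_
    have : c * c₁ = c₂ := div_mul_cancel₀ _ hc₁
    rw [← mul_assoc, ← mul_assoc, ← mul_assoc, ← map_mul, this]
  have hdb : (⟨coeffMap π (aeval G.x qA), G.coeffMap_den_mem qA⟩ : Fb) ≠ 0 := fun e =>
    G.coeffMap_den_ne_zero hqb (congrArg Subtype.val e)
  have hnb : (⟨coeffMap π (G.num pA), G.coeffMap_num_mem pA⟩ : Fb) ≠ 0 := fun e =>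
    G.coeffMap_num_ne_zero hpb (congrArg Subtype.val e)
  have hden0 : den ≠ 0 := hden.ne_zero hdb
  have hnum0 : num ≠ 0 := hnum.ne_zero hnb
  have hcV : algebraMap L F c ∈ (G.datum hπ).V := by
    have e : algebraMap L F c = y * (den / num) := by
      rw [← mul_div_assoc, hrel, mul_div_cancel_right₀ _ hnum0]
    rw [e]
    exact mul_mem hy (hden.div hnum hnb).mem
  have hy' : y = ∑ i, (algebraMap L F c * (aeval G.xF ((pA i).map A.subtype) / den)) * G.eF i := by
    refine mul_right_cancel₀ hden0 ?_
    rw [hrel, Finset.mul_sum, Finset.sum_mul]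
    refine Finset.sum_congr rfl fun i _ => ?_
    rw [div_eq_mul_inv]
    field_simp
  rw [hy']
  refine Submodule.sum_mem _ fun i _ => ?_
  have hmem : algebraMap L F c * (aeval G.xF ((pA i).map A.subtype) / den) ∈ coordRing G hπ :=
    (mem_coordRing_iff G hπ).2
      ⟨mul_mem hcV ((red_aeval_xF G hπ (pA i)).div hden hdb).mem,
        mul_mem (L⟮G.xF⟯.algebraMap_mem c)
          (div_mem (aeval_xF_mem_adjoin G _) (aeval_xF_mem_adjoin G _))⟩
  exact Submodule.smul_mem _ (⟨_, hmem⟩ : coordRing G hπ) (Submodule.subset_span ⟨i, rfl⟩)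

theorem eF_mem (i : Fin n) : G.eF i ∈ (G.datum hπ).V :=
  (G.red_of_series hπ (y := G.eF i) (z := G.ebF i) rfl rfl).mem

/-- The valuation ring is integral over `coordRing`. -/
theorem isIntegral_coordRing {y : F} (hy : y ∈ (G.datum hπ).V) :
    IsIntegral (coordRing G hπ) y := by
  set N := Submodule.span (coordRing G hπ) (Set.range G.eF)
  have hN : ∀ z ∈ N, z ∈ (G.datum hπ).V := fun z hz => by
    induction hz using Submodule.span_induction with
    | mem z hz => obtain ⟨i, rfl⟩ := hz; exact eF_mem G hπ i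
    | zero => exact zero_mem _
    | add a b _ _ ha hb => exact add_mem ha hb
    | smul r z _ hz => exact mul_mem ((mem_coordRing_iff G hπ).1 r.2).1 hz
  refine isIntegral_of_smul_mem_submodule N ?_ ?_ y fun z hz =>
    mem_span_coordRing G hπ (mul_mem hy (hN z hz))
  · intro e
    have h1 := mem_span_coordRing G hπ (one_mem (G.datum hπ).V)
    rw [show Submodule.span (coordRing G hπ) (Set.range G.eF) = ⊥ from e, Submodule.mem_bot] at h1
    exact one_ne_zero h1
  · exact Submodule.fg_span (Set.finite_range _)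

/-- An automorphism fixing `x` preserves the valuation ring. -/
theorem map_mem_valRing (σ : F ≃ₐ[L] F) (hσ : σ G.xF = G.xF) {y : F}
    (hy : y ∈ (G.datum hπ).V) : σ y ∈ (G.datum hπ).V := by
  obtain ⟨P, hP, hP0⟩ := isIntegral_coordRing G hπ hy
  have hfix : ∀ z ∈ L⟮G.xF⟯, σ z = z := fun z hz => by
    induction hz using IntermediateField.adjoin_induction with
    | mem w hw => rw [Set.mem_singleton_iff.1 hw, hσ]
    | algebraMap r => exact σ.commutes r
    | add u v _ _ hu hv => rw [map_add, hu, hv]
    | inv u _ hu => rw [map_inv₀, hu]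
    | mul u v _ _ hu hv => rw [map_mul, hu, hv]
  have hint : IsIntegral (G.datum hπ).V (σ y) := by
    refine ⟨P.map (Subring.inclusion (inf_le_left : coordRing G hπ ≤ _)), hP.map _, ?_⟩
    have h := congrArg (σ : F →+* F) hP0
    rw [Polynomial.hom_eval₂, map_zero] at h
    rw [Polynomial.eval₂_map]
    refine Eq.trans ?_ h
    congr 1
    exact RingHom.ext fun r => (hfix _ ((mem_coordRing_iff G hπ).1 r.2).2).symm
  obtain ⟨z, hz⟩ := IsIntegrallyClosed.isIntegral_iff.1 hint
  exact hz ▸ z.2

/-- An automorphism fixing `x` preserves the units. -/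
theorem exists_red_map (σ : F ≃ₐ[L] F) (hσ : σ G.xF = G.xF) {y : F} {z : Fb}
    (h : (G.datum hπ).Red y z) (hz : z ≠ 0) :
    ∃ z' : Fb, z' ≠ 0 ∧ (G.datum hπ).Red (σ y) z' := by
  obtain ⟨z', hz'⟩ := RedDatum.exists_red (map_mem_valRing G hπ σ hσ h.mem)
  refine ⟨z', fun e => ?_, hz'⟩
  obtain ⟨w, hw⟩ := RedDatum.exists_red (map_mem_valRing G hπ σ hσ (h.inv hz).mem)
  have h1 := hz'.mul hw
  rw [← map_mul, mul_inv_cancel₀ (h.ne_zero hz), map_one] at h1
  have h2 := RedDatum.red_one.unique h1
  rw [e, zero_mul] at h2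
  exact one_ne_zero h2

end FLTAgent.DS
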