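import Fermat.Agent.Mazur.Series
import Fermat.Agent.ModPoly.Hermite
import Fermat.Agent.DS.Geom.Defs
import Mathlib.Algebra.GroupWithZero.Units.Lemmas

/-!
# The expansion of `℘` at the points of order `M`, in `q = exp (2πiτ/M)`

`xVec ζ (a, b)` is the series of `(2πi)⁻² ℘_τ((aτ + b)/M) - 1/12`; it makes sense over every ring
with a root of unity `ζ` of order `M`.
-/

set_option autoImplicit false

noncomputable section

open Filter Function Complex
open UpperHalfPlane hiding I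
open scoped Real Topology MatrixGroups Manifold

namespace FLTAgent.DS.RedGal

open FLTAgent.EllParam FLTAgent.ModPoly

local notation "𝕢" => Periodic.qParam

variable {M : ℕ}

section Ring

variable {R : Type*} [CommRing R]

/-- `ζ ^ c` for `c` mod `M`. -/
def zpw (ζ : R) (c : ZMod M) : R := ζ ^ c.val

/-- The series of the point `(a, b)`. -/
def xVec (ζ : R) (v : ZMod M × ZMod M) : PowerSeries R :=
  PowerSeries.mk fun n =>
    if n = 0 then (if v.1 = 0 then zpw ζ v.2 * Ring.inverse ((1 - zpw ζ v.2) ^ 2) else 0)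
    else ∑ k ∈ n.divisors, (k : R) *
      ((if ((n / k : ℕ) : ZMod M) = v.1 then zpw ζ ((k : ZMod M) * v.2) else 0)
        + (if ((n / k : ℕ) : ZMod M) = -v.1 then zpw ζ (-((k : ZMod M) * v.2)) else 0)
        - 2 * (if ((n / k : ℕ) : ZMod M) = 0 then 1 else 0))

theorem coeff_xVec_zero (ζ : R) (v : ZMod M × ZMod M) :
    PowerSeries.coeff 0 (xVec ζ v) =
      if v.1 = 0 then zpw ζ v.2 * Ring.inverse ((1 - zpw ζ v.2) ^ 2) else 0 := by
  simp [xVec]

theorem coeff_xVec_of_ne_zero (ζ : R) (v : ZMod M × ZMod M) {n : ℕ} (hn : n ≠ 0) :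
    PowerSeries.coeff n (xVec ζ v) = ∑ k ∈ n.divisors, (k : R) *
      ((if ((n / k : ℕ) : ZMod M) = v.1 then zpw ζ ((k : ZMod M) * v.2) else 0)
        + (if ((n / k : ℕ) : ZMod M) = -v.1 then zpw ζ (-((k : ZMod M) * v.2)) else 0)
        - 2 * (if ((n / k : ℕ) : ZMod M) = 0 then 1 else 0)) := by
  simp [xVec, hn]

@[simp]
theorem zpw_zero (ζ : R) : zpw (M := M) ζ 0 = 1 := by simp [zpw]

theorem map_zpw {S : Type*} [CommRing S] (f : R →+* S) (ζ : R) (c : ZMod M) :
    f (zpw ζ c) = zpw (f ζ) c :=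
  map_pow f _ _

theorem map_ringInverse {S : Type*} [CommRing S] (f : R →+* S) {x : R} (hx : IsUnit x) :
    f (Ring.inverse x) = Ring.inverse (f x) := by
  obtain ⟨u, rfl⟩ := hx
  rw [Ring.inverse_unit, show f (u : R) = ((Units.map (f : R →* S) u : Sˣ) : S) from rfl,
    Ring.inverse_unit]
  rfl

/-- Change of ring. -/
theorem map_xVec {S : Type*} [CommRing S] (f : R →+* S) (ζ : R) (v : ZMod M × ZMod M)
    (h : v.1 = 0 → IsUnit (1 - zpw ζ v.2)) : (xVec ζ v).map f = xVec (f ζ) v := by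
  ext n
  rw [PowerSeries.coeff_map]
  rcases eq_or_ne n 0 with rfl | hn
  · rw [coeff_xVec_zero, coeff_xVec_zero]
    split_ifs with h0
    · rw [map_mul, map_ringInverse f ((h h0).pow 2), map_pow, map_sub, map_one, map_zpw]
    · exact map_zero f
  · simp only [coeff_xVec_of_ne_zero _ _ hn, map_sum, map_mul, map_natCast, map_sub, map_add,
      map_ofNat, apply_ite f, map_zero, map_one, map_zpw]

theorem castPS_xSer (ζ : R) (d : ZMod M) (hd : d ≠ 0) :
    (xSer M d).map (Int.castRingHom R) = xVec ζ (d, 0) := by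
  ext n
  rw [PowerSeries.coeff_map]
  rcases eq_or_ne n 0 with rfl | hn
  · simp [coeff_xVec_zero, xSer, hd]
  · simp only [coeff_xVec_of_ne_zero _ _ hn, xSer, PowerSeries.coeff_mk, map_sum, map_mul, map_sub,
      map_add, map_natCast, map_ofNat, apply_ite (Int.castRingHom R), map_zero, map_one, mul_zero,
      neg_zero, zpw_zero]

variable [NeZero M] {ζ : R} (hζ : ζ ^ M = 1)

include hζ

theorem zpw_add (a b : ZMod M) : zpw ζ (a + b) = zpw ζ a * zpw ζ b := by
  rw [zpw, zpw, zpw, ← pow_add, ZMod.val_add, ← pow_eq_pow_mod _ hζ]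

theorem zpw_natCast_mul (k : ℕ) (b : ZMod M) : zpw ζ ((k : ZMod M) * b) = zpw ζ b ^ k := by
  induction k with
  | zero => simp
  | succ k ih => rw [Nat.cast_succ, add_mul, one_mul, zpw_add hζ, ih, pow_succ]

theorem zpw_neg_mul_self (b : ZMod M) : zpw ζ (-b) * zpw ζ b = 1 := by
  rw [← zpw_add hζ, neg_add_cancel, zpw_zero]

theorem xVec_neg (v : ZMod M × ZMod M) : xVec ζ (-v) = xVec ζ v := by
  ext n
  rcases eq_or_ne n 0 with rfl | hn
  · simp only [coeff_xVec_zero, Prod.fst_neg, Prod.snd_neg, neg_eq_zero]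
    split_ifs with h0
    · have h1 := zpw_neg_mul_self hζ v.2
      have h2 : (1 - zpw ζ (-v.2)) ^ 2 = zpw ζ (-v.2) ^ 2 * (1 - zpw ζ v.2) ^ 2 := by
        linear_combination (-(1 + zpw ζ (-v.2) * zpw ζ v.2 - 2 * zpw ζ (-v.2))) * h1
      have hu : IsUnit (zpw ζ (-v.2) ^ 2) := (IsUnit.of_mul_eq_one _ h1).pow 2
      have h3 : zpw ζ (-v.2) ^ 2 * zpw ζ v.2 ^ 2 = 1 := by rw [← mul_pow, h1, one_pow]
      have h4 : Ring.inverse (zpw ζ (-v.2) ^ 2) = zpw ζ v.2 ^ 2 := by
        rw [← one_mul (Ring.inverse _), ← h3, mul_comm (zpw ζ (-v.2) ^ 2),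
          mul_assoc, Ring.mul_inverse_cancel _ hu, mul_one]
      rw [h2, Ring.mul_inverse_rev, h4]
      linear_combination (zpw ζ v.2 * Ring.inverse ((1 - zpw ζ v.2) ^ 2)) * h1
    · rfl
  · simp only [coeff_xVec_of_ne_zero _ _ hn, Prod.fst_neg, Prod.snd_neg, neg_neg, mul_neg]
    exact Finset.sum_congr rfl fun k _ => by ring

/-- The first three coefficients at a point `(0, b)`. -/
theorem coeff_xVec_level (b : ZMod M) :
    PowerSeries.coeff M (xVec ζ ((0 : ZMod M), b)) = zpw ζ b + zpw ζ (-b) - 2 ∧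
    PowerSeries.coeff (2 * M) (xVec ζ ((0 : ZMod M), b)) =
      2 * (zpw ζ b ^ 2 + zpw ζ (-b) ^ 2 - 2) + (zpw ζ b + zpw ζ (-b) - 2) := by
  have hM := Nat.pos_of_ne_zero (NeZero.ne M)
  have hz : ∀ k : ℕ, zpw ζ (-((k : ZMod M) * b)) = zpw ζ (-b) ^ k := fun k => by
    rw [← zpw_natCast_mul hζ, mul_neg]
  constructor
  · rw [coeff_xVec_of_ne_zero _ _ hM.ne']
    rw [Finset.sum_eq_single_of_mem 1 (Nat.one_mem_divisors.2 hM.ne') fun k hk hk1 => ?_]
    · simp
    · have hkd := Nat.dvd_of_mem_divisors hk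
      have h0 : ((M / k : ℕ) : ZMod M) ≠ 0 := by
        rw [Ne, ZMod.natCast_eq_zero_iff]
        intro h
        have h1 : M / k < M := Nat.div_lt_self hM (by
          have := Nat.pos_of_mem_divisors hk; omega)
        exact absurd (Nat.le_of_dvd (Nat.div_pos (Nat.le_of_dvd hM hkd)
          (Nat.pos_of_mem_divisors hk)) h) (not_le.2 h1)
      simp [h0]
  · have h2M : (2 * M : ℕ) ≠ 0 := by omega
    rw [coeff_xVec_of_ne_zero _ _ h2M]
    rw [← Finset.sum_subset (s₁ := {1, 2}) ?_ fun k hk hk1 => ?_]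
    · rw [Finset.sum_pair (by norm_num), Nat.div_one, Nat.mul_div_cancel_left M two_pos]
      simp only [Nat.cast_mul, ZMod.natCast_self, mul_zero, if_true, neg_zero, mul_one]
      rw [zpw_natCast_mul hζ, zpw_natCast_mul hζ, hz, hz]
      push_cast
      ring
    · intro k hk
      simp only [Finset.mem_insert, Finset.mem_singleton] at hk
      rcases hk with rfl | rfl <;> simp [hM.ne']
    · have hkd := Nat.dvd_of_mem_divisors hk
      have h0 : ((2 * M / k : ℕ) : ZMod M) ≠ 0 := by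
        rw [Ne, ZMod.natCast_eq_zero_iff]
        rintro ⟨j, hj⟩
        have h1 : k * (M * j) = 2 * M := by rw [← hj, Nat.mul_div_cancel' hkd]
        have h2 : k * j = 2 := by
          rw [mul_left_comm, mul_comm 2] at h1
          exact Nat.eq_of_mul_eq_mul_left hM h1
        simp only [Finset.mem_insert, Finset.mem_singleton, not_or] at hk1
        rcases (Nat.dvd_prime Nat.prime_two).1 ⟨j, h2.symm⟩ with h | h
        · exact hk1.1 h
        · exact hk1.2 h
      simp [h0]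

end Ring

section Complex

variable (M) [NeZero M]

/-- `exp (2πi/M)` as a number. -/
abbrev zC : ℂ := ((zetaC M : ℂˣ) : ℂ)

theorem zC_pow : zC M ^ M = 1 := by
  rw [← Units.val_pow_eq_pow_val, (isPrimitiveRoot_zetaC M).pow_eq_one, Units.val_one]

variable {M}

omit [NeZero M] in
theorem zpw_zC (b : ZMod M) : zpw (zC M) b = qe ((((b.val : ℝ) / M : ℝ)) : ℂ) := by
  rw [zpw, zC, zetaC, Units.val_mk0, qe, ← Complex.exp_nat_mul]
  congr 1
  push_cast
  ring

theorem zpw_zC_neg (b : ZMod M) : zpw (zC M) (-b) = (zpw (zC M) b)⁻¹ :=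
  eq_inv_of_mul_eq_one_left (zpw_neg_mul_self (zC_pow M) b)

theorem norm_zpw_zC (b : ZMod M) : ‖zpw (zC M) b‖ = 1 := by
  rw [zpw_zC]
  exact norm_qe_real _

theorem summable_Su_mul {q u : ℂ} (hq : ‖q‖ < 1) (hu : ‖u‖ = 1) {ι : Type*} (g : ι → ℕ)
    (hg : Summable fun i => ‖q‖ ^ g i) (hg0 : ∀ i, g i ≠ 0) :
    Summable fun i => Su (q ^ g i * u) := by
  refine Summable.of_norm_bounded (hg.div_const ((1 - ‖q‖) ^ 2)) fun i => ?_
  have h1 : ‖q ^ g i * u‖ = ‖q‖ ^ g i := by rw [norm_mul, norm_pow, hu, mul_one]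
  calc ‖Su (q ^ g i * u)‖ ≤ ‖q ^ g i * u‖ / (1 - ‖q‖) ^ 2 :=
        norm_Su_le hq (h1.trans_le (pow_le_of_le_one (norm_nonneg _) hq.le (hg0 i)))
    _ = _ := by rw [h1]

/-- The sum of the series of a point of order `M`. -/
theorem hasSum_xVec {q : ℂ} (hq : ‖q‖ < 1) (v : ZMod M × ZMod M) :
    HasSum (fun N : ℕ => PowerSeries.coeff N (xVec (zC M) v) * q ^ N)
      (Su (q ^ v.1.val * zpw (zC M) v.2) + ∑' m : ℕ+,
        (Su (q ^ (M * m + v.1.val) * zpw (zC M) v.2)
          + Su (q ^ (M * m - v.1.val) * (zpw (zC M) v.2)⁻¹) - 2 * Su (q ^ (M * (m : ℕ))))) := by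
  classical
  set u := zpw (zC M) v.2 with hu_def
  set α := v.1.val with hα
  have hu : ‖u‖ = 1 := norm_zpw_zC _
  have hu' : ‖u⁻¹‖ = 1 := by rw [norm_inv, hu, inv_one]
  have hM := Nat.pos_of_ne_zero (NeZero.ne M)
  have hαM : α < M := ZMod.val_lt _
  have hαc : (α : ZMod M) = v.1 := ZMod.natCast_zmod_val _
  -- the three kinds of rows
  set f1 : ℕ → ℂ := fun l => if (l : ZMod M) = v.1 then Su (q ^ l * u) else 0 with hf1
  set f2 : ℕ+ → ℂ := fun l => if ((l : ℕ) : ZMod M) = -v.1 then Su (q ^ (l : ℕ) * u⁻¹) else 0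
    with hf2
  set f3 : ℕ+ → ℂ := fun l => if ((l : ℕ) : ZMod M) = 0 then Su (q ^ (l : ℕ)) else 0 with hf3
  have hgeo : ∀ {ι : Type} (g : ι → ℕ), Function.Injective g → Summable fun i => ‖q‖ ^ g i :=
    fun g hg => (summable_geometric_of_lt_one (norm_nonneg q) hq).comp_injective hg
  have i1 : Function.Injective fun m : ℕ+ => M * (m : ℕ) + α := fun a b e =>
    PNat.coe_injective (Nat.eq_of_mul_eq_mul_left hM (by simpa using e))
  have hpos : ∀ m : ℕ+, α < M * (m : ℕ) := fun m =>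
    hαM.trans_le (Nat.le_mul_of_pos_right M m.pos)
  have i2 : Function.Injective fun m : ℕ+ => M * (m : ℕ) - α := fun a b e =>
    PNat.coe_injective (Nat.eq_of_mul_eq_mul_left hM (by
      have := hpos a; have := hpos b; simp only at e; omega))
  have i3 : Function.Injective fun m : ℕ+ => M * (m : ℕ) := fun a b e =>
    PNat.coe_injective (Nat.eq_of_mul_eq_mul_left hM e)
  have s1 := summable_Su_mul hq hu _ (hgeo _ i1) fun m => by have := hpos m; omega
  have s2 := summable_Su_mul hq hu' _ (hgeo _ i2) fun m => by have := hpos m; omega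
  have s3 : Summable fun m : ℕ+ => Su (q ^ (M * (m : ℕ))) := by
    simpa using summable_Su_mul hq (u := 1) norm_one _ (hgeo _ i3) fun m => by
      simp [hM.ne']
  -- reindexing
  have h1 : HasSum f1 (Su (q ^ α * u) + ∑' m : ℕ+, Su (q ^ (M * m + α) * u)) := by
    have hg : Function.Injective fun j : ℕ => M * j + α := fun a b e =>
      Nat.eq_of_mul_eq_mul_left hM (by simpa using e)
    refine (hg.hasSum_iff ?_).1 ?_
    · intro l hl
      rw [hf1]
      refine if_neg fun e => hl ⟨l / M, ?_⟩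
      have : l % M = α := by rw [hα, ← e, ZMod.val_natCast]
      simp only
      rw [← this, Nat.div_add_mod]
    · have e : (f1 ∘ fun j : ℕ => M * j + α) = fun j => Su (q ^ (M * j + α) * u) := by
        funext j
        simp [hf1, hαc]
      rw [e]
      have hs : Summable fun j : ℕ => Su (q ^ (M * (j + 1) + α) * u) :=
        s1.comp_injective (i := fun j : ℕ => (⟨j + 1, j.succ_pos⟩ : ℕ+)) fun a b h => by
          simpa using congrArg PNat.val h
      have := (hasSum_nat_add_iff (f := fun j : ℕ => Su (q ^ (M * j + α) * u)) 1).1 hs.hasSum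
      simp only [Finset.sum_range_one, mul_zero, zero_add] at this
      rwa [add_comm (Su _), tsum_pnat_eq_tsum_succ (f := fun m => Su (q ^ (M * m + α) * u))]
  have h2 : HasSum f2 (∑' m : ℕ+, Su (q ^ (M * m - α) * u⁻¹)) := by
    set g : ℕ+ → ℕ+ := fun m => ⟨M * m - α, by have := hpos m; omega⟩
    have hg : Function.Injective g := fun a b e => i2 (congrArg PNat.val e)
    refine (hg.hasSum_iff ?_).1 ?_
    · intro l hl
      rw [hf2]
      refine if_neg fun e => ?_
      obtain ⟨j, hj⟩ : M ∣ (l : ℕ) + α := by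
        rw [← ZMod.natCast_eq_zero_iff, Nat.cast_add, e, hαc, neg_add_cancel]
      rcases Nat.eq_zero_or_pos j with rfl | hj0
      · have := l.pos; omega
      · exact hl ⟨⟨j, hj0⟩, PNat.coe_injective (show M * j - α = (l : ℕ) by omega)⟩
    · refine s2.hasSum.congr_fun fun m => ?_
      have : ((M * m - α : ℕ) : ZMod M) = -v.1 := by
        rw [Nat.cast_sub (hpos m).le]; simp [hαc]
      exact if_pos this
  have h3 : HasSum f3 (∑' m : ℕ+, Su (q ^ (M * (m : ℕ)))) := by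
    set g : ℕ+ → ℕ+ := fun m => ⟨M * m, Nat.mul_pos hM m.pos⟩
    have hg : Function.Injective g := fun a b e => i3 (congrArg PNat.val e)
    refine (hg.hasSum_iff ?_).1 ?_
    · intro l hl
      rw [hf3]
      refine if_neg fun e => ?_
      obtain ⟨j, hj⟩ := (ZMod.natCast_eq_zero_iff _ _).1 e
      rcases Nat.eq_zero_or_pos j with rfl | hj0
      · have := l.pos; omega
      · exact hl ⟨⟨j, hj0⟩, PNat.coe_injective hj.symm⟩
    · refine s3.hasSum.congr_fun fun m => ?_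
      exact if_pos (show ((M * m : ℕ) : ZMod M) = 0 by simp)
  -- the double series
  set F : ℕ+ × ℕ+ → ℂ := fun c => ((c.2 : ℕ) : ℂ) *
    ((if ((c.1 : ℕ) : ZMod M) = v.1 then u ^ (c.2 : ℕ) else 0)
      + (if ((c.1 : ℕ) : ZMod M) = -v.1 then u⁻¹ ^ (c.2 : ℕ) else 0)
      - 2 * (if ((c.1 : ℕ) : ZMod M) = 0 then 1 else 0)) * q ^ ((c.1 : ℕ) * c.2) with hF_def
  have hF : Summable F := by
    refine Summable.of_norm_bounded ((summable_prod_mul_pow 1 hq).norm.mul_left 4) fun c => ?_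
    simp only [F, pow_one, norm_mul]
    have hb : ‖(if ((c.1 : ℕ) : ZMod M) = v.1 then u ^ (c.2 : ℕ) else 0)
        + (if ((c.1 : ℕ) : ZMod M) = -v.1 then u⁻¹ ^ (c.2 : ℕ) else 0)
        - 2 * (if ((c.1 : ℕ) : ZMod M) = 0 then 1 else 0)‖ ≤ 4 := by
      refine (norm_sub_le _ _).trans ((add_le_add (norm_add_le _ _) le_rfl).trans ?_)
      have a1 : ‖(if ((c.1 : ℕ) : ZMod M) = v.1 then u ^ (c.2 : ℕ) else 0)‖ ≤ 1 := by
        split_ifs <;> simp [hu]
      have a2 : ‖(if ((c.1 : ℕ) : ZMod M) = -v.1 then u⁻¹ ^ (c.2 : ℕ) else 0)‖ ≤ 1 := by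
        split_ifs <;> simp [hu]
      have a3 : ‖2 * (if ((c.1 : ℕ) : ZMod M) = 0 then (1 : ℂ) else 0)‖ ≤ 2 := by
        split_ifs <;> simp
      linarith
    nlinarith [mul_le_mul_of_nonneg_left hb
      (mul_nonneg (norm_nonneg ((c.2 : ℕ) : ℂ)) (norm_nonneg (q ^ ((c.1 : ℕ) * c.2))))]
  have hrow : ∀ l : ℕ+, HasSum (fun d : ℕ+ => F (l, d)) (f1 l + f2 l - 2 * f3 l) := by
    intro l
    have hv : ‖q ^ (l : ℕ)‖ < 1 := by
      rw [norm_pow]; exact pow_lt_one₀ (norm_nonneg _) hq l.ne_zero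
    have ha := hasSum_pnat_mul_geometric (v := q ^ (l : ℕ) * u) (by simpa [hu] using hv)
    have hb := hasSum_pnat_mul_geometric (v := q ^ (l : ℕ) * u⁻¹) (by simpa [hu] using hv)
    have hc := hasSum_pnat_mul_geometric hv
    have := ((ha.mul_left (if ((l : ℕ) : ZMod M) = v.1 then (1 : ℂ) else 0)).add
      (hb.mul_left (if ((l : ℕ) : ZMod M) = -v.1 then (1 : ℂ) else 0))).sub
      (hc.mul_left (2 * if ((l : ℕ) : ZMod M) = 0 then (1 : ℂ) else 0))
    simp only [hf1, hf2, hf3]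
    have e : f1 l + f2 l - 2 * f3 l = (if ((l : ℕ) : ZMod M) = v.1 then (1 : ℂ) else 0)
        * Su (q ^ (l : ℕ) * u) + (if ((l : ℕ) : ZMod M) = -v.1 then (1 : ℂ) else 0)
        * Su (q ^ (l : ℕ) * u⁻¹)
        - (2 * if ((l : ℕ) : ZMod M) = 0 then (1 : ℂ) else 0) * Su (q ^ (l : ℕ)) := by
      simp only [hf1, hf2, hf3, ite_mul, mul_ite, one_mul, zero_mul, mul_one, mul_zero]
    rw [e]
    refine this.congr_fun fun d => ?_
    simp only [F, mul_pow, ← pow_mul]
    split_ifs <;> ring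
  have hsig := sigmaAntidiagonalEquivProd.hasSum_iff.mpr hF.hasSum
  have hN : HasSum (fun N : ℕ+ => PowerSeries.coeff (N : ℕ) (xVec (zC M) v) * q ^ (N : ℕ))
      (∑' c, F c) := by
    refine hsig.sigma fun N => ?_
    have h := hasSum_fintype (fun x : (N : ℕ).divisorsAntidiagonal =>
      (F ∘ sigmaAntidiagonalEquivProd) ⟨N, x⟩)
    refine (?_ : PowerSeries.coeff (N : ℕ) (xVec (zC M) v) * q ^ (N : ℕ) = _) ▸ h
    simp only [Function.comp_apply, sigmaAntidiagonalEquivProd, Equiv.coe_fn_mk,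
      divisorsAntidiagonalFactors, PNat.mk_coe, F]
    rw [Finset.univ_eq_attach]
    refine Eq.trans ?_ ((N : ℕ).divisorsAntidiagonal.sum_attach
      (fun x : ℕ × ℕ => ((x.2 : ℕ) : ℂ) * ((if (x.1 : ZMod M) = v.1 then u ^ x.2 else 0)
        + (if (x.1 : ZMod M) = -v.1 then u⁻¹ ^ x.2 else 0)
        - 2 * (if (x.1 : ZMod M) = 0 then 1 else 0)) * q ^ (x.1 * x.2))).symm
    rw [coeff_xVec_of_ne_zero _ _ N.ne_zero, Finset.sum_mul,
      Nat.sum_divisorsAntidiagonal' fun a b => ((b : ℕ) : ℂ) *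
        ((if (a : ZMod M) = v.1 then u ^ b else 0)
        + (if (a : ZMod M) = -v.1 then u⁻¹ ^ b else 0)
        - 2 * (if (a : ZMod M) = 0 then 1 else 0)) * q ^ (a * b)]
    refine Finset.sum_congr rfl fun d hd => ?_
    rw [Nat.div_mul_cancel (Nat.dvd_of_mem_divisors hd), zpw_zC_neg,
      zpw_natCast_mul (zC_pow M), ← hu_def, inv_pow]
  have hrows := hF.hasSum.prod_fiberwise hrow
  have h1' : HasSum (fun l : ℕ+ => f1 l)
      (Su (q ^ α * u) + ∑' m : ℕ+, Su (q ^ (M * m + α) * u) - f1 0) := by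
    have h := h1.update 0 0
    rw [show (0 : ℂ) - f1 0 + (Su (q ^ α * u) + ∑' m : ℕ+, Su (q ^ (M * m + α) * u))
      = Su (q ^ α * u) + ∑' m : ℕ+, Su (q ^ (M * m + α) * u) - f1 0 by ring] at h
    refine ((PNat.coe_injective.hasSum_iff fun n hn => ?_).2 h).congr_fun fun l => ?_
    · rcases Nat.eq_zero_or_pos n with rfl | h0
      · simp
      · exact absurd ⟨⟨n, h0⟩, rfl⟩ hn
    · simp
  have hval := hrows.unique ((h1'.add h2).sub (h3.mul_left 2))
  rw [hval] at hN
  have h0 : HasSum (fun N : ℕ => if N = 0 then 0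
      else PowerSeries.coeff N (xVec (zC M) v) * q ^ N)
      (Su (q ^ α * u) + ∑' m : ℕ+, Su (q ^ (M * m + α) * u) - f1 0
        + ∑' m : ℕ+, Su (q ^ (M * m - α) * u⁻¹) - 2 * ∑' m : ℕ+, Su (q ^ (M * (m : ℕ)))) := by
    refine (PNat.coe_injective.hasSum_iff fun n hn => ?_).mp (hN.congr_fun fun N => by simp)
    rcases Nat.eq_zero_or_pos n with rfl | h0
    · simp
    · exact absurd ⟨⟨n, h0⟩, rfl⟩ hn
  have hc0 : PowerSeries.coeff 0 (xVec (zC M) v) = f1 0 := by
    simp only [hf1, coeff_xVec_zero, Nat.cast_zero, pow_zero, one_mul, ← hu_def,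
      Ring.inverse_eq_inv', Su, div_eq_mul_inv, eq_comm (a := (0 : ZMod M))]
  have hall := (hasSum_ite_eq 0 (f1 0)).add h0
  convert hall using 1
  · funext N
    rcases eq_or_ne N 0 with rfl | hN0
    · simp [hc0]
    · simp [hN0]
  · rw [(s1.add s2).tsum_sub (s3.mul_left 2), s1.tsum_add s2, tsum_mul_left]
    ring

/-- The sum of the series, as a function on the unit disc. -/
def xFn (v : ZMod M × ZMod M) (q : ℂ) : ℂ := ∑' N : ℕ, PowerSeries.coeff N (xVec (zC M) v) * q ^ N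

theorem hasFPowerSeriesOnBall_xFn (v : ZMod M × ZMod M) :
    HasFPowerSeriesOnBall (xFn v)
      (.ofScalars ℂ fun N => PowerSeries.coeff N (xVec (zC M) v)) 0 1 where
  r_le := by
    refine ENNReal.le_of_forall_nnreal_lt fun r hr => ?_
    refine FormalMultilinearSeries.le_radius_of_summable _ ?_
    have hr' : ‖((r : ℝ) : ℂ)‖ < 1 := by
      simpa [abs_of_nonneg r.coe_nonneg] using (show (r : ℝ) < 1 by exact_mod_cast hr)
    refine ((hasSum_xVec hr' v).summable.norm).congr fun n => ?_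
    rw [FormalMultilinearSeries.ofScalars_norm, norm_mul, norm_pow, Complex.norm_real,
      Real.norm_eq_abs, abs_of_nonneg r.coe_nonneg]
  r_pos := one_pos
  hasSum {q} hq := by
    have hq' : ‖q‖ < 1 := by
      rw [← ENNReal.ofReal_one, Metric.eball_ofReal] at hq
      simpa using hq
    simp only [zero_add, FormalMultilinearSeries.ofScalars_apply_eq, smul_eq_mul]
    exact (hasSum_xVec hq' v).summable.hasSum

omit [NeZero M] in
theorem qParam_eq_qe (τ : ℍ) : 𝕢 M τ = qe ((τ : ℂ) / M) := by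
  simp only [Periodic.qParam, qe, Complex.ofReal_natCast]
  congr 1
  ring

theorem norm_qParam_lt_one (τ : ℍ) : ‖𝕢 M τ‖ < 1 := by
  rw [Periodic.norm_qParam, Real.exp_lt_one_iff]
  refine div_neg_of_neg_of_pos ?_ (by exact_mod_cast Nat.pos_of_ne_zero (NeZero.ne M))
  have := τ.im_pos
  simp only [UpperHalfPlane.coe_im]
  nlinarith [Real.pi_pos]

/-- The expansion of `℘` at a point of order `M`. -/
theorem X_eq_xFn (τ : ℍ) {v : ZMod M × ZMod M} (hv : v ≠ 0) :
    Mazur.X M v.1 v.2 τ = 1 / 12 + xFn v (𝕢 M τ) := by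
  have hM : (M : ℂ) ≠ 0 := Nat.cast_ne_zero.mpr (NeZero.ne M)
  have hne : ¬(v.1 = 0 ∧ v.2 = 0) := fun h => hv (Prod.ext h.1 h.2)
  have hz : ∀ m n : ℤ, ((v.1.val : ℂ) * τ + v.2.val) / M ≠ m * τ + n := fun m n e =>
    Mazur.notMem_lattice τ hne (mem_stdPair.mpr ⟨m, n, e.symm⟩)
  rw [Mazur.X, nP_eq_tsum τ hz, xFn, (hasSum_xVec (norm_qParam_lt_one τ) v).tsum_eq, ← add_assoc]
  have e1 : qe (((v.1.val : ℂ) * τ + v.2.val) / M) = 𝕢 M τ ^ v.1.val * zpw (zC M) v.2 := by
    rw [zpw_zC, qParam_eq_qe, ← qe_nat_mul, ← qe_add]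
    congr 1
    push_cast
    field_simp
  have e2 : ∀ m : ℕ, qe τ ^ m = 𝕢 M τ ^ (M * m) := fun m => by
    rw [qParam_eq_qe, pow_mul, ← qe_nat_mul (M), mul_div_cancel₀ _ hM]
  have hq : 𝕢 M τ ≠ 0 := Periodic.qParam_ne_zero _
  rw [e1]
  congr 1
  refine tsum_congr fun m => ?_
  have hle : v.1.val ≤ M * m := (ZMod.val_lt _).le.trans (Nat.le_mul_of_pos_right M m.pos)
  rw [e2, pow_sub₀ _ hq hle, mul_inv, pow_add]
  ring_nf

/-- `(2πi)⁻² ℘_τ((aτ+b)/M) - 1/12`. -/
def xTau (v : ZMod M × ZMod M) (τ : ℍ) : ℂ := Mazur.X M v.1 v.2 τ - 1 / 12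

theorem mdiff_xTau {v : ZMod M × ZMod M} (hv : v ≠ 0) : MDiff (xTau v) := by
  rw [UpperHalfPlane.mdifferentiable_iff]
  have h := (hasFPowerSeriesOnBall_xFn v).analyticOnNhd
  refine DifferentiableOn.congr (f := fun z => xFn v (𝕢 M z)) ?_ fun z hz => ?_
  · intro z hz
    have hmem : 𝕢 M z ∈ Metric.eball (0 : ℂ) 1 := by
      rw [← ENNReal.ofReal_one, Metric.eball_ofReal]
      simpa using norm_qParam_lt_one ⟨z, hz⟩
    exact ((h _ hmem).differentiableAt.comp z (by fun_prop)).differentiableWithinAt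
  · simp only [Function.comp_apply, ofComplex_apply_of_im_pos hz, xTau, X_eq_xFn _ hv]
    ring_nf

theorem expands_xTau {v : ZMod M × ZMod M} (hv : v ≠ 0) :
    Expands M (xTau v) (HahnSeries.ofPowerSeries ℤ ℂ (xVec (zC M) v)) := by
  have hev : ∀ᶠ q in 𝓝 (0 : ℂ), HasSum
      (fun N => PowerSeries.coeff N (xVec (zC M) v) * q ^ N) (xFn v q) := by
    filter_upwards [Metric.ball_mem_nhds (0 : ℂ) one_pos] with q hq
    exact (hasSum_xVec (by simpa using hq) v).summable.hasSum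
  obtain ⟨han, htay⟩ := taylorPS_eq_of_eventually_hasSum hev
  refine ⟨0, xFn v, han, by rw [htay, HahnSeries.single_zero_one, one_mul],
    Eventually.of_forall fun τ => ?_⟩
  rw [zpow_zero, one_mul, xTau, X_eq_xFn τ hv, add_sub_cancel_left]

end Complex

end FLTAgent.DS.RedGal
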